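import Fermat.Agent.RT.MazurP.Res
import Fermat.Agent.RT.Mazur.OrdersBasic

/-!
# The zeros of the reduced unit at a level with good reduction

At level `p M`, given the genus identity, the count for the trivial class shows that all zeros of
the reduced unit away from the cusps have order divisible by twelve; a rational function with a
simple zero at such a point shows that the order is exactly twelve.
-/

set_option autoImplicit false
set_option linter.unusedSectionVars false

noncomputable section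

namespace Fermat.Agent.RT.MazurP

open ModularCurve AlgebraicCurve Fermat.Agent.Semistable Fermat.Agent.Arith
open Fermat.Agent.RT.Mazur

variable {A : ValuationSubring QBar} {p M : ℕ} [Fact p.Prime] [NeZero M] {hpM : ¬ p ∣ M}

/-- The inertia field as a coefficient field. -/
def unramField (hA : A.LiesOverPrime p) : CoefField A p where
  H := A.inertiaSubgroupIn ℚ
  le_inertia := le_rfl
  π := p
  π_ne_zero := Nat.cast_ne_zero.mpr (Fact.out : p.Prime).ne_zero
  π_nonunit := hA
  π_fixed τ _ := map_natCast τ p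
  e := 1
  e_pos := Nat.one_pos
  val_p := (pow_one _).symm
  discrete x hx hfix := by
    obtain ⟨k, hk, hku⟩ := RT.Mazur.exists_zpow_mul_unit hA (Fact.out : p.Prime) hx hfix
    refine ⟨k, ?_⟩
    have h := valuation_eq_one hk hku
    rw [map_mul, map_zpow₀] at h
    have hp0 : A.valuation (p : QBar) ≠ 0 :=
      (Valuation.ne_zero_iff _).mpr (Nat.cast_ne_zero.mpr (Fact.out : p.Prime).ne_zero)
    rw [zpow_neg] at h
    exact (inv_mul_eq_one₀ (zpow_ne_zero _ hp0)).mp h |>.symm

@[simp] theorem unramField_e (hA : A.LiesOverPrime p) :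
    (unramField (p := p) hA).e = 1 := rfl

@[simp] theorem unramField_π (hA : A.LiesOverPrime p) :
    (unramField (p := p) hA).π = (p : QBar) := rfl

theorem Kum.one_δ (C : CoefField A p) (hpM : ¬ p ∣ M) : (Kum.one C hpM).δ = 0 := rfl

variable [CharP (Res A) p] [FF.IsFunctionField (Res A) (KM A M)]

/-- The genus of the reduction at a good level. -/
theorem genus_KM_eq_of_goodM (hA : A.LiesOverPrime p) (hM : (M : Res A) ≠ 0) (hg : GoodM A M) :
    genusFF (Res A) (KM A M) = genusFF QBar (FB M) := by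
  refine le_antisymm ?_ hg
  obtain ⟨n₀, hn₀⟩ := exists_finrank_eq (A := A) M p hM
  obtain ⟨h1, -, h3⟩ := hn₀ n₀ le_rfl
  obtain ⟨hf, hd⟩ := finrank_redSub p hA (iota1 M) (fun _ x => mem_fracS_of_mem x) (HM M n₀)
  let q : (Unit → LaurentSeries (Res A)) →ₗ[Res A] LaurentSeries (Res A) := LinearMap.proj ()
  have hq : Function.Injective q := fun a b h => funext fun _ => h
  have hle : (redSub A (iota1 M) (HM M n₀)).map q ≤ HkS A M n₀ := by
    rintro _ ⟨s, hs, rfl⟩
    obtain ⟨x, hx, rfl⟩ := mem_redSub.mp hs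
    exact red1_mem_HkS M p hA hM hx
  have : FiniteDimensional (Res A) (HkS A M n₀) := by unfold HkS; infer_instance
  have h := Submodule.finrank_mono hle
  rw [← (Submodule.equivMapOfInjective q hq _).finrank_eq, hd, finrank_HkS] at h
  omega

/-- The degree of the divisor of zeros of the reduced unit. -/
theorem degree_oD (hM : (M : Res A) ≠ 0) (V : VUnit A hpM) :
    Divisor.degree V.oD = ((p : ℤ) - 1) * dedekindPsi M := by
  have e : V.oD = FF.div (Res A) V.ub + ((p : ℤ) - 1) • FF.poles (Res A) (jK A M) :=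
    Finsupp.ext fun P => by
      rw [Finsupp.add_apply, Finsupp.smul_apply, FF.div_apply, FF.poles_apply, smul_eq_mul]
      show V.oW P = _
      rw [VUnit.oW]
      split_ifs with hP
      · rw [max_eq_left (by omega)]; ring
      · rw [V.ub_cusp P (not_le.mp hP), max_eq_right (by omega)]; ring
  rw [e, map_add, map_zsmul, FF.degree_div, degree_poles_jK M hM, zero_add, smul_eq_mul]

/-- Every element of `L(n ∞)` mod `p` lifts with inertia-fixed coefficients. -/
theorem exists_fixed_lift_level (hA : A.LiesOverPrime p) (hM : (M : Res A) ≠ 0)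
    (hgood : GoodM A M) :
    ∃ n₀ : ℕ, ∀ n, n₀ ≤ n → ∀ r ∈ HkS A M n, ∃ x : loc2 A (iota1 M),
      (x : FB M) ∈ HM M n ∧ (∀ τ ∈ A.inertiaSubgroupIn ℚ, galF M τ x = x) ∧ red1 A M x = r := by
  classical
  have hp : p.Prime := Fact.out
  have hg := genus_KM_eq_of_goodM hA hM hgood
  obtain ⟨n₀, hn₀⟩ := exists_finrank_eq (A := A) M p hM
  refine ⟨n₀, fun n hn r hr => ?_⟩
  obtain ⟨h1, -, h3⟩ := hn₀ n hn
  have hfin : FiniteDimensional QBar (HM M n) := by unfold HM; infer_instance
  obtain ⟨w, hwl, hwW, hwfix, hwi⟩ := exists_fixed_redBasis hA hp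
    (le_refl (A.inertiaSubgroupIn ℚ)) (iota1 M) (fun _ x => mem_fracS_of_mem x)
    (fun τ _ _ x => coe_arithmeticRingAut τ x) (HM M n)
    (fun τ _ x hx => galF_mem_poles M (galF_jM M τ) hx)
  let xw : Fin (Module.finrank QBar (HM M n)) → loc2 A (iota1 M) := fun a =>
    ⟨w a, (mem_loc2 _).mpr (hwl a)⟩
  have hxr : ∀ a, red1 A M (xw a) = redL A ⟨_, hwl a ()⟩ := fun a => rfl
  have hli : LinearIndependent (Res A) fun a => red1 A M (xw a) := by
    have h := hwi.map' (LinearMap.proj () :
      (Unit → LaurentSeries (Res A)) →ₗ[Res A] LaurentSeries (Res A))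
      (LinearMap.ker_eq_bot.mpr fun a b h => funext fun _ => h)
    exact h
  have hmem : ∀ a, red1 A M (xw a) ∈ HkS A M n := fun a => red1_mem_HkS M p hA hM (hwW a)
  have : FiniteDimensional (Res A) (HkS A M n) := by unfold HkS; infer_instance
  have hspan : Submodule.span (Res A) (Set.range fun a => red1 A M (xw a)) = HkS A M n := by
    refine Submodule.eq_of_le_of_finrank_le (Submodule.span_le.mpr ?_) ?_
    · rintro _ ⟨a, rfl⟩; exact hmem a
    · rw [finrank_span_eq_card hli, Fintype.card_fin, finrank_HkS]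
      omega
  rw [← hspan, Submodule.mem_span_range_iff_exists_fun] at hr
  obtain ⟨c, rfl⟩ := hr
  choose a ha hafix hares using fun i => exists_inertiaFixed_lift hA hp (c i)
  let ac : Fin (Module.finrank QBar (HM M n)) → loc2 A (iota1 M) := fun i =>
    ⟨algebraMap QBar (FB M) (a i), algebraMap_mem_loc2 _ (ha i)⟩
  refine ⟨∑ i, ac i * xw i, ?_, fun τ hτ => ?_, ?_⟩
  · push_cast
    refine Submodule.sum_mem _ fun i _ => ?_
    rw [← Algebra.smul_def]
    exact Submodule.smul_mem _ _ (hwW i)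
  · push_cast
    rw [map_sum]
    refine Finset.sum_congr rfl fun i _ => ?_
    rw [map_mul, arithmeticRingAut_algebraMap, hafix i τ hτ,
      galF_eq_self_of_coe (hwfix i () τ hτ)]
  · rw [map_sum]
    refine Finset.sum_congr rfl fun i _ => ?_
    rw [map_mul, show red1 A M (ac i) = algebraMap (Res A) _ (c i) from ?_,
      ← HahnSeries.C_mul_eq_smul, algebraMap_laurentSeries_eq_single]
    · rfl
    · rw [← hares i]
      exact redL_algebraMap (ha i)
where
  galF_eq_self_of_coe {τ : GQ} {x : FB M}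
      (h : coeffMap (τ : QBar →+* QBar) (x : LSer) = (x : LSer)) : galF M τ x = x :=
    Subtype.ext ((coe_arithmeticRingAut τ x).trans h)

/-- Some rational reduction has a simple value at a given place. -/
theorem exists_rat_simple (hA : A.LiesOverPrime p) (hM : (M : Res A) ≠ 0) (hgood : GoodM A M)
    (P : Place (Res A) (KM A M)) (hP : 0 ≤ P.ord (jK A M)) :
    ∃ n₀ : ℕ, ∀ n, n₀ ≤ n → ∃ r : KM A M, (r : LaurentSeries (Res A)) ∈ ratHk A M p n ∧
      ∃ c : Res A, P.ord (r - algebraMap (Res A) (KM A M) c) = 1 := by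
  classical
  have := residueField_isAlgClosed A
  obtain ⟨n₁, hn₁⟩ := exists_le_span_ratHk p hA hM hgood
  obtain ⟨cE, hcE⟩ := FF.exists_ord_eq_neg (K := Res A) (F := KM A M)
  refine ⟨n₁ + (cE + 1).toNat, fun n hn => ?_⟩
  set pk := FF.poles (Res A) (jK A M)
  have hψ : (1 : ℤ) ≤ dedekindPsi M := by exact_mod_cast dedekindPsi_pos M
  have hnψ : (n : ℤ) ≤ n * dedekindPsi M := le_mul_of_one_le_right (by positivity) hψ
  obtain ⟨t, ht1, ht0, htP⟩ := hcE (n • pk - Finsupp.single P 1) (by
    rw [map_sub, map_nsmul, degree_poles_jK M hM, nsmul_eq_mul, FF.degree_single_one]; omega) P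
  rw [FF.mem_riemannRochSpace'] at ht1
  have htn : (t : LaurentSeries (Res A)) ∈ HkS A M n := by
    refine coe_mem_HkS.mpr ?_
    show t ∈ riemannRochSpace (n • pk)
    rw [FF.mem_riemannRochSpace']
    intro w
    refine FF.ordGe_anti w ?_ (ht1 w)
    rw [Finsupp.sub_apply]
    rcases eq_or_ne w P with rfl | hw
    · rw [Finsupp.single_eq_same]; omega
    · rw [Finsupp.single_eq_of_ne hw]; omega
  have hp0 : pk P = 0 := by rw [FF.poles_apply, max_eq_left (by omega)]
  have hreg : ∀ r : KM A M, (r : LaurentSeries (Res A)) ∈ HkS A M n → 0 ≤ P.ord r := fun r hr => by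
    have h := RedTorsion.mem_polesSpace.mp (coe_mem_HkS.mp hr) P
    rw [FF.mem_ordGe, hp0] at h
    rcases h with rfl | h
    · rw [P.ord_zero]
    · simpa using h
  by_contra hnone
  push Not at hnone
  let W : Submodule (Res A) (KM A M) :=
    { carrier := {y | ∃ c : Res A, y - algebraMap (Res A) (KM A M) c ∈ FF.ordGe P 2}
      zero_mem' := ⟨0, by rw [map_zero, sub_zero]; exact zero_mem _⟩
      add_mem' := by
        rintro x y ⟨c, hc⟩ ⟨d, hd⟩
        refine ⟨c + d, ?_⟩
        rw [map_add, add_sub_add_comm]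
        exact add_mem hc hd
      smul_mem' := by
        rintro a x ⟨c, hc⟩
        refine ⟨a * c, ?_⟩
        rw [Algebra.smul_def, map_mul, ← mul_sub]
        simpa using FF.mul_mem_ordGe P
          (FF.mem_ordGe_of_le P (FF.ord_algebraMap P a).ge) hc }
  have hW : HkS A M n ≤ W.map (valLin A M) := by
    refine (hn₁ n (by omega)).trans (Submodule.span_le.mpr ?_)
    intro r hr
    obtain ⟨hmem, -⟩ := (mem_HkS A M).mp hr.1
    refine ⟨⟨r, hmem⟩, ?_, rfl⟩
    obtain ⟨c, hc⟩ := RedTorsion.exists_sub_mem_ordGe_one P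
      (FF.mem_ordGe_of_le P (hreg ⟨r, hmem⟩ hr.1))
    refine ⟨c, ?_⟩
    rw [FF.mem_ordGe] at hc ⊢
    rcases hc with hc | hc
    · exact Or.inl hc
    · refine Or.inr ?_
      have := hnone ⟨r, hmem⟩ hr c
      omega
  obtain ⟨y, ⟨c, hc⟩, hyt⟩ := hW htn
  obtain rfl : y = t := valLin_injective A M hyt
  have h1 : y ∈ FF.ordGe P 1 := by
    have h := ht1 P
    rwa [Finsupp.sub_apply, Finsupp.smul_apply, hp0, Finsupp.single_eq_same, nsmul_zero, zero_sub,
      neg_neg] at h
  have hc0 : c = 0 := by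
    have h2 : algebraMap (Res A) (KM A M) c ∈ FF.ordGe P 1 := by
      have := sub_mem h1 (FF.ordGe_anti P (by norm_num : (1 : ℤ) ≤ 2) hc)
      rwa [sub_sub_cancel] at this
    by_contra hne
    have := FF.le_ord_of_mem_ordGe P ((_root_.map_ne_zero _).mpr hne) h2
    rw [FF.ord_algebraMap] at this
    omega
  rw [hc0, map_zero, sub_zero] at hc
  have := FF.le_ord_of_mem_ordGe P ht0 hc
  rw [htP, Finsupp.sub_apply, Finsupp.smul_apply, hp0, Finsupp.single_eq_same, nsmul_zero] at this
  omega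

/-- All zeros of the reduced unit away from the cusps have order twelve. -/
theorem VUnit.simple_of_goodM (hA : A.LiesOverPrime p) (hM : (M : Res A) ≠ 0) (hgood : GoodM A M)
    (hid : 12 * ((genusFF QBar (FB (p * M)) : ℤ) + 1 - 2 * genusFF QBar (FB M)) =
      ((p : ℤ) - 1) * dedekindPsi M)
    (V : VUnit A hpM) : V.Simple := by
  classical
  have hp : p.Prime := Fact.out
  have := residueField_isAlgClosed A
  have hgen : 12 * ((genusFF QBar (FB (p * M)) : ℤ) + 1 - 2 * genusFF (Res A) (KM A M)) =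
      Divisor.degree V.oD := by
    rw [genus_KM_eq_of_goodM hA hM hgood, degree_oD hM V, hid]
  set C := unramField (p := p) hA
  set K := Kum.one C hpM
  have hex : ∀ P, K.excess V 0 P = cdiv (V.oW P) 12 := by
    intro P
    have hs : K.s₀ P = 0 ∧ K.t₀ P = 0 := ⟨P.ord_one, P.ord_one⟩
    have hp0 : (0 : ℤ) < p := by exact_mod_cast hp.pos
    rw [Kum.excess, unramField_e, Finset.sum_range_one, Kum.lA, Kum.lB, hs.1, hs.2,
      Kum.one_δ, unramField_e]
    simp only [Nat.cast_zero, add_zero, zero_add, mul_zero, sub_zero, mul_one, zero_mul, neg_zero,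
      cdiv_zero, Nat.cast_one]
    refine eq_of_forall_ge_iff fun z => ?_
    rw [cdiv_le_iff (by positivity), cdiv_le_iff (by norm_num)]
    constructor <;> intro h <;> nlinarith
  have hle := (K.count V hA hM (k₀ := 0) (by rw [Kum.one_δ]; simp)).1
  rw [unramField_e, Nat.cast_one, one_mul] at hle
  have hdeg := K.degree_oD_eq V
  have h12 : ∀ P, (12 : ℤ) ∣ V.oW P := by
    intro P
    by_cases hP : P ∈ K.S₀ V
    swap
    · rw [(K.data_zero_of_notMem V hP).2.2]; exact dvd_zero _
    have hnn : ∀ Q ∈ K.S₀ V, 0 ≤ 12 * K.excess V 0 Q - V.oW Q := fun Q _ => by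
      rw [hex]; linarith [le_mul_cdiv (a := V.oW Q) (b := 12) (by norm_num)]
    have hsum : ∑ Q ∈ K.S₀ V, (12 * K.excess V 0 Q - V.oW Q) = 0 := by
      refine le_antisymm ?_ (Finset.sum_nonneg hnn)
      rw [Finset.sum_sub_distrib, ← Finset.mul_sum, ← hdeg, ← hgen]
      linarith
    have h := (Finset.sum_eq_zero_iff_of_nonneg hnn).mp hsum P hP
    rw [hex] at h
    exact dvd_of_mul_cdiv_eq (by linarith)
  refine ⟨fun P => ?_, hgen⟩
  rcases (V.oW_nonneg P).eq_or_lt with h0 | hpos
  · exact Or.inl h0.symm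
  refine Or.inr ?_
  obtain ⟨d, hd⟩ := h12 P
  suffices V.oW P ≤ 12 by omega
  have hPaff : 0 ≤ P.ord (jK A M) := by
    by_contra h
    rw [VUnit.oW, if_neg h] at hpos
    exact lt_irrefl _ hpos
  obtain ⟨n₁, hn₁⟩ := exists_rat_simple hA hM hgood P hPaff
  obtain ⟨n₂, hn₂⟩ := exists_fixed_lift_level hA hM hgood (p := p)
  obtain ⟨r, hr, c, hc⟩ := hn₁ (n₁ + n₂) (by omega)
  obtain ⟨x, hx, hxfix, hxr⟩ := hn₂ (n₁ + n₂) (by omega) _ hr.1
  set n := n₁ + n₂
  -- the function `x(τ) - x(p τ) ^ p`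
  set u : loc2 A (iota2 M p hpM) := ⟨_, upF_mem_loc2 M p hpM x.2⟩ with hu
  set d' : loc2 A (iota2 M p hpM) := ⟨_, downF_mem_loc2 M p hpM x.2⟩ with hd'
  set H : loc2 A (iota2 M p hpM) := u - d' ^ p with hH
  have hHmem : (H : FB (p * M)) ∈ HN M p (p * (p * n)) := by
    show upF M p (x : FB M) - downF M p hpM (x : FB M) ^ p ∈ _
    refine sub_mem (RedTorsion.polesSpace_mono ?_ (upF_mem_HN M p hx)) ?_
    · exact (Nat.le_mul_of_pos_left _ hp.pos).trans (Nat.le_mul_of_pos_left _ hp.pos)
    · exact pow_mem_polesSpace (downF_mem_HN M p hpM hx) p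
  have hHfix : ∀ τ ∈ C.H, galF (p * M) τ (H : FB (p * M)) = H := by
    intro τ hτ
    show galF (p * M) τ (upF M p (x : FB M) - downF M p hpM (x : FB M) ^ p) = _
    rw [map_sub, map_pow, galF_upF, galF_downF, hxfix τ hτ]
    rfl
  have hred : ∀ s, red2 A (iota2 M p hpM) H s =
      ![(r : LaurentSeries (Res A)) - (r : LaurentSeries (Res A)) ^ (p * p), 0] s := by
    intro s
    rw [hH, map_sub, map_pow, hu, hd', red2_upF, red2_downF, Pi.sub_apply, Pi.pow_apply, hxr]
    fin_cases s
    · simp only [Fin.zero_eta, Matrix.cons_val_zero]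
      rw [← hr.2.1, ← pow_mul]
    · simp only [Fin.mk_one, Matrix.cons_val_one, Matrix.cons_val_fin_one]
      rw [hr.2.1, sub_self]
  set a : KM A M := r - r ^ (p * p) with ha
  set cK := algebraMap (Res A) (KM A M) c with hcK
  have hu1 : r - cK ∈ FF.ordGe P 1 := FF.mem_ordGe_of_le P hc.ge
  have hordU : P.ord ((r - cK) ^ (p * p)) = (p * p : ℕ) := by rw [FF.ord_pow P, hc, mul_one]
  have hpp : 2 ≤ p * p := Nat.le_trans hp.two_le (Nat.le_mul_of_pos_left p hp.pos)
  have ha1 : a = (cK - cK ^ (p * p)) + ((r - cK) - (r - cK) ^ (p * p)) := by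
    have e : r ^ (p * p) = (r - cK) ^ (p * p) + cK ^ (p * p) := by
      have : CharP (KM A M) p := charP_of_injective_algebraMap (algebraMap (Res A) (KM A M)).injective p
      rw [← pow_two, ← add_pow_char_pow, sub_add_cancel]
    rw [ha, e]; ring
  have hdiff : (r - cK) - (r - cK) ^ (p * p) ≠ 0 ∧
      P.ord ((r - cK) - (r - cK) ^ (p * p)) = 1 := by
    have hne : r - cK ≠ 0 := fun h => by rw [h, P.ord_zero] at hc; omega
    have h := FF.ord_add_eq_left P hne (g := -(r - cK) ^ (p * p)) (Or.inr (by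
      rw [FF.ord_neg P, hordU, hc]; omega))
    rw [← sub_eq_add_neg, hc] at h
    exact h
  obtain ⟨h0', h1'⟩ : iota2 M p hpM 0 (H : FB (p * M)) ∈ locS A ∧
      algebraMap QBar LSer (C.π ^ 1)⁻¹ * iota2 M p hpM 1 (H : FB (p * M)) ∈ locS A := by
    refine ⟨(mem_loc2 _).mp H.2 0, ?_⟩
    rw [pow_one]
    exact C.inv_π_mul_mem hA hp ((mem_loc2 _).mp H.2 1)
      (fun τ hτ => by rw [← iota2_galF, hHfix τ hτ]) (by simpa [red2_apply] using hred 1)
  obtain ⟨b, hb⟩ : ∃ b : KM A M, redL A ⟨_, h1'⟩ = (b : LaurentSeries (Res A)) := by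
    by_cases h : redL A ⟨_, h1'⟩ = 0
    · exact ⟨0, h⟩
    · exact ⟨⟨_, isRed_mem_KM p M hpM hA hM (x := (H : FB (p * M))) (s := 1)
        ⟨h, (C.π ^ 1)⁻¹, inv_ne_zero (pow_ne_zero _ C.π_ne_zero), h1', rfl⟩⟩, rfl⟩
  have hbd := (bounds V C hA hM hHmem h0' h1' (a := a) (b := b) (by
    have := hred 0
    rw [red2_apply] at this
    exact this.trans (by rw [ha]; rfl)) hb P).1
  have hpole : FF.poles (Res A) (jK A M) P = 0 := by rw [FF.poles_apply, max_eq_left (by omega)]
  rw [unramField_e, hpole] at hbd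
  simp only [Nat.cast_one, one_mul, mul_zero, sub_zero, mul_one] at hbd
  by_cases hcc : cK - cK ^ (p * p) = 0
  · rw [hcc, zero_add] at ha1
    rw [← ha1] at hdiff
    have := hbd hdiff.1
    omega
  · exfalso
    have hord0 : P.ord (cK - cK ^ (p * p)) = 0 := by
      rw [hcK, ← map_pow, ← map_sub, FF.ord_algebraMap]
    have h := FF.ord_add_eq_left P hcc (g := (r - cK) - (r - cK) ^ (p * p))
      (Or.inr (by rw [hord0, hdiff.2]; omega))
    rw [← ha1, hord0] at h
    have := hbd h.1
    omega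

end Fermat.Agent.RT.MazurP

end
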