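import Fermat.Agent.RT.MazurP.Deriv

/-!
# The series attached to a weight-two form: `f E₄ E₆ / Δ`, `f³ E₆ / Δ` and `f / θ j`
-/

set_option autoImplicit false

noncomputable section

open ModularCurve

namespace Fermat.Agent.RT.MazurP

section CommRing

variable (R : Type*) [CommRing R]

/-- The series of a power series with integer coefficients. -/
def zSer (φ : PowerSeries ℤ) : LaurentSeries R :=
  HahnSeries.ofPowerSeries ℤ R (φ.map (Int.castRingHom R))

/-- The series of `1 / Δ`. -/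
def eDi : LaurentSeries R :=
  HahnSeries.single (-1 : ℤ) 1 *
    HahnSeries.ofPowerSeries ℤ R (dedekindEtaUnitInv.map (Int.castRingHom R))

theorem eD_mul_eDi : eD R * eDi R = 1 := by
  rw [eD, eDi, map_mul, PowerSeries.map_X, map_mul, HahnSeries.ofPowerSeries_X, mul_mul_mul_comm,
    HahnSeries.single_mul_single, ← map_mul, ← map_mul, dedekindEtaUnit_mul_inv]
  simp

theorem jqModC_mul_eD : jqModC R * eD R = e4 R ^ 3 := by
  have hj : jqModC R = e4 R ^ 3 * eDi R := by
    rw [jqModC, jNum, map_mul, map_mul, map_pow, map_pow, eDi, e4]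
    ring
  rw [hj, mul_assoc, mul_comm (eDi R), eD_mul_eDi, mul_one]

/-- The series of `f E₄ E₆ / Δ`. -/
def serY (φ : PowerSeries ℤ) : LaurentSeries R := zSer R φ * e4 R * e6 R * eDi R

/-- The series of `f³ E₆ / Δ`. -/
def serX (φ : PowerSeries ℤ) : LaurentSeries R := zSer R φ ^ 3 * e6 R * eDi R

variable {R} {S : Type*} [CommRing S] (u : R →+* S)

theorem coeffMap_zSer (φ : PowerSeries ℤ) : coeffMap u (zSer R φ) = zSer S φ := map_map_intCast u φ

theorem coeffMap_e4 : coeffMap u (e4 R) = e4 S := map_map_intCast u _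

theorem coeffMap_e6 : coeffMap u (e6 R) = e6 S := map_map_intCast u _

theorem coeffMap_eD : coeffMap u (eD R) = eD S := map_map_intCast u _

theorem coeffMap_eDi : coeffMap u (eDi R) = eDi S := by
  rw [eDi, eDi, map_mul, coeffMap_single, map_one, map_map_intCast u]

theorem coeffMap_serY (φ : PowerSeries ℤ) : coeffMap u (serY R φ) = serY S φ := by
  rw [serY, serY, map_mul, map_mul, map_mul, coeffMap_zSer, coeffMap_e4, coeffMap_e6, coeffMap_eDi]

theorem coeffMap_serX (φ : PowerSeries ℤ) : coeffMap u (serX R φ) = serX S φ := by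
  rw [serX, serX, map_mul, map_mul, map_pow, coeffMap_zSer, coeffMap_e6, coeffMap_eDi]

theorem e6_sq_complex : e4 ℂ ^ 3 - e6 ℂ ^ 2 = 1728 * eD ℂ := by
  let s : ModFun.BddAlg 1 →ₐ[ℂ] LaurentSeries ℂ :=
    (ModFun.laurentExp 1).comp (Subalgebra.inclusion (ModFun.BddAlg_le_CuspAlg 1))
  have hs : ∀ f, s f = HahnSeries.ofPowerSeries ℤ ℂ (ModFun.qExpBdd 1 f) :=
    ModFun.laurentExp_of_bdd 1
  set E4 : ModFun.BddAlg 1 := ⟨_, ModFun.E₄_mem_BddAlg⟩
  set E6 : ModFun.BddAlg 1 := ⟨_, E₆_mem_BddAlg⟩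
  have h4 : s E4 = e4 ℂ := by
    rw [hs, ModFun.qExpBdd_apply, Nat.cast_one, ModFun.qExpansion_E₄, e4]
  have h6 : s E6 = e6 ℂ := by
    rw [hs, ModFun.qExpBdd_apply, Nat.cast_one, qExpansion_E₆, e6]
  have hD : s (ModFun.discBdd 1) = eD ℂ := by
    rw [hs, ModFun.qExpBdd_apply, Nat.cast_one, eD]
    exact congrArg _ ModFun.qExpansion_discriminant
  have h : E4 ^ 3 - E6 ^ 2 = algebraMap ℂ (ModFun.BddAlg 1) 1728 * ModFun.discBdd 1 := by
    refine Subtype.ext (funext fun τ => ?_)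
    show ModularForm.E₄ τ ^ 3 - ModularForm.E₆ τ ^ 2 = 1728 * ModularForm.discriminant τ
    rw [ModularForm.discriminant_eq_E₄_cube_sub_E₆_sq]
    ring
  have h2 := congrArg s h
  rwa [map_sub, map_pow, map_pow, map_mul, AlgHom.commutes, h4, h6, hD, map_ofNat] at h2

variable (R) in
theorem jqModC_sub_mul_eD : (jqModC R - 1728) * eD R = e6 R ^ 2 := by
  have hZ : e4 ℤ ^ 3 - e6 ℤ ^ 2 = 1728 * eD ℤ := by
    refine HahnSeries.ext (funext fun k => Int.cast_injective (α := ℂ) ?_)
    have h := congrArg (fun x : LaurentSeries ℂ => x.coeff k) e6_sq_complex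
    rw [← eq_intCast (Int.castRingHom ℂ), ← eq_intCast (Int.castRingHom ℂ),
      ← coeffMap_coeff, ← coeffMap_coeff, map_sub, map_pow, map_pow, map_mul, map_ofNat,
      coeffMap_e4, coeffMap_e6, coeffMap_eD]
    exact h
  have h := congrArg (coeffMap (Int.castRingHom R)) hZ
  rw [map_sub, map_pow, map_pow, map_mul, map_ofNat, coeffMap_e4, coeffMap_e6, coeffMap_eD] at h
  linear_combination jqModC_mul_eD R + h

end CommRing

variable {K : Type*} [Field K]

theorem e4_ne_zero : e4 K ≠ 0 := fun h => by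
  have h0 := congrArg (fun x : LaurentSeries K => x.coeff ((0 : ℕ) : ℤ)) h
  simp only [e4, HahnSeries.ofPowerSeries_apply_coeff, PowerSeries.coeff_map,
    PowerSeries.coeff_zero_eq_constantCoeff, constantCoeff_eisenstein4, map_one] at h0
  simp at h0

theorem e6_ne_zero : e6 K ≠ 0 := fun h => by
  have h0 := congrArg (fun x : LaurentSeries K => x.coeff ((0 : ℕ) : ℤ)) h
  simp only [e6, HahnSeries.ofPowerSeries_apply_coeff, PowerSeries.coeff_map, eisenstein6,
    PowerSeries.coeff_mk, if_true, map_one] at h0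
  simp at h0

theorem eD_ne_zero : eD K ≠ 0 := fun h => by simpa [h] using eD_mul_eDi K

variable (K) in
/-- The series of `f / θ j`. -/
def serR (φ : PowerSeries ℤ) : LaurentSeries K :=
  -serY K φ / (jqModC K * (jqModC K - 1728))

theorem jqModC_mul_sub_ne_zero : jqModC K * (jqModC K - 1728) ≠ 0 := by
  intro h
  have := congrArg (fun x => x * (eD K * eD K)) h
  simp only [zero_mul] at this
  rw [mul_mul_mul_comm, jqModC_mul_eD, jqModC_sub_mul_eD] at this
  exact mul_ne_zero (pow_ne_zero 3 e4_ne_zero) (pow_ne_zero 2 e6_ne_zero) this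

theorem serR_mul_theta (φ : PowerSeries ℤ) :
    serR K φ * theta K (jqModC K) = zSer K φ := by
  refine mul_right_cancel₀ (mul_ne_zero (mul_ne_zero (eD_ne_zero (K := K)) (eD_ne_zero (K := K)))
    (eD_ne_zero (K := K))) ?_
  have hθ := theta_jqModC_mul_eD K
  have hr : serR K φ * (jqModC K * (jqModC K - 1728)) = -serY K φ :=
    div_mul_cancel₀ _ jqModC_mul_sub_ne_zero
  have hDD := eD_mul_eDi K
  have hj := jqModC_mul_eD K
  have hj' := jqModC_sub_mul_eD K
  refine mul_right_cancel₀ (mul_ne_zero (e4_ne_zero (K := K)) (e6_ne_zero (K := K))) ?_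
  rw [serY] at hr
  linear_combination (serR K φ * eD K ^ 2 * e4 K * e6 K) * hθ -
    eD K ^ 4 * hr +
    (serR K φ * eD K ^ 2 * (jqModC K - 1728) * eD K) * hj +
    (serR K φ * eD K ^ 2 * e4 K ^ 3) * hj' +
    (zSer K φ * e4 K * e6 K * eD K ^ 3) * hDD

theorem serR_pow_three (φ : PowerSeries ℤ) :
    serR K φ ^ 3 * (jqModC K * (jqModC K - 1728)) ^ 2 = -serX K φ := by
  refine mul_right_cancel₀ (jqModC_mul_sub_ne_zero (K := K)) ?_
  have hr : serR K φ * (jqModC K * (jqModC K - 1728)) = -serY K φ :=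
    div_mul_cancel₀ _ jqModC_mul_sub_ne_zero
  rw [mul_assoc, ← pow_succ, ← mul_pow, hr]
  refine mul_right_cancel₀ (pow_ne_zero 3 (eD_ne_zero (K := K))) ?_
  have hDD := eD_mul_eDi K
  have hj := jqModC_mul_eD K
  have hj' := jqModC_sub_mul_eD K
  rw [serY, serX]
  linear_combination (-(zSer K φ ^ 3) * (e4 K * e6 K) ^ 3 *
      ((eD K * eDi K) ^ 2 + eD K * eDi K)) * hDD +
    (zSer K φ ^ 3 * e6 K * eD K * eDi K * (jqModC K - 1728) * eD K) * hj +
    (zSer K φ ^ 3 * e6 K * eD K * eDi K * e4 K ^ 3) * hj'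

end Fermat.Agent.RT.MazurP

end
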