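import Fermat.Agent.Mazur.Moduli.Place
import Fermat.Agent.ModFun.Forms
import Fermat.Agent.ModFun.CuspPlaces
import Fermat.Agent.Semistable.Spaces
import Fermat.Agent.HeckeDuality.Coeff
import Fermat.Agent.RT.MazurP.Series

/-!
# `f E₄ E₆ / Δ` and `f³ E₆ / Δ` in the function field, for an integral cusp form `f` of weight two
-/

set_option autoImplicit false

noncomputable section

open UpperHalfPlane hiding I
open Filter CongruenceSubgroup AlgebraicCurve
open scoped Manifold MatrixGroups Topology ModularForm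

namespace Fermat.Agent.RT.MazurP

open Fermat.Agent.ModFun
open Fermat.Agent.Semistable (FB jM)

local notation "Qb" => AlgebraicClosure ℚ

variable {M : ℕ} [NeZero M]

omit [NeZero M] in
theorem isFormFun_levelOne {k : ℕ} (E : ModularForm 𝒮ℒ (k : ℤ)) : IsFormFun M k ⇑E :=
  ⟨E.holo', fun γ _ => Genus.slash_eq_self E γ, fun γ => by
    rw [Genus.slash_eq_self E γ]; exact ModularFormClass.bdd_at_infty E⟩

variable (f : CuspForm (Gamma0 M) 2)

theorem isFormFun_cuspForm : IsFormFun M 2 ⇑f :=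
  ⟨f.holo', fun γ hγ => SlashInvariantFormClass.slash_action_eq f _ ⟨γ, hγ, rfl⟩,
    fun γ => ModularFormClass.bdd_at_infty_slash f γ⟩

omit [NeZero M] in
theorem isFormFun_E₄ : IsFormFun M 4 ⇑ModularForm.E₄ := isFormFun_levelOne (k := 4) _

omit [NeZero M] in
theorem isFormFun_E₆ : IsFormFun M 6 ⇑ModularForm.E₆ := isFormFun_levelOne (k := 6) _

theorem isFormFun_formY : IsFormFun M (12 * 1) (⇑f * ⇑ModularForm.E₄ * ⇑ModularForm.E₆)  := by
  -- elaborated before the weights are compared: unifying `12 * 1` with a sum first is very slow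
  have h := ((isFormFun_cuspForm f).mul isFormFun_E₄).mul isFormFun_E₆
  exact h

theorem isFormFun_formX : IsFormFun M (12 * 1) (⇑f ^ 3 * ⇑ModularForm.E₆) := by
  have h := ((isFormFun_cuspForm f).pow 3 (by norm_num)).mul isFormFun_E₆
  exact h

/-- `f E₄ E₆ / Δ`. -/
def formY : Hol M := ⟨_, (isFormFun_formY f).div_disc_pow_mem⟩

/-- `f³ E₆ / Δ`. -/
def formX : Hol M := ⟨_, (isFormFun_formX f).div_disc_pow_mem⟩

theorem mem_BddAlg_one : (⇑f : ℍ → ℂ) ∈ BddAlg 1 :=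
  ⟨f.holo', fun τ => by
      simpa using SlashInvariantForm.vAdd_apply_of_mem_strictPeriods f τ
        (HeckeDuality.one_mem_periods M),
    by simpa using ModularFormClass.bdd_at_infty_slash f 1⟩

omit [NeZero M] in
/-- The expansion of a product over `Δ`. -/
theorem qExp_eq_of_mul_disc (h : Hol M) (G : BddAlg 1) {y : LaurentSeries ℂ}
    (he : ∀ τ, (h : ℍ → ℂ) τ * ModularForm.discriminant τ = (G : ℍ → ℂ) τ)
    (hy : HahnSeries.ofPowerSeries ℤ ℂ (qExpBdd 1 G) * eDi ℂ = y) : qExp M h = y := by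
  have hD : discSeries 1 = eD ℂ := by
    rw [discSeries, qExpBdd_apply, Nat.cast_one, eD]
    exact congrArg _ qExpansion_discriminant
  have h1 : Subalgebra.inclusion (Hol_le_CuspAlg_one (N := M)) h *
      Subalgebra.inclusion (BddAlg_le_CuspAlg 1) (discBdd 1) =
      Subalgebra.inclusion (BddAlg_le_CuspAlg 1) G := Subtype.ext (funext fun τ => he τ)
  have h2 := congrArg (laurentExp 1) h1
  rw [map_mul, laurentExp_of_bdd, laurentExp_of_bdd, ← discSeries, hD] at h2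
  rw [← hy, ← h2, mul_assoc, eD_mul_eDi, mul_one]
  rfl

variable {φ : PowerSeries ℤ} (hφ : ∀ n, ModularFormClass.qCoeff f n = ((φ.coeff n : ℤ) : ℂ))
include hφ

theorem qExpBdd_form :
    HahnSeries.ofPowerSeries ℤ ℂ (qExpBdd 1 ⟨⇑f, mem_BddAlg_one f⟩) = zSer ℂ φ := by
  rw [zSer]
  congr 1
  ext n
  rw [qExpBdd_apply, Nat.cast_one, PowerSeries.coeff_map]
  exact hφ n

theorem qExp_formY : qExp M (formY f) = serY ℂ φ := by
  refine qExp_eq_of_mul_disc _ (⟨⇑f, mem_BddAlg_one f⟩ * ⟨_, E₄_mem_BddAlg⟩ * ⟨_, E₆_mem_BddAlg⟩)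
    (fun τ => ?_) ?_
  · show (⇑f * ⇑ModularForm.E₄ * ⇑ModularForm.E₆) τ / ModularForm.discriminant τ ^ 1 *
      ModularForm.discriminant τ = _
    rw [pow_one, div_mul_cancel₀ _ (ModularForm.discriminant_ne_zero τ)]
    rfl
  · rw [map_mul, map_mul, map_mul, map_mul, qExpBdd_form f hφ, qExpBdd_apply, qExpBdd_apply,
      Nat.cast_one, qExpansion_E₄, qExpansion_E₆, serY, e4, e6]

theorem qExp_formX : qExp M (formX f) = serX ℂ φ := by
  refine qExp_eq_of_mul_disc _ (⟨⇑f, mem_BddAlg_one f⟩ ^ 3 * ⟨_, E₆_mem_BddAlg⟩) (fun τ => ?_) ?_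
  · show (⇑f ^ 3 * ⇑ModularForm.E₆) τ / ModularForm.discriminant τ ^ 1 *
      ModularForm.discriminant τ = _
    rw [pow_one, div_mul_cancel₀ _ (ModularForm.discriminant_ne_zero τ)]
    rfl
  · rw [map_mul, map_mul, map_pow, map_pow, qExpBdd_form f hφ, qExpBdd_apply, Nat.cast_one,
      qExpansion_E₆, serX, e6]

theorem serY_mem_FB : serY Qb φ ∈ FB M :=
  JacTorsion.mem_of_coeffMap_mem_cExt (ι := iotaC) (by
    rw [cExt_bar, coeffMap_serY, ← qExp_formY f hφ]; exact qExp_mem_FC _)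

theorem serX_mem_FB : serX Qb φ ∈ FB M :=
  JacTorsion.mem_of_coeffMap_mem_cExt (ι := iotaC) (by
    rw [cExt_bar, coeffMap_serX, ← qExp_formX f hφ]; exact qExp_mem_FC _)

omit hφ in
theorem isZeroAtImInfty_formX (g : SL(2, ℤ)) :
    IsZeroAtImInfty ((⇑f ^ 3 * ⇑ModularForm.E₆) ∣[((12 * 1 : ℕ) : ℤ)] g) := by
  have h0 : IsZeroAtImInfty (⇑f ∣[(2 : ℤ)] g) := CuspFormClass.zero_at_infty_slash f g
  have hmul := ModularForm.mul_slash_SL2 6 6 g (⇑f ^ 3) ⇑ModularForm.E₆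
  have h3 : (⇑f ^ 3) ∣[(6 : ℤ)] g = (⇑f ∣[(2 : ℤ)] g) ^ 3 := by
    rw [pow_three, pow_three, show (6 : ℤ) = 2 + (2 + 2) from rfl, ModularForm.mul_slash_SL2,
      ModularForm.mul_slash_SL2]
  rw [show ((12 * 1 : ℕ) : ℤ) = 6 + 6 from rfl, hmul, h3,
    show ⇑ModularForm.E₆ ∣[(6 : ℤ)] g = ⇑ModularForm.E₆ from Genus.slash_eq_self _ g]
  have h1 : Tendsto (fun τ => (⇑f ∣[(2 : ℤ)] g) τ ^ 3) atImInfty (𝓝 0) := by
    have h0' : Tendsto (⇑f ∣[(2 : ℤ)] g) atImInfty (𝓝 0) := h0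
    simpa using h0'.pow 3
  have h2 : Tendsto (⇑ModularForm.E₆) atImInfty (𝓝 1) := Genus.tendsto_E _ ⟨3, rfl⟩
  have h := h1.mul h2
  rw [zero_mul] at h
  exact h

omit hφ in
theorem order_cuspEmb_formX (c : Coset M) (h0 : cuspEmb M c (toFC M (formX f)) ≠ 0) :
    1 - (M : ℤ) ≤ (cuspEmb M c (toFC M (formX f))).order := by
  rw [cuspEmb_toFC] at h0 ⊢
  set T := tr M c (formX f) with hT
  set s : CuspAlg M →ₐ[ℂ] LaurentSeries ℂ := laurentExp M
  have hTD : ∀ τ, (T : ℍ → ℂ) τ * ModularForm.discriminant τ =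
      ((⇑f ^ 3 * ⇑ModularForm.E₆) ∣[((12 * 1 : ℕ) : ℤ)] c.out⁻¹) τ := fun τ => by
    show (⇑f ^ 3 * ⇑ModularForm.E₆) (c.out⁻¹ • τ) /
      ModularForm.discriminant (c.out⁻¹ • τ) ^ 1 * ModularForm.discriminant τ = _
    rw [div_disc_pow_smul, pow_one, div_mul_cancel₀ _ (ModularForm.discriminant_ne_zero τ)]
  let G : BddAlg M := ⟨fun τ => (T : ℍ → ℂ) τ * ModularForm.discriminant τ,
    (T * Subalgebra.inclusion (BddAlg_le_CuspAlg M) (discBdd M)).2.1,
    (T * Subalgebra.inclusion (BddAlg_le_CuspAlg M) (discBdd M)).2.2.1, by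
      rw [funext hTD]; exact (isFormFun_formX f).2.2 _⟩
  have hG0 : (qExpBdd M G).coeff 0 = 0 := by
    rw [qExpBdd_apply, qExpansion_coeff_zero (cast_pos_of_neZero M)
      (analyticAt_cuspFunction M G.2) G.2.2.1.periodic_comp_ofComplex]
    refine IsZeroAtImInfty.valueAtInfty_eq_zero ?_
    show IsZeroAtImInfty (fun τ => (T : ℍ → ℂ) τ * ModularForm.discriminant τ)
    rw [funext hTD]
    exact isZeroAtImInfty_formX f _
  have hEmem : (⇑ModularForm.E₄ : ℍ → ℂ) ∈ BddAlg M :=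
    ⟨ModularForm.E₄.holo', E₄_mem_BddAlg.2.1.of_one M, E₄_mem_BddAlg.2.2⟩
  set e : BddAlg M := ⟨_, hEmem⟩ ^ 3
  have he0 : (qExpBdd M e).coeff 0 = 1 := by
    rw [map_pow, PowerSeries.coeff_zero_eq_constantCoeff, map_pow,
      ← PowerSeries.coeff_zero_eq_constantCoeff, qExpBdd_apply, qExpansion_coeff_zero
        (cast_pos_of_neZero M) (analyticAt_cuspFunction M hEmem)
        (E₄_mem_BddAlg.2.1.of_one M).periodic_comp_ofComplex]
    rw [show valueAtInfty (⇑ModularForm.E₄ : ℍ → ℂ) = 1 from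
      (Genus.tendsto_E _ ⟨2, rfl⟩).limUnder_eq, one_pow]
  have hprod : T * Subalgebra.inclusion (BddAlg_le_CuspAlg M) e =
      jC M * Subalgebra.inclusion (BddAlg_le_CuspAlg M) G := Subtype.ext (funext fun τ => by
    show (T : ℍ → ℂ) τ * ModularForm.E₄ τ ^ 3 =
      jH τ * ((T : ℍ → ℂ) τ * ModularForm.discriminant τ)
    rw [← jH_mul_discriminant]
    ring)
  have h2 := congrArg s hprod
  rw [map_mul, map_mul, laurentExp_of_bdd, laurentExp_of_bdd] at h2
  have he : HahnSeries.ofPowerSeries ℤ ℂ (qExpBdd M e) ≠ 0 ∧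
      (HahnSeries.ofPowerSeries ℤ ℂ (qExpBdd M e)).order = 0 := by
    have hc : (HahnSeries.ofPowerSeries ℤ ℂ (qExpBdd M e)).coeff ((0 : ℕ) : ℤ) ≠ 0 := by
      rw [HahnSeries.ofPowerSeries_apply_coeff, he0]; exact one_ne_zero
    have hne : HahnSeries.ofPowerSeries ℤ ℂ (qExpBdd M e) ≠ 0 := fun h => hc (by simp [h])
    refine ⟨hne, le_antisymm (HahnSeries.order_le_of_coeff_ne_zero hc) ?_⟩
    by_contra hlt
    refine HahnSeries.coeff_order_eq_zero.not.mpr hne ?_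
    exact ModularCurve.ofPowerSeries_coeff_of_neg _ (by omega)
  have hG : HahnSeries.ofPowerSeries ℤ ℂ (qExpBdd M G) ≠ 0 := fun h => by
    rw [h, mul_zero] at h2
    exact mul_ne_zero h0 he.1 h2
  have h1 : 1 ≤ (HahnSeries.ofPowerSeries ℤ ℂ (qExpBdd M G)).order := by
    by_contra hlt
    refine HahnSeries.coeff_order_eq_zero.not.mpr hG ?_
    rcases lt_or_eq_of_le (Int.lt_add_one_iff.mp (show
      (HahnSeries.ofPowerSeries ℤ ℂ (qExpBdd M G)).order < 0 + 1 by omega)) with h | h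
    · exact ModularCurve.ofPowerSeries_coeff_of_neg _ h
    · rw [h, show (0 : ℤ) = ((0 : ℕ) : ℤ) from rfl, HahnSeries.ofPowerSeries_apply_coeff, hG0]
  have hj := order_laurentExp_jC (N := M)
  have h3 := congrArg HahnSeries.order h2
  rw [HahnSeries.order_mul h0 he.1, he.2, add_zero, HahnSeries.order_mul hj.2 hG, hj.1] at h3
  omega

theorem barC_serX :
    Mazur.Moduli.barC M ⟨serX Qb φ, serX_mem_FB f hφ⟩ = toFC M (formX f) := Subtype.ext (by
  rw [Mazur.Moduli.coe_barC, coe_toFC, qExp_formX f hφ]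
  exact coeffMap_serX iotaC φ)

omit f hφ in
theorem barC_jM : Mazur.Moduli.barC M (jM M) = jF M := Subtype.ext (by
  rw [Mazur.Moduli.coe_barC, Semistable.coe_jM, coe_jF]
  exact ModularCurve.coeffMap_jqModC iotaC)

omit f hφ in
/-- A holomorphic function has no poles at points of the upper half plane. -/
theorem ord_toFC_placeAt_nonneg (h : Hol M) (τ : ℍ) : 0 ≤ (placeAt M τ).ord (toFC M h) := by
  refine FF.ord_nonneg _ ((mem_placeAt_iff τ _).mpr ?_)
  rw [emb_toFC, toMerH_apply, valAt_algebraMap]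
  set a : HolH := ⟨_, CuspAlg_le_HolH M (tr M _ h).2⟩
  rcases eq_or_ne a 0 with ha | ha
  · rw [ha, map_zero]; exact zero_le
  · rw [valHol_apply ha, ← WithZero.exp_zero, WithZero.exp_le_exp]; omega

/-- `(f³ E₆ / Δ) ^ k j ∈ L (k (j)_∞)` for `k ≥ M`. -/
theorem serX_pow_mul_mem {k : ℕ} (hk : M ≤ k) :
    (⟨serX Qb φ, serX_mem_FB f hφ⟩ : FB M) ^ k * jM M ∈ Semistable.HM M k := by
  set x : FB M := ⟨serX Qb φ, serX_mem_FB f hφ⟩ with hx
  have hk0 : k ≠ 0 := fun h => NeZero.ne M (by omega)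
  have hbx : Mazur.Moduli.barC M x = toFC M (formX f) := barC_serX f hφ
  have hbj : Mazur.Moduli.barC M (jM M) = jF M := barC_jM
  refine RedTorsion.mem_polesSpace.mpr fun v => ?_
  obtain ⟨w, hw⟩ := Mazur.Moduli.exists_above v
  rcases eq_or_ne x 0 with h0 | h0
  · rw [h0, zero_pow hk0, zero_mul]; exact zero_mem _
  have hj0 : jM M ≠ 0 := fun h => Semistable.transcendental_jM M (h ▸ isAlgebraic_zero)
  refine FF.mem_ordGe_of_le v ?_
  rw [v.ord_mul (pow_ne_zero k h0) hj0, FF.ord_pow]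
  have hhol := ord_toFC_placeAt_nonneg (M := M)
  rcases exists_eq_placeAt_or_placeCusp w with ⟨τ, rfl⟩ | ⟨c, rfl⟩
  · have h1 : 0 ≤ v.ord x := by rw [← hw, hbx]; exact hhol _ τ
    have h2 : 0 ≤ v.ord (jM M) := by
      rw [← hw, hbj]; exact hhol ModFun.jInv τ
    rw [FF.poles_apply]
    nlinarith [le_max_left (0 : ℤ) (-v.ord (jM M))]
  · obtain ⟨m, hm, -, hord⟩ := exists_order_eq_mul (N := M) c
    have hb0 : toFC M (formX f) ≠ 0 := by rw [← hbx]; exact (map_ne_zero _).mpr h0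
    have hbj0 : jF M ≠ 0 := by rw [← hbj]; exact (map_ne_zero _).mpr hj0
    have e1 := hord _ hb0
    have e2 := hord _ hbj0
    rw [← hbx, hw] at e1
    rw [← hbj, hw, hbj, cuspEmb_jF, order_laurentExp_jC.1] at e2
    have h1 := order_cuspEmb_formX f c ((map_ne_zero _).mpr hb0)
    rw [hbx] at e1
    rw [FF.poles_apply]
    have hjneg : v.ord (jM M) < 0 := by
      have : (0 : ℤ) < M := by exact_mod_cast Nat.pos_of_ne_zero (NeZero.ne M)
      by_contra h; nlinarith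
    rw [max_eq_right (by omega)]
    have hk' : (M : ℤ) ≤ k := by exact_mod_cast hk
    by_contra hlt
    have h4 : m * ((k : ℤ) * v.ord x + v.ord (jM M)) < m * ((k : ℤ) * v.ord (jM M)) :=
      mul_lt_mul_of_pos_left (by linarith [not_le.mp hlt]) hm
    nlinarith

end Fermat.Agent.RT.MazurP

end
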