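import Fermat.Agent.RT.MazurP.Diff
import Fermat.Agent.RT.MazurP.CuspForms
import Fermat.Agent.Semistable.Torsion
import Fermat.Agent.RT.Mazur.OrdersBasic
import Fermat.Agent.RedTorsion.GenusLe

/-!
# The regular divisor at levels without elliptic points, in every odd characteristic

`regDiv` is `ord j - 1` at the poles of `j` and `⌊(4 ord j + 3 ord (j - 1728)) / 6⌋` elsewhere.
Its degree is at most `ψ / 6 - c = 2 g - 2`, also in characteristic three.
-/

set_option autoImplicit false
set_option linter.unusedSectionVars false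

noncomputable section

open UpperHalfPlane hiding I
open Filter CongruenceSubgroup AlgebraicCurve
open scoped IntermediateField Manifold MatrixGroups Topology ModularForm

namespace Fermat.Agent.RT.MazurP

open Fermat.Agent.Semistable
open Arith (QBar)

/-- `Γ₀(M)` has no elliptic points. -/
def NoEll (M : ℕ) : Prop := ModularCurve.nuTwo M = 0 ∧ ModularCurve.nuThree M = 0

theorem NoEll.of_dvd {M N : ℕ} [NeZero M] (h : NoEll M) (hd : M ∣ N) : NoEll N := by
  refine ⟨?_, ?_⟩ <;> refine Nat.card_eq_zero.mpr (Or.inl ⟨fun ⟨y, hy⟩ => ?_⟩)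
  · refine ((Nat.card_eq_zero.mp h.1).resolve_right
      (not_infinite_iff_finite.mpr inferInstance)).false ⟨ZMod.castHom hd (ZMod M) y, ?_⟩
    simpa [-ZMod.castHom_apply] using congrArg (ZMod.castHom hd (ZMod M)) hy
  · refine ((Nat.card_eq_zero.mp h.2).resolve_right
      (not_infinite_iff_finite.mpr inferInstance)).false ⟨ZMod.castHom hd (ZMod M) y, ?_⟩
    simpa [-ZMod.castHom_apply] using congrArg (ZMod.castHom hd (ZMod M)) hy

/-! ### `f⁶ / Δ` -/

section CharZero

open Fermat.Agent.ModFun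

variable {M : ℕ} [NeZero M] (f : CuspForm (Gamma0 M) 2)

theorem isFormFun_formZ : IsFormFun M (12 * 1) (⇑f ^ 6) :=
  (isFormFun_cuspForm f).pow 6 (by norm_num)

/-- `f⁶ / Δ`. -/
def formZ : Hol M := ⟨_, (isFormFun_formZ f).div_disc_pow_mem⟩

theorem formX_sq : formX f ^ 2 = formZ f * (jInv - algebraMap ℂ (Hol M) 1728) := by
  refine Subtype.ext (funext fun τ => ?_)
  show ((⇑f ^ 3 * ⇑ModularForm.E₆) τ / ModularForm.discriminant τ ^ 1) ^ 2 =
    (⇑f ^ 6) τ / ModularForm.discriminant τ ^ 1 * (jH τ - 1728)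
  have hd := ModularForm.discriminant_ne_zero τ
  have hj := jH_mul_discriminant τ
  have hD := ModularForm.discriminant_eq_E₄_cube_sub_E₆_sq τ
  simp only [Pi.mul_apply, Pi.pow_apply, pow_one]
  field_simp
  rw [hD] at hd hj ⊢
  linear_combination (-(f τ) ^ 6) * hj

variable {φ : PowerSeries ℤ} (hφ : ∀ n, ModularFormClass.qCoeff f n = ((φ.coeff n : ℤ) : ℂ))
include hφ

/-- `(f³ E₆ / Δ)² / (j - 1728)` has poles only at the cusps, of order at most that of `j`. -/
theorem serX_sq_div_mem :
    (⟨serX QBar φ, serX_mem_FB f hφ⟩ : FB M) ^ 2 / (jM M - algebraMap QBar (FB M) 1728) ∈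
      Semistable.HM M 1 := by
  set x : FB M := ⟨serX QBar φ, serX_mem_FB f hφ⟩ with hx
  set J' : FB M := jM M - algebraMap QBar (FB M) 1728 with hJ'
  have hbx : Mazur.Moduli.barC M x = toFC M (formX f) := barC_serX f hφ
  have hbj : Mazur.Moduli.barC M (jM M) = jF M := barC_jM
  have hj0 : jM M ≠ 0 := fun h => Semistable.transcendental_jM M (h ▸ isAlgebraic_zero)
  have hJ'0 : J' ≠ 0 := fun h => Semistable.transcendental_jM M (by
    rw [sub_eq_zero.mp h]; exact isAlgebraic_algebraMap _)
  have hbz : Mazur.Moduli.barC M (x ^ 2 / J') = toFC M (formZ f) := by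
    have h1 : Mazur.Moduli.barC M J' = toFC M (jInv - algebraMap ℂ (Hol M) 1728) := by
      rw [hJ', map_sub, hbj, map_sub, AlgHom.commutes, map_ofNat, map_ofNat, map_ofNat]
      rfl
    have h2 := congrArg (toFC M) (formX_sq f)
    rw [map_pow, map_mul, ← hbx, ← h1] at h2
    rw [map_div₀, map_pow, h2, mul_div_cancel_right₀ _ ((_root_.map_ne_zero _).mpr hJ'0)]
  refine RedTorsion.mem_polesSpace.mpr fun v => ?_
  rcases eq_or_ne x 0 with h0 | h0
  · rw [h0, zero_pow two_ne_zero, zero_div]; exact zero_mem _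
  refine FF.mem_ordGe_of_le v ?_
  obtain ⟨w, hw⟩ := Mazur.Moduli.exists_above v
  have hhol := ord_toFC_placeAt_nonneg (M := M)
  rw [FF.poles_apply]
  push_cast
  rw [one_mul]
  by_cases hpole : v.ord (jM M) < 0
  · have hJ'v : v.ord J' = v.ord (jM M) := by
      rw [hJ', sub_eq_add_neg]
      exact (FF.ord_add_eq_left v hj0 (Or.inr (by
        rw [FF.ord_neg, FF.ord_algebraMap]; exact hpole))).2
    obtain ⟨k, hk, hMk⟩ : ∃ k : ℕ, M ≤ k ∧ 0 < k :=
      ⟨M, le_rfl, Nat.pos_of_ne_zero (NeZero.ne M)⟩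
    have h := FF.le_ord_of_mem_ordGe v (mul_ne_zero (pow_ne_zero k h0) hj0)
      (RedTorsion.mem_polesSpace.mp (serX_pow_mul_mem f hφ hk) v)
    rw [v.ord_mul (pow_ne_zero k h0) hj0, FF.ord_pow, FF.poles_apply,
      max_eq_right (show (0 : ℤ) ≤ -v.ord (jM M) by omega)] at h
    have hX : v.ord (jM M) + 1 ≤ v.ord x := by
      by_contra hlt
      have : (k : ℤ) * v.ord x ≤ (k : ℤ) * v.ord (jM M) :=
        mul_le_mul_of_nonneg_left (by omega) (Int.natCast_nonneg k)
      nlinarith
    rw [max_eq_right (show (0 : ℤ) ≤ -v.ord (jM M) by omega), div_eq_mul_inv,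
      v.ord_mul (pow_ne_zero 2 h0) (inv_ne_zero hJ'0), v.ord_inv, FF.ord_pow, hJ'v]
    push_cast
    omega
  · rw [max_eq_left (show -v.ord (jM M) ≤ (0 : ℤ) by omega)]
    rcases exists_eq_placeAt_or_placeCusp w with ⟨τ, rfl⟩ | ⟨c, rfl⟩
    · rw [← hw, hbz]
      have := hhol (formZ f) τ
      omega
    · exfalso
      obtain ⟨m, hm, -, hord⟩ := exists_order_eq_mul (N := M) c
      have hbj0 : jF M ≠ 0 := by rw [← hbj]; exact (_root_.map_ne_zero _).mpr hj0
      have e2 := hord _ hbj0
      rw [← hbj, hw, hbj, cuspEmb_jF, order_laurentExp_jC.1] at e2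
      have : (0 : ℤ) < M := by exact_mod_cast Nat.pos_of_ne_zero (NeZero.ne M)
      nlinarith [not_lt.mp hpole]

end CharZero

/-! ### The divisor -/

section Divisor

variable {A : ValuationSubring QBar} {M : ℕ} [NeZero M] [FF.IsFunctionField (Res A) (KM A M)]

variable (A M) in
/-- `j - 1728` over the residue field. -/
def jK' : KM A M := jK A M - algebraMap (Res A) (KM A M) 1728

omit [FF.IsFunctionField (Res A) (KM A M)] in
theorem jK'_ne_zero : jK' A M ≠ 0 := fun h => jK_transcendental A M (by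
  rw [sub_eq_zero.mp h]; exact isAlgebraic_algebraMap _)

omit [FF.IsFunctionField (Res A) (KM A M)] in
theorem exists_red1_jM_sub : ∃ h : jM M - algebraMap QBar (FB M) 1728 ∈ loc2 A (iota1 M),
    red1 A M ⟨_, h⟩ = ((jK' A M : KM A M) : LaurentSeries (Res A)) := by
  refine ⟨sub_mem (jM_mem M) (by rw [map_ofNat]; exact natCast_mem _ 1728), ?_⟩
  rw [show (⟨jM M - algebraMap QBar (FB M) 1728, _⟩ : loc2 A (iota1 M)) =
    ⟨jM M, jM_mem M⟩ - (1728 : ℕ) from Subtype.ext (by push_cast; rw [map_ofNat]; rfl), map_sub, red1_jM, map_natCast,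
    jK', AddSubgroupClass.coe_sub, map_ofNat]
  rfl

open scoped Classical in
variable (A M) in
/-- The divisor bounding the poles of `g` for regular differentials `g dj`. -/
def regDiv : Divisor (Res A) (KM A M) :=
  Finsupp.onFinset ((FF.div (Res A) (jK A M)).support ∪ (FF.div (Res A) (jK' A M)).support)
    (fun P => if P.ord (jK A M) < 0 then P.ord (jK A M) - 1
      else (4 * P.ord (jK A M) + 3 * P.ord (jK' A M)) / 6) fun P hP => by
    classical
    rw [Finset.mem_union, Finsupp.mem_support_iff, Finsupp.mem_support_iff, FF.div_apply,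
      FF.div_apply]
    by_contra hn
    rw [not_or, not_not, not_not] at hn
    refine hP ?_
    rw [hn.1, hn.2, if_neg (lt_irrefl _)]
    norm_num

theorem regDiv_of_pole {P : Place (Res A) (KM A M)} (hP : P.ord (jK A M) < 0) :
    regDiv A M P = P.ord (jK A M) - 1 := by
  rw [regDiv, Finsupp.onFinset_apply, if_pos hP]

theorem regDiv_of_finite {P : Place (Res A) (KM A M)} (hP : 0 ≤ P.ord (jK A M)) :
    regDiv A M P = (4 * P.ord (jK A M) + 3 * P.ord (jK' A M)) / 6 := by
  rw [regDiv, Finsupp.onFinset_apply, if_neg (not_lt.mpr hP)]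

theorem ord_jK'_of_pole {P : Place (Res A) (KM A M)} (hP : P.ord (jK A M) < 0) :
    P.ord (jK' A M) = P.ord (jK A M) := by
  have hJ0 : jK A M ≠ 0 := fun h => by rw [h, P.ord_zero] at hP; omega
  rw [jK', sub_eq_add_neg]
  exact (FF.ord_add_eq_left P hJ0 (Or.inr (by
    rw [FF.ord_neg, FF.ord_algebraMap]; exact hP))).2

variable [IsAlgClosed (Res A)]

/-- The degree is at most `2 g - 2`. -/
theorem degree_regDiv (hM : (M : Res A) ≠ 0) (hnu : NoEll M) :
    Divisor.degree (regDiv A M) ≤ 2 * (genusFF (Res A) (KM A M) : ℤ) - 2 := by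
  classical
  have : FiniteDimensional (Res A)⟮jK A M⟯ (KM A M) :=
    RedTorsion.finiteDimensional_jF (F := KM A M) rfl hM
  have hJ : Transcendental (Res A) (jK A M) := jK_transcendental A M
  set s := (FF.finite_poles (K := Res A) (jK A M)).toFinset with hs
  set D : Divisor (Res A) (KM A M) := ∑ P ∈ s, Finsupp.single P (1 : ℤ) with hD
  have hDv : ∀ P, D P = if P.ord (jK A M) < 0 then 1 else 0 := fun P => by
    rw [hD, Finsupp.finsetSum_apply]
    simp only [Finsupp.single_apply, Finset.sum_ite_eq']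
    simp [hs]
  set E : Divisor (Res A) (KM A M) := 4 • FF.div (Res A) (jK A M) +
    3 • FF.div (Res A) (jK' A M) + FF.poles (Res A) (jK A M) - 6 • D with hE
  have hle : 6 • regDiv A M ≤ E := Finsupp.le_def.mpr fun P => by
    simp only [hE, Finsupp.smul_apply, Finsupp.add_apply, Finsupp.sub_apply, FF.div_apply,
      FF.poles_apply, hDv, nsmul_eq_mul]
    push_cast
    rcases lt_or_ge (P.ord (jK A M)) 0 with h | h
    · rw [regDiv_of_pole h, ord_jK'_of_pole h, if_pos h, max_eq_right (by omega)]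
      omega
    · rw [regDiv_of_finite h, if_neg (not_lt.mpr h), max_eq_left (by omega)]
      omega
  have hdeg := FF.degree_mono hle
  rw [map_nsmul, hE, map_sub, map_add, map_add, map_nsmul, map_nsmul, map_nsmul, FF.degree_div,
    FF.degree_div, FF.degree_poles hJ, hD, RedTorsion.degree_sum_single] at hdeg
  simp only [smul_zero, zero_add, nsmul_eq_mul] at hdeg
  push_cast at hdeg
  have hn : Module.finrank (Res A)⟮jK A M⟯ (KM A M) = ModularCurve.dedekindPsi M := by
    rw [← ModFun.natCard_coset]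
    exact RedTorsion.finrank_jF (K := Res A) (N := M) (F := KM A M) rfl hM
  have hc : s.card = ModularCurve.cuspCount M := by
    rw [← RedTorsion.natCard_poles_residue (N := M) hM]
    exact (Nat.subtype_card s fun P => by simp [hs]; rfl).symm
  rw [hn, hc] at hdeg
  obtain ⟨h2, h3⟩ := hnu
  have hg := Genus.genus_eq_genusFormula M
  rw [FF.genus_eq_genusFF, ModularCurve.genusFormula, h2, h3] at hg
  have hgN : (12 : ℤ) * genusFF QBar (FB M) =
      12 + ModularCurve.dedekindPsi M - 6 * ModularCurve.cuspCount M := by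
    have : (12 : ℚ) * (genusFF QBar (FB M) : ℚ) =
        12 + (ModularCurve.dedekindPsi M : ℚ) - 6 * ModularCurve.cuspCount M := by
      rw [hg]; push_cast; ring
    exact_mod_cast this
  have hgood : GoodM A M := Semistable.goodM hM
  have : (genusFF QBar (FB M) : ℤ) ≤ genusFF (Res A) (KM A M) := by exact_mod_cast hgood
  omega

end Divisor

end Fermat.Agent.RT.MazurP

end
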