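import Fermat.Agent.Semistable.WEquiv

/-!
# Shortcuts for instances whose search is slow

Each agrees with what instance search finds on its own.
-/

set_option autoImplicit false

noncomputable section

namespace Fermat.Agent.RT.MazurP

open ModularCurve Fermat.Agent.Semistable Fermat.Agent.Arith

instance (priority := high) instAlgebraResLaurentSeries (A : ValuationSubring QBar) :
    Algebra (Res A) (LaurentSeries (Res A)) :=
  HahnSeries.powerSeriesAlgebra ℤ (Res A)

instance (priority := high) instAlgebraQBarFB (N : ℕ) : Algebra QBar (FB N) :=
  SubalgebraClass.toAlgebra (FB N)

end Fermat.Agent.RT.MazurP
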