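import Fermat.Agent.FF.Kaehler
import Fermat.Agent.CurveTorsion.WeilDiff
import Fermat.Agent.FiniteFlat.CurveLemmas
import Fermat.Agent.RedTorsion.PolesOrbits
import Fermat.Agent.RT.MazurP.Theta
import Mathlib.RingTheory.Derivation.MapCoeffs

/-!
# Derivatives with respect to a separating element in any characteristic

`dd x w` is `dw/dx`. A divisor of degree at most `2 g - 2` has `ell ≤ g`, and at a pole of `x`
in a complete family of cusps the order of `x · dd x w` is positive for units `w`.
-/

set_option autoImplicit false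

noncomputable section

open AlgebraicCurve Polynomial IntermediateField
open scoped Classical

namespace Fermat.Agent.RT.MazurP

open Fermat.Agent.FF Fermat.Agent.RedTorsion

set_option linter.unusedSectionVars false

variable {K F : Type*} [Field K] [Field F] [Algebra K F]

/-- `dw/dx`. -/
def dd (x w : F) : F :=
  if h : ∃ c : F, c • KaehlerDifferential.D K F x = KaehlerDifferential.D K F w then h.choose else 0

variable [IsFunctionField K F] {x : F}

section Derivative

variable [Algebra.IsSeparable K⟮x⟯ F] (hx : Transcendental K x)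
include hx

theorem dd_spec (w : F) :
    dd (K := K) x w • KaehlerDifferential.D K F x = KaehlerDifferential.D K F w := by
  have hex : ∃ c : F, c • KaehlerDifferential.D K F x = KaehlerDifferential.D K F w :=
    Submodule.mem_span_singleton.mp (span_D_eq_top_of_isSeparable (K := K) (x := x) ▸ Submodule.mem_top)
  rw [dd, dif_pos hex]
  exact hex.choose_spec

theorem dd_eq {w c : F} (h : c • KaehlerDifferential.D K F x = KaehlerDifferential.D K F w) :
    dd (K := K) x w = c :=
  smul_left_injective F (D_ne_zero_of_isSeparable hx) ((dd_spec hx w).trans h.symm)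

theorem dd_algebraMap (a : K) : dd (K := K) x (algebraMap K F a) = 0 :=
  dd_eq hx (by rw [zero_smul, Derivation.map_algebraMap])

theorem dd_add (y z : F) : dd (K := K) x (y + z) = dd (K := K) x y + dd (K := K) x z :=
  dd_eq hx (by rw [add_smul, dd_spec hx, dd_spec hx, map_add])

theorem dd_mul (y z : F) :
    dd (K := K) x (y * z) = y * dd (K := K) x z + z * dd (K := K) x y :=
  dd_eq hx (by rw [add_smul, mul_smul, mul_smul, dd_spec hx, dd_spec hx, Derivation.leibniz])

theorem dd_div (y z : F) : dd (K := K) x (y / z) =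
    (z⁻¹ ^ 2) * (z * dd (K := K) x y - y * dd (K := K) x z) :=
  dd_eq hx (by
    rw [Derivation.leibniz_div, mul_smul, sub_smul, mul_smul, mul_smul, dd_spec hx, dd_spec hx])

theorem dd_zpow (y : F) (n : ℤ) :
    dd (K := K) x (y ^ n) = n * y ^ (n - 1) * dd (K := K) x y :=
  dd_eq hx (by
    rw [mul_smul, dd_spec hx, Derivation.leibniz_zpow, mul_smul, Int.cast_smul_eq_zsmul])

/-- The chain rule for the expansions attached to an embedding into Laurent series. -/
theorem theta_algHom (σ : F →ₐ[K] LaurentSeries K) (w : F) :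
    theta K (σ w) = σ (dd (K := K) x w) * theta K (σ x) := by
  let _ : Algebra F (LaurentSeries K) := σ.toRingHom.toAlgebra
  have : IsScalarTower K F (LaurentSeries K) := ⟨fun a b c => by
    show σ (a • b) * c = a • (σ b * c)
    rw [Algebra.smul_def, map_mul, σ.commutes, algebraMap_eq_C, ← HahnSeries.C_mul_eq_smul,
      mul_assoc]⟩
  let d : Derivation K F (LaurentSeries K) := (theta K).compAlgebraMap F
  have h := congrArg d.liftKaehlerDifferential (dd_spec hx w)
  rw [map_smul, Derivation.liftKaehlerDifferential_comp_D,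
    Derivation.liftKaehlerDifferential_comp_D, Algebra.smul_def] at h
  exact h.symm

end Derivative

theorem ell_le_genus [IsAlgClosed K] {D : Divisor K F}
    (hD : Divisor.degree D ≤ 2 * (genusFF K F : ℤ) - 2) : ell K D ≤ genusFF K F := by
  obtain ⟨W, hW, hRR⟩ := CurveTorsion.exists_canonical (K := K) (F := F)
  have h := hRR D
  rcases le_or_gt (ell K (W - D)) 0 with h0 | h0
  · omega
  obtain ⟨f, hf, hpos⟩ := exists_ne_zero_of_ell_pos h0
  have h1 := FiniteFlat.ell_le_degree_add_one hpos
  rw [ell_add_div hf, map_add, degree_div, add_zero, map_sub] at h1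
  omega

section Cusp

variable [Algebra.IsSeparable K⟮x⟯ F] (hx : Transcendental K x)
include hx

/-- The derivative of a unit at a pole of `x`, seen in an expansion. -/
theorem one_le_ord_dd_mul {ι : Type*} [Fintype ι] {N : ℕ} [NeZero N] (hN : (N : K) ≠ 0)
    (d : CuspFamily (K := K) x N ι) (hcard : Fintype.card ι = Module.finrank K⟮x⟯ F)
    [FiniteDimensional K⟮x⟯ F] [IsAlgClosed K] (P : Place K F) (hP : P.ord x < 0) {w : F}
    (hw : w ≠ 0) (hPw : P.ord w = 0) (hne : dd (K := K) x w ≠ 0) :
    1 ≤ P.ord (dd (K := K) x w * x) := by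
  obtain ⟨i, rfl⟩ := d.exists_pole_eq hcard P hP
  have hx0 : x ≠ 0 := fun h => hx (h ▸ isAlgebraic_zero)
  set y := dd (K := K) x w * x with hy
  have hy0 : y ≠ 0 := mul_ne_zero hne hx0
  by_contra hle
  have hinv : d.σ i y⁻¹ ∈ orderNonneg K :=
    (d.mem_pole_iff i _).mp ((mem_iff_ord _ (inv_ne_zero hy0)).mpr (by
      rw [Place.ord_inv]; omega))
  have hσw : d.σ i w ∈ orderNonneg K :=
    (d.mem_pole_iff i _).mp ((mem_iff_ord _ hw).mpr (le_of_eq hPw.symm))
  have hN' : (0 : ℤ) < N := by exact_mod_cast Nat.pos_of_ne_zero (NeZero.ne N)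
  -- the order of `θ (σ x)`
  have hxq : theta K d.xq ≠ 0 ∧ (theta K d.xq).order = -1 := by
    have hc : (theta K d.xq).coeff (-1) ≠ 0 := by
      rw [coeff_theta, ← d.xq_order]
      refine mul_ne_zero ?_ (HahnSeries.coeff_order_eq_zero.not.mpr d.xq_ne_zero)
      simp [d.xq_order]
    refine ⟨fun h => hc (by rw [h]; simp), le_antisymm (HahnSeries.order_le_of_coeff_ne_zero hc) ?_⟩
    refine (HahnSeries.le_order_iff_forall fun h => hc (by rw [h]; simp)).mpr fun k hk => ?_
    rw [coeff_theta, HahnSeries.coeff_eq_zero_of_lt_order (by rw [d.xq_order]; omega), mul_zero]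
  have hCN : (HahnSeries.C (N : K) : LaurentSeries K) ≠ 0 := HahnSeries.C_ne_zero hN
  have hqθ : ModularCurve.qExpand K N (theta K d.xq) ≠ 0 := (_root_.map_ne_zero _).mpr hxq.1
  have hθx : theta K (d.σ i x) ≠ 0 ∧ (theta K (d.σ i x)).order = -(N : ℤ) := by
    rw [d.sigma_x, theta_qExpand]
    refine ⟨mul_ne_zero hCN hqθ, ?_⟩
    rw [HahnSeries.order_mul hCN hqθ, Igusa.order_qExpand hxq.1, hxq.2, HahnSeries.order_C]
    ring
  have hσx : d.σ i x ≠ 0 ∧ (d.σ i x).order = -(N : ℤ) := by
    rw [d.sigma_x]
    refine ⟨(_root_.map_ne_zero _).mpr d.xq_ne_zero, ?_⟩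
    rw [Igusa.order_qExpand d.xq_ne_zero, d.xq_order]
    ring
  -- the chain rule
  have hσy : d.σ i y = theta K (d.σ i w) * (d.σ i x / theta K (d.σ i x)) := by
    rw [hy, map_mul, theta_algHom hx (d.σ i) w]
    field_simp [hθx.1]
  have hθw : theta K (d.σ i w) ≠ 0 := fun h => (_root_.map_ne_zero (d.σ i)).mpr hy0 (by
    rw [hσy, h, zero_mul])
  have h1 : 1 ≤ (theta K (d.σ i w)).order := by
    refine (HahnSeries.le_order_iff_forall hθw).mpr fun k hk => ?_
    rcases lt_or_eq_of_le (Int.lt_add_one_iff.mp (by simpa using hk) : k ≤ 0) with h | rfl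
    · rw [coeff_theta, hσw k h, mul_zero]
    · rw [coeff_theta, Int.cast_zero, zero_mul]
  have h2 : (d.σ i y).order = (theta K (d.σ i w)).order := by
    have hq0 : d.σ i x / theta K (d.σ i x) ≠ 0 := div_ne_zero hσx.1 hθx.1
    rw [hσy, HahnSeries.order_mul hθw hq0, div_eq_mul_inv,
      HahnSeries.order_mul hσx.1 (inv_ne_zero hθx.1), order_inv' hθx.1, hθx.2, hσx.2]
    ring
  rw [map_inv₀, mem_orderNonneg_iff (inv_ne_zero ((_root_.map_ne_zero (d.σ i)).mpr hy0)),
    order_inv' ((_root_.map_ne_zero (d.σ i)).mpr hy0), h2] at hinv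
  omega

end Cusp

end Fermat.Agent.RT.MazurP

end
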