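import Fermat.Agent.HeckeDuality.DeligneSerre
import Fermat.Agent.IntegralStructure.Main
import Fermat.Agent.RT.MazurP.Forms

/-!
# Eigen series in the reduced lattice lift to eigenforms

A nonzero element of the span of the reductions of integral cusp forms on which the operators
`x ↦ (a_{ln} + l a_{n/l})` act by scalars `a l` gives a character of the Hecke algebra, hence a
normalised eigenform congruent to `a`.
-/

set_option autoImplicit false
set_option linter.unusedSectionVars false

noncomputable section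

open CongruenceSubgroup

namespace Fermat.Agent.RT.MazurP

open Fermat.Agent.Semistable
open Arith (QBar)

/-- An image of a finite `ℤ`-module in characteristic `p` is finite. -/
theorem finite_range_of_charP {T κ : Type*} [Ring T] [Ring κ] (p : ℕ) [Fact p.Prime] [CharP κ p]
    [Module.Finite ℤ T] (χ : T →+* κ) : (Set.range χ).Finite := by
  obtain ⟨n, f, hf⟩ := Module.Finite.exists_fin' ℤ T
  refine (Set.finite_range fun c : Fin n → ZMod p =>
    ∑ i, ZMod.castHom (dvd_refl p) κ (c i) * χ (f (Pi.single i 1))).subset ?_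
  rintro _ ⟨t, rfl⟩
  obtain ⟨v, rfl⟩ := hf t
  refine ⟨fun i => (v i : ZMod p), ?_⟩
  have e : f v = ∑ i, v i • f (Pi.single i 1) := by
    conv_lhs => rw [pi_eq_sum_univ' v]
    rw [map_sum]
    exact Finset.sum_congr rfl fun i _ => map_zsmul f (v i) _
  simp only [e, map_sum, zsmul_eq_mul, map_mul, map_intCast]

/-- A normalised eigenform congruent to `a` at the primes in `G`, modulo `p`. -/
def HasCong (N p : ℕ) (G : ℕ → Prop) (a : ℕ → ℕ) : Prop :=
  ∃ (g : CuspForm (Gamma0 N) 2) (_ : g.IsNormalizedEigenform)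
    (𝔪 : Ideal (integralClosure ℤ ℂ)), 𝔪.IsMaximal ∧ ((p : ℕ) : integralClosure ℤ ℂ) ∈ 𝔪 ∧
    ∀ l, l.Prime → G l → ∃ c : integralClosure ℤ ℂ,
      (c : ℂ) = ModularFormClass.qCoeff g l ∧ c - ((a l : ℤ) : integralClosure ℤ ℂ) ∈ 𝔪

/-- A common eigenvector in characteristic `p` gives a congruent eigenform. -/
theorem exists_eigenform_of_eigenvector {N p : ℕ} [NeZero N] [Fact p.Prime] {κ : Type} [Field κ]
    [IsAlgClosed κ] [CharP κ p] {V : Type*} [AddCommGroup V] [Module κ V] [Module.Finite κ V]
    (S : CuspForm.heckeAlgebra N 2 ∅ →+* Module.End κ V) {c : V} (hc0 : c ≠ 0)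
    (G : ℕ → Prop) (a : ℕ → ℤ)
    (hSc : ∀ l (hl : l.Prime), G l → S (HeckeDuality.heckeOp N 2 l hl) c = (a l : κ) • c) :
    ∃ (g : CuspForm (Gamma0 N) 2) (_ : g.IsNormalizedEigenform)
      (𝔪 : Ideal (integralClosure ℤ ℂ)), 𝔪.IsMaximal ∧
      ((p : ℕ) : integralClosure ℤ ℂ) ∈ 𝔪 ∧
      ∀ l, l.Prime → G l → ∃ c : integralClosure ℤ ℂ,
        (c : ℂ) = ModularFormClass.qCoeff g l ∧ c - (a l : integralClosure ℤ ℂ) ∈ 𝔪 := by
  have hint := IntegralStructure.hasIntegralStructure N 2
  have := CuspForm.intLattice.moduleFinite (N := N)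
  have := HeckeDuality.heckeAlgebra_finite_of_integralStructure (N := N) ∅ hint
  let W : Submodule κ V := ⨅ l : {l : ℕ // l.Prime ∧ G l},
    LinearMap.ker (S (HeckeDuality.heckeOp N 2 l.1 l.2.1) -
      (a l.1 : κ) • (1 : Module.End κ V))
  have hW : W ≠ ⊥ := (Submodule.ne_bot_iff _).mpr ⟨c, (Submodule.mem_iInf _).mpr fun l =>
    LinearMap.mem_ker.mpr (by simp [hSc l.1 l.2.1 l.2.2]), hc0⟩
  have hinv : ∀ t, ∀ w ∈ W, S t w ∈ W := by
    intro t w hw
    refine (Submodule.mem_iInf _).mpr fun l => ?_
    have hw' := LinearMap.mem_ker.mp ((Submodule.mem_iInf _).mp hw l)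
    simp only [LinearMap.sub_apply, LinearMap.smul_apply, Module.End.one_apply, sub_eq_zero] at hw'
    simp only [LinearMap.mem_ker, LinearMap.sub_apply, LinearMap.smul_apply, Module.End.one_apply,
      sub_eq_zero]
    rw [← Module.End.mul_apply, ← map_mul, mul_comm, map_mul, Module.End.mul_apply, hw', map_smul]
  obtain ⟨χ, v, hvW, hv, hχ⟩ := HeckeDuality.exists_eigenCharacter S W hW hinv
  have : Finite χ.range := (finite_range_of_charP p χ).to_subtype
  have hfield : IsField χ.range := Finite.isField_of_domain _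
  let _ := hfield.toField
  have : CharP χ.range p := RingHom.charP χ.range.subtype Subtype.val_injective p
  obtain ⟨g, hg, 𝔪, h𝔪, hp𝔪, hcong⟩ :=
    HeckeDuality.exists_eigenform_lifting (p := p) hint χ.rangeRestrict
  refine ⟨g, hg, 𝔪, h𝔪, hp𝔪, fun l hl hGl => hcong l hl (a l) (Subtype.ext ?_)⟩
  have h1 := LinearMap.mem_ker.mp ((Submodule.mem_iInf _).mp hvW ⟨l, hl, hGl⟩)
  simp only [LinearMap.sub_apply, LinearMap.smul_apply, Module.End.one_apply, sub_eq_zero, hχ] at h1
  exact (smul_left_injective κ hv h1).trans (map_intCast χ.range.subtype (a l)).symm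

variable {A : ValuationSubring QBar} {M : ℕ} [NeZero M] (p : ℕ) [Fact p.Prime] [CharP (Res A) p]
  [IsAlgClosed (Res A)]

/-- An eigen series in the reduced lattice gives a congruent eigenform. -/
theorem exists_eigenform_of_redLattice {η : LaurentSeries (Res A)} (hη : η ∈ redLattice A M)
    (hη0 : η ≠ 0) (G : ℕ → Prop) (hG : ∀ l, l.Prime → G l → ¬ l ∣ M) (a : ℕ → ℤ)
    (heig : ∀ l : ℕ, l.Prime → G l → ∀ n : ℤ,
      η.coeff ((l : ℤ) * n) + (if (l : ℤ) ∣ n then (l : Res A) * η.coeff (n / l) else 0) =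
        (a l : Res A) * η.coeff n) :
    ∃ (g : CuspForm (Gamma0 M) 2) (_ : g.IsNormalizedEigenform)
      (𝔪 : Ideal (integralClosure ℤ ℂ)), 𝔪.IsMaximal ∧
      ((p : ℕ) : integralClosure ℤ ℂ) ∈ 𝔪 ∧
      ∀ l, l.Prime → G l → ∃ c : integralClosure ℤ ℂ,
        (c : ℂ) = ModularFormClass.qCoeff g l ∧ c - (a l : integralClosure ℤ ℂ) ∈ 𝔪 := by
  classical
  have hp : p.Prime := Fact.out
  have hint := IntegralStructure.hasIntegralStructure M 2
  have := CuspForm.intLattice.moduleFinite (N := M)
  have := CuspForm.intLattice.moduleFree (N := M)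
  have := HeckeDuality.heckeAlgebra_finite_of_integralStructure (N := M) ∅ hint
  let b := Module.Free.chooseBasis ℤ (CuspForm.intLattice M 2)
  set ι := Module.Free.ChooseBasisIndex ℤ (CuspForm.intLattice M 2)
  choose φ hφ using fun i : ι => exists_series (b i).2
  let S : (CuspForm.heckeAlgebra M 2 ∅) →+* Module.End (Res A) (ι → Res A) :=
    (Matrix.toLinAlgEquiv' (R := Res A) (n := ι)).toRingEquiv.toRingHom.comp
      (((Int.castRingHom (Res A)).mapMatrix).comp
        ((LinearMap.toMatrixAlgEquiv b).toRingEquiv.toRingHom.comp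
          (CuspForm.latticeActionHom M ∅)))
  obtain ⟨c, hc⟩ := (Submodule.mem_span_range_iff_exists_fun (Res A)).mp
    (redLattice_le_span b φ hφ hη)
  have hc0 : c ≠ 0 := by
    rintro rfl
    exact hη0 (by simp [← hc])
  -- the eigen equations
  have hSc : ∀ l (hl : l.Prime), G l →
      S (HeckeDuality.heckeOp M 2 l hl) c = (a l : Res A) • c := by
    intro l hl hGl
    set t := HeckeDuality.heckeOp M 2 l hl with ht
    set N := LinearMap.toMatrix b b (CuspForm.latticeActionHom M ∅ t) with hN
    have hS : ∀ j, S t c j = ∑ i, (N j i : Res A) * c i := fun j => rfl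
    -- the action on the series of the basis
    have hcol : ∀ i (n : ℕ), ∑ j, N j i * (φ j).coeff n =
        (φ i).coeff (n * l) + if l ∣ n then (l : ℤ) * (φ i).coeff (n / l) else 0 := by
      intro i n
      refine Int.cast_injective (α := ℂ) ?_
      have h := congrArg (fun g : CuspForm.intLattice M 2 =>
        ModularFormClass.qCoeff (g : CuspForm (Gamma0 M) 2) n)
        (b.sum_repr (CuspForm.latticeActionHom M ∅ t (b i)))
      simp only [Submodule.coe_sum, Submodule.coe_smul_of_tower, ← HeckeDuality.coeffLin_apply,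
        map_sum] at h
      simp only [HeckeDuality.coeffLin_apply, HeckeDuality.coeff_zsmul, hφ] at h
      have h2 : ModularFormClass.qCoeff
          ((CuspForm.latticeActionHom M ∅ t (b i) : CuspForm.intLattice M 2) :
            CuspForm (Gamma0 M) 2) n =
          ((φ i).coeff (n * l) : ℂ) + if l ∣ n then (l : ℂ) * ((φ i).coeff (n / l) : ℂ) else 0 := by
        rw [← hφ, ← hφ]
        refine (HeckeDuality.coeff_heckeOp hl _ n).trans ?_
        rw [HeckeDuality.eulerWeight, if_neg (hG l hl hGl)]
        rfl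
      rw [Int.cast_sum]
      simp only [Int.cast_mul, hN, LinearMap.toMatrix_apply]
      rw [h, h2]
      push_cast [apply_ite (Int.cast : ℤ → ℂ)]
      rfl
    -- compare the combinations
    have hli := linearIndependent_zSer (A := A) p hp b φ hφ
    rw [Fintype.linearIndependent_iff] at hli
    funext j
    rw [hS, Pi.smul_apply, smul_eq_mul, ← sub_eq_zero]
    refine hli (fun j => ∑ i, (N j i : Res A) * c i - (a l : Res A) * c j) ?_ j
    ext k
    rcases lt_or_ge k 0 with hk | hk
    · simp only [HahnSeries.coeff_sum, HahnSeries.coeff_smul, HahnSeries.coeff_zero]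
      refine Finset.sum_eq_zero fun j _ => ?_
      rw [zSer, ModularCurve.ofPowerSeries_coeff_of_neg _ hk, smul_zero]
    obtain ⟨n, rfl⟩ := Int.eq_ofNat_of_zero_le hk
    have hco : ∀ m : ℕ, η.coeff (m : ℤ) = ∑ i, c i * ((φ i).coeff m : Res A) := by
      intro m
      rw [← hc, HahnSeries.coeff_sum]
      refine Finset.sum_congr rfl fun i _ => ?_
      rw [← HahnSeries.C_mul_eq_smul, coeff_C_mul, zSer, HahnSeries.ofPowerSeries_apply_coeff,
        PowerSeries.coeff_map, eq_intCast]
    have h := heig l hl hGl (n : ℤ)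
    rw [← Nat.cast_mul, hco, hco, mul_comm l n] at h
    simp only [Int.natCast_dvd_natCast, ← Int.natCast_ediv, hco] at h
    simp only [HahnSeries.coeff_sum, HahnSeries.coeff_zero]
    have hj : ∀ j, ((∑ i, (N j i : Res A) * c i - (a l : Res A) * c j) •
        zSer (Res A) (φ j)).coeff (n : ℤ) =
        ∑ i, c i * ((N j i * (φ j).coeff n : ℤ) : Res A) -
          (a l : Res A) * (c j * ((φ j).coeff n : Res A)) := by
      intro j
      rw [← HahnSeries.C_mul_eq_smul, coeff_C_mul, zSer, HahnSeries.ofPowerSeries_apply_coeff,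
        PowerSeries.coeff_map, eq_intCast, sub_mul, Finset.sum_mul, mul_assoc]
      congr 1
      exact Finset.sum_congr rfl fun i _ => by push_cast; ring
    simp only [hj, Finset.sum_sub_distrib]
    rw [Finset.sum_comm]
    simp only [← Finset.mul_sum, ← Int.cast_sum, hcol, sub_eq_zero]
    rw [← h]
    push_cast [apply_ite (Int.cast : ℤ → Res A), mul_add, mul_ite, Finset.sum_add_distrib]
    congr 1
    split_ifs with hd
    · rw [Finset.mul_sum]
      exact Finset.sum_congr rfl fun i _ => by ring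
    · simp
  exact exists_eigenform_of_eigenvector (p := p) S hc0 G a hSc

end Fermat.Agent.RT.MazurP

end
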