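import Fermat.Agent.GaloisReps.KummerHecke
import Fermat.Agent.EichlerShimura.HeckeNorm
import Fermat.Agent.Semistable.GaloisAction
import Fermat.Agent.RT.MazurP.Basic
import Fermat.Agent.RT.MazurP.Theta

/-!
# Hecke norms of functions and their reductions

`heckeNorm N l f = Norm_α (β f)` has the expansion `X` with
`X(q^l) = f(q^(l^2)) ∏ᵢ f(ζⁱ q)`. This identity is compatible with Galois, with `w`, with the
inclusion of level `M` and with reduction at a prime different from `l`.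
-/

set_option autoImplicit false
set_option linter.unusedSectionVars false
set_option linter.style.haveILetI false

noncomputable section

namespace Fermat.Agent.RT.MazurP

open AlgebraicCurve ModularCurve Fermat.Agent.Semistable Fermat.Agent.RT.Mazur
open Arith (QBar GQ)

/-! ### The product -/

section Prod

variable {K : Type*} [Field K] (l : ℕ) [NeZero l] (ζ : Kˣ)

/-- `x ↦ x(q^(l^2)) ∏ᵢ x(ζⁱ q)`. -/
def heckeProd : LaurentSeries K →* LaurentSeries K where
  toFun x := qExpand K l (qExpand K l x) * ∏ i : Fin l, ModFun.twist (ζ ^ (i : ℕ)) x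
  map_one' := by simp
  map_mul' x y := by
    simp only [map_mul, Finset.prod_mul_distrib]
    ring

theorem heckeProd_apply (x : LaurentSeries K) :
    heckeProd l ζ x = qExpand K l (qExpand K l x) * ∏ i : Fin l, ModFun.twist (ζ ^ (i : ℕ)) x :=
  rfl

theorem heckeProd_ne_zero {x : LaurentSeries K} (hx : x ≠ 0) : heckeProd l ζ x ≠ 0 :=
  mul_ne_zero ((map_ne_zero _).mpr ((map_ne_zero _).mpr hx))
    (Finset.prod_ne_zero_iff.mpr fun _ _ => (map_ne_zero _).mpr hx)

theorem heckeProd_C (c : K) :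
    heckeProd l ζ (HahnSeries.C c) = HahnSeries.C (c ^ (l + 1)) := by
  have h : ∀ u : Kˣ, ModFun.twist u (HahnSeries.C c : LaurentSeries K) = HahnSeries.C c := by
    intro u
    ext k
    rw [ModFun.coeff_twist]
    rcases eq_or_ne k 0 with rfl | hk
    · simp
    · simp [hk]
  simp only [heckeProd_apply, qExpand_C, h, Finset.prod_const, Finset.card_univ, Fintype.card_fin,
    ← map_pow, ← map_mul, pow_succ']

theorem coeffMap_twist {L : Type*} [Field L] (φ : K →+* L) (u : Kˣ) (x : LaurentSeries K) :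
    coeffMap φ (ModFun.twist u x) = ModFun.twist (Units.map φ.toMonoidHom u) (coeffMap φ x) := by
  ext k
  rw [coeffMap_coeff, ModFun.coeff_twist, ModFun.coeff_twist, coeffMap_coeff, map_mul, ← map_zpow]
  rfl

theorem coeffMap_heckeProd {L : Type*} [Field L] (φ : K →+* L) (x : LaurentSeries K) :
    coeffMap φ (heckeProd l ζ x) = heckeProd l (Units.map φ.toMonoidHom ζ) (coeffMap φ x) := by
  simp only [heckeProd_apply, map_mul, map_prod, coeffMap_qExpand, coeffMap_twist, map_pow]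

/-- `X` is the image of `z` by the product, for every choice of primitive root. -/
def IsHeckeImage (z X : LaurentSeries K) : Prop :=
  ∀ η : Kˣ, IsPrimitiveRoot η l → qExpand K l X = heckeProd l η z

end Prod

/-! ### The norm -/

section Norm

variable (N l : ℕ) [NeZero N] [NeZero l]

/-- `Norm_α (β f)`. -/
def heckeNorm : FB N →* FB N :=
  letI := algebraAlong (heckeAlphaBar QBar N l)
  (Algebra.norm (FB N)).comp (heckeBetaBar QBar N l).toRingHom.toMonoidHom

variable {N l}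

theorem heckeNorm_ne_zero {f : FB N} (hf : f ≠ 0) : heckeNorm N l f ≠ 0 := by
  letI := algebraAlong (heckeAlphaBar QBar N l)
  haveI := isScalarTower_along (heckeAlphaBar QBar N l)
  letI : Module (FB N) (FB (N * l)) := Algebra.toModule
  haveI : Module.Finite (FB N) (FB (N * l)) := FF.finiteAlong (heckeAlphaBar QBar N l)
  haveI : Module.Free (FB N) (FB (N * l)) := Module.Free.of_divisionRing _ _
  exact Algebra.norm_ne_zero_iff.mpr ((map_ne_zero (heckeBetaBar QBar N l)).mpr hf)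

omit [NeZero N] in
theorem exists_primitive : ∃ ζ : QBarˣ, IsPrimitiveRoot ζ l := by
  obtain ⟨ζ₀, hζ₀⟩ := HasEnoughRootsOfUnity.exists_primitiveRoot QBar l
  exact ⟨(hζ₀.isUnit (NeZero.ne l)).unit, IsPrimitiveRoot.coe_units_iff.mp (by simpa using hζ₀)⟩

variable (hl : l.Prime) (hN : ¬ l ∣ N)
include hl hN

theorem qExpand_heckeNorm {ζ : QBarˣ} (hζ : IsPrimitiveRoot ζ l) (f : FB N) :
    qExpand QBar l (heckeNorm N l f : LSer) = heckeProd l ζ (f : LSer) :=
  EichlerShimura.norm_series hl hN hζ f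

theorem heckeNorm_algebraMap (c : QBar) :
    heckeNorm N l (algebraMap QBar (FB N) c) = algebraMap QBar (FB N) (c ^ (l + 1)) := by
  obtain ⟨ζ, hζ⟩ := exists_primitive (l := l)
  refine Subtype.ext (qExpand_injective l ?_)
  rw [qExpand_heckeNorm hl hN hζ]
  show heckeProd l ζ (algebraMap QBar LSer c) = qExpand QBar l (algebraMap QBar LSer (c ^ (l + 1)))
  rw [algebraMap_eq_C, algebraMap_eq_C, heckeProd_C, qExpand_C]

theorem heckeNorm_galF (σ : GQ) (f : FB N) :
    heckeNorm N l (galF N σ f) = galF N σ (heckeNorm N l f) := by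
  obtain ⟨ζ, hζ⟩ := exists_primitive (l := l)
  refine Subtype.ext (qExpand_injective l ?_)
  rw [qExpand_heckeNorm hl hN (hζ.map_of_injective (f := Units.map (σ : QBar →+* QBar).toMonoidHom)
      (Units.map_injective (σ : QBar ≃+* QBar).injective)),
    coe_arithmeticRingAut, coe_arithmeticRingAut, ← coeffMap_qExpand,
    qExpand_heckeNorm hl hN hζ, coeffMap_heckeProd]

end Norm

/-! ### The inclusion of level `M` and `w` -/

section Levels

variable (q M l : ℕ) [Fact q.Prime] [NeZero M] [NeZero l]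

/-- `w` at a level written differently. -/
theorem exists_wTransport (hqM : ¬ q ∣ M) (N' : ℕ) [NeZero N'] (h : q * M = N') :
    ∃ W : FB N' ≃ₐ[QBar] FB N', ∀ (d : Dvs (q * M)) (x : FB N'),
      (x : LSer) = gen QBar d → (W x : LSer) = (wEquiv q M hqM (genF (q * M) d) : LSer) := by
  subst h
  exact ⟨wEquiv q M hqM, fun d x hx => by rw [show x = genF (q * M) d from Subtype.ext hx]⟩

theorem exists_wLift (hqM : ¬ q ∣ M) (hql : q ≠ l) (hl : l.Prime) :
    ∃ W : FB (q * M * l) ≃ₐ[QBar] FB (q * M * l),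
      (∀ x, W (heckeAlphaBar QBar (q * M) l x) =
        heckeAlphaBar QBar (q * M) l (wEquiv q M hqM x)) ∧
      ∀ x, W (heckeBetaBar QBar (q * M) l x) =
        heckeBetaBar QBar (q * M) l (wEquiv q M hqM x) := by
  have hq : q.Prime := Fact.out
  have hqMl : ¬ q ∣ M * l := fun h => by
    rcases hq.dvd_mul.mp h with h | h
    · exact hqM h
    · exact hql ((Nat.prime_dvd_prime_iff_eq hq hl).mp h)
  obtain ⟨W, hW⟩ := exists_wTransport q (M * l) hqMl (q * M * l) (mul_assoc q M l).symm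
  refine ⟨W, fun x => Subtype.ext ?_, fun x => Subtype.ext ?_⟩
  · rw [coe_heckeAlphaBar]
    have h : ((FB (q * M * l)).val.comp (W.toAlgHom.comp
        (heckeAlphaBar QBar (q * M) l))).toRingHom =
        ((FB (q * M)).val.comp (wEquiv q M hqM).toAlgHom).toRingHom := by
      refine fb_ringHom_ext (fun a => ?_) fun d => ?_
      · simp
      show (W (heckeAlphaBar QBar (q * M) l (genF _ d)) : LSer) =
        (wEquiv q M hqM (genF _ d) : LSer)
      obtain ⟨d, hd⟩ := d
      rcases dvs_cases q M hq hd with hdM | ⟨d', hd', rfl⟩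
      · have : NeZero d := ⟨fun h => NeZero.ne M (Nat.eq_zero_of_zero_dvd (h ▸ hdM))⟩
        have hdl : d ∣ M * l := dvd_mul_of_dvd_left hdM l
        rw [hW ⟨d, dvd_mul_of_dvd_right hdl q⟩ _ (coe_heckeAlphaBar _ _ _),
          wEquiv_gen_of_dvd q (M * l) hqMl hdl, wEquiv_gen_of_dvd q M hqM hdM]
      · have : NeZero d' := ⟨fun h => NeZero.ne M (Nat.eq_zero_of_zero_dvd (h ▸ hd'))⟩
        have hdl : d' ∣ M * l := dvd_mul_of_dvd_left hd' l
        rw [hW ⟨q * d', mul_dvd_mul_left q hdl⟩ _ (coe_heckeAlphaBar _ _ _),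
          wEquiv_gen_mul q (M * l) hqMl hdl, wEquiv_gen_mul q M hqM hd']
    exact DFunLike.congr_fun h x
  · rw [coe_heckeBetaBar]
    have h : ((FB (q * M * l)).val.comp (W.toAlgHom.comp
        (heckeBetaBar QBar (q * M) l))).toRingHom =
        (qExpand QBar l).comp ((FB (q * M)).val.comp (wEquiv q M hqM).toAlgHom).toRingHom := by
      refine fb_ringHom_ext (fun a => ?_) fun d => ?_
      · show (W (heckeBetaBar QBar (q * M) l (algebraMap QBar _ a)) : LSer) =
          qExpand QBar l (wEquiv q M hqM (algebraMap QBar _ a) : LSer)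
        rw [AlgHom.commutes, AlgEquiv.commutes, AlgEquiv.commutes]
        show algebraMap QBar LSer a = qExpand QBar l (algebraMap QBar LSer a)
        rw [algebraMap_eq_C, qExpand_C]
      show (W (heckeBetaBar QBar (q * M) l (genF _ d)) : LSer) =
        qExpand QBar l (wEquiv q M hqM (genF _ d) : LSer)
      obtain ⟨d, hd⟩ := d
      rcases dvs_cases q M hq hd with hdM | ⟨d', hd', rfl⟩
      · have : NeZero d := ⟨fun h => NeZero.ne M (Nat.eq_zero_of_zero_dvd (h ▸ hdM))⟩
        have hdl : l * d ∣ M * l := mul_comm M l ▸ mul_dvd_mul_left l hdM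
        rw [hW ⟨l * d, dvd_mul_of_dvd_right hdl q⟩ _ ((coe_heckeBetaBar _ _ _).trans (by
            rw [coe_genF, gen, gen, qExpand_qExpand])),
          wEquiv_gen_of_dvd q (M * l) hqMl hdl, wEquiv_gen_of_dvd q M hqM hdM, qExpand_qExpand]
        exact qExpand_congr (by ring) _
      · have : NeZero d' := ⟨fun h => NeZero.ne M (Nat.eq_zero_of_zero_dvd (h ▸ hd'))⟩
        have hdl : l * d' ∣ M * l := mul_comm M l ▸ mul_dvd_mul_left l hd'
        rw [hW ⟨q * (l * d'), mul_dvd_mul_left q hdl⟩ _ ((coe_heckeBetaBar _ _ _).trans (by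
            rw [coe_genF, gen, gen, qExpand_qExpand]
            exact qExpand_congr (by ring) _)),
          wEquiv_gen_mul q (M * l) hqMl hdl, wEquiv_gen_mul q M hqM hd', qExpand_qExpand]
    exact DFunLike.congr_fun h x

theorem heckeNorm_wEquiv (hqM : ¬ q ∣ M) (hl : l.Prime) (hN : ¬ l ∣ q * M) (f : FB (q * M)) :
    heckeNorm (q * M) l (wEquiv q M hqM f) = wEquiv q M hqM (heckeNorm (q * M) l f) := by
  obtain ⟨W, hWa, hWb⟩ := exists_wLift q M l hqM (fun h => hN (h ▸ dvd_mul_right q M)) hl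
  letI := algebraAlong (heckeAlphaBar QBar (q * M) l)
  have h := Algebra.norm_eq_of_equiv_equiv (wEquiv q M hqM).toRingEquiv W.toRingEquiv
    (RingHom.ext fun x => (hWa x).symm) (heckeBetaBar QBar (q * M) l f)
  show Algebra.norm (FB (q * M)) (heckeBetaBar QBar (q * M) l (wEquiv q M hqM f)) =
    wEquiv q M hqM (Algebra.norm (FB (q * M)) (heckeBetaBar QBar (q * M) l f))
  rw [← hWb, h]
  exact ((wEquiv q M hqM).toRingEquiv.apply_symm_apply _).symm

/-- The expansion of the norm at either cusp. -/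
theorem qExpand_iota2_heckeNorm (hqM : ¬ q ∣ M) (hl : l.Prime) (hN : ¬ l ∣ q * M) (s : Fin 2)
    {ζ : QBarˣ} (hζ : IsPrimitiveRoot ζ l) (f : FB (q * M)) :
    qExpand QBar l (iota2 M q hqM s (heckeNorm (q * M) l f)) =
      heckeProd l ζ (iota2 M q hqM s f) := by
  fin_cases s
  · exact qExpand_heckeNorm hl hN hζ f
  · show qExpand QBar l (iota2 M q hqM 1 (heckeNorm (q * M) l f)) = _
    rw [iota2_one, ← heckeNorm_wEquiv q M l hqM hl hN, qExpand_heckeNorm hl hN hζ]
    rfl

end Levels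

/-! ### Reductions -/

section Reduction

variable {A : ValuationSubring QBar} {p l : ℕ} [NeZero l]

theorem mem_of_root {u : QBarˣ} (hu : u ^ l = 1) : (u : QBar) ∈ A :=
  Arith.mem_of_isIntegral A (IsIntegral.of_pow (Nat.pos_of_ne_zero (NeZero.ne l)) (by
    rw [← Units.val_pow_eq_pow_val, hu, Units.val_one]; exact isIntegral_one))

variable (A) in
/-- The residue of a root of unity. -/
def resRoot (u : QBarˣ) (hu : u ^ l = 1) : (Res A)ˣ :=
  Units.map (IsLocalRing.residue A).toMonoidHom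
    ⟨⟨u, mem_of_root hu⟩, ⟨((u⁻¹ : QBarˣ) : QBar), mem_of_root (by rw [inv_pow, hu, inv_one])⟩,
      Subtype.ext u.mul_inv, Subtype.ext u.inv_mul⟩

theorem resRoot_pow (u : QBarˣ) (hu : u ^ l = 1) (i : ℕ) (hi : (u ^ i) ^ l = 1) :
    resRoot A (u ^ i) hi = resRoot A u hu ^ i := by
  refine Units.ext ?_
  refine Eq.trans ?_ (Units.val_pow_eq_pow_val (resRoot A u hu) i).symm
  refine Eq.trans ?_ (map_pow (IsLocalRing.residue A) (⟨(u : QBar), mem_of_root hu⟩ : A) i)
  exact congrArg (IsLocalRing.residue A) (Subtype.ext (Units.val_pow_eq_pow_val u i))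

theorem twist_mem_intS {u : QBarˣ} (hu : u ^ l = 1) {x : LSer} (hx : x ∈ intS A) :
    ∃ h : ModFun.twist u x ∈ intS A,
      red A ⟨_, h⟩ = ModFun.twist (resRoot A u hu) (red A ⟨x, hx⟩) := by
  obtain ⟨⟨L, hL, hxL⟩, hxA⟩ := mem_intS.mp hx
  have hu' : ∀ k : ℤ, (u ^ k) ^ l = 1 := fun k => by
    rw [← zpow_natCast, ← zpow_mul, mul_comm, zpow_mul, zpow_natCast, hu, one_zpow]
  have hint : IsIntegral ℚ (u : QBar) := Algebra.IsIntegral.isIntegral _
  have := IntermediateField.adjoin.finiteDimensional hint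
  have hmem : ∀ k : ℤ, ((u ^ k : QBarˣ) : QBar) ∈ IntermediateField.adjoin ℚ {(u : QBar)} := by
    intro k
    rw [Units.val_zpow_eq_zpow_val]
    exact zpow_mem (IntermediateField.mem_adjoin_simple_self ℚ _) k
  have h : ModFun.twist u x ∈ intS A := by
    refine mem_intS.mpr ⟨⟨L ⊔ IntermediateField.adjoin ℚ {(u : QBar)}, inferInstance, fun n => ?_⟩,
      fun n => ?_⟩ <;> rw [ModFun.coeff_twist]
    · exact mul_mem ((le_sup_right : _ ≤ L ⊔ _) (hmem n)) ((le_sup_left : L ≤ L ⊔ _) (hxL n))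
    · exact mul_mem (mem_of_root (hu' n)) (hxA n)
  refine ⟨h, ?_⟩
  ext n
  have hk : (((resRoot A u hu) ^ n : (Res A)ˣ) : Res A) =
      IsLocalRing.residue A ⟨((u ^ n : QBarˣ) : QBar), mem_of_root (hu' n)⟩ := by
    rw [resRoot, ← map_zpow, Units.coe_map]
    refine congrArg (IsLocalRing.residue A) (Subtype.ext ?_)
    exact congrArg Units.val (map_zpow (Units.map A.subtype.toMonoidHom)
      (⟨⟨u, mem_of_root hu⟩, ⟨((u⁻¹ : QBarˣ) : QBar), mem_of_root (by rw [inv_pow, hu, inv_one])⟩,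
        Subtype.ext u.mul_inv, Subtype.ext u.inv_mul⟩ : Aˣ) n) |>.trans
      (by congr 1)
  rw [ModFun.coeff_twist, hk, coeff_red, coeff_red, ← map_mul]
  exact congrArg (IsLocalRing.residue A) (Subtype.ext (ModFun.coeff_twist u x n))

theorem twist_mem_locS {u : QBarˣ} (hu : u ^ l = 1) {x : LSer} (hx : x ∈ locS A) :
    ∃ h : ModFun.twist u x ∈ locS A,
      redL A ⟨_, h⟩ = ModFun.twist (resRoot A u hu) (redL A ⟨x, hx⟩) := by
  obtain ⟨a, b, hb, hab⟩ := id hx
  obtain ⟨ha', ea⟩ := twist_mem_intS hu a.2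
  obtain ⟨hb', eb⟩ := twist_mem_intS hu b.2
  have hb0 : red A ⟨_, hb'⟩ ≠ 0 := by rw [eb]; exact (map_ne_zero _).mpr hb
  have e : ModFun.twist u x * ModFun.twist u b.1 = ModFun.twist u a.1 := by rw [← map_mul, hab]
  have h : ModFun.twist u x ∈ locS A := ⟨⟨_, ha'⟩, ⟨_, hb'⟩, hb0, e⟩
  refine ⟨h, ?_⟩
  rw [redL_eq ⟨_, h⟩ (a := ⟨_, ha'⟩) hb0 e, redL_eq ⟨x, hx⟩ hb hab, ea, eb, map_div₀]

theorem heckeProd_mem_locS {ζ : QBarˣ} (hζ : ζ ^ l = 1) {x : LSer} (hx : x ∈ locS A) :
    ∃ h : heckeProd l ζ x ∈ locS A,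
      redL A ⟨_, h⟩ = heckeProd l (resRoot A ζ hζ) (redL A ⟨x, hx⟩) := by
  have hi : ∀ i : ℕ, (ζ ^ i) ^ l = 1 := fun i => by
    rw [← pow_mul, mul_comm, pow_mul, hζ, one_pow]
  choose h e using fun i : Fin l => twist_mem_locS (A := A) (hi (i : ℕ)) hx
  set S : locS A := ⟨_, qExpand_mem_locS l (qExpand_mem_locS l hx)⟩ *
    ∏ i : Fin l, ⟨_, h i⟩
  have hS : (S : LSer) = heckeProd l ζ x := by
    rw [heckeProd_apply, Subring.coe_mul, SubmonoidClass.coe_finsetProd]
  refine ⟨hS ▸ S.2, ?_⟩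
  rw [redL_congr _ S.2 hS.symm, map_mul, map_prod, heckeProd_apply,
    redL_qExpand l (qExpand_mem_locS l hx), redL_qExpand l hx]
  congr 1
  exact Finset.prod_congr rfl fun i _ => by rw [e i, resRoot_pow ζ hζ (i : ℕ) (hi _)]

variable (hA : A.LiesOverPrime p) (hp : p.Prime)
include hA hp

theorem resRoot_primitive (hlp : ¬ p ∣ l) {ζ : QBarˣ} (hζ : IsPrimitiveRoot ζ l) :
    IsPrimitiveRoot (resRoot A ζ hζ.pow_eq_one) l := by
  refine IsPrimitiveRoot.mk_of_lt _ (NeZero.pos l) ?_ fun k hk hkl h => ?_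
  · rw [← resRoot_pow ζ hζ.pow_eq_one l (by rw [hζ.pow_eq_one, one_pow])]
    refine Units.ext (Eq.trans (congrArg (IsLocalRing.residue A) (Subtype.ext ?_)) (map_one _))
    show ((ζ ^ l : QBarˣ) : QBar) = 1
    rw [hζ.pow_eq_one, Units.val_one]
  · have hkl' : (ζ ^ k) ^ l = 1 := by rw [← pow_mul, mul_comm, pow_mul, hζ.pow_eq_one, one_pow]
    rw [← resRoot_pow ζ hζ.pow_eq_one k hkl'] at h
    refine hζ.pow_ne_one_of_pos_of_lt hk.ne' hkl (Units.ext ?_)
    refine Arith.root_eq_one_of_sub_one_mem_nonunits hA hp (m := l) ?_ hlp ?_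
    · rw [← Units.val_pow_eq_pow_val, hkl', Units.val_one]
    · have h' : IsLocalRing.residue A ⟨((ζ ^ k : QBarˣ) : QBar), mem_of_root hkl'⟩ =
          IsLocalRing.residue A 1 := (congrArg Units.val h).trans (map_one _).symm
      exact Arith.residue_eq_iff.mp h'

theorem exists_resRoot (hlp : ¬ p ∣ l) (η : (Res A)ˣ) (hη : IsPrimitiveRoot η l) :
    ∃ ζ : QBarˣ, ∃ h : IsPrimitiveRoot ζ l, resRoot A ζ h.pow_eq_one = η := by
  obtain ⟨ζ, hζ⟩ := exists_primitive (l := l)
  obtain ⟨i, -, hic, hi⟩ := ((IsPrimitiveRoot.coe_units_iff.mpr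
    (resRoot_primitive hA hp hlp hζ)).isPrimitiveRoot_iff).mp (IsPrimitiveRoot.coe_units_iff.mpr hη)
  exact ⟨ζ ^ i, hζ.pow_of_coprime i hic, (resRoot_pow ζ hζ.pow_eq_one i _).trans
    (Units.ext ((Units.val_pow_eq_pow_val _ i).trans hi))⟩

/-- A quotient of integral series is integral if its substitution `q ↦ q^l` is. -/
theorem locS_of_qExpand {y : LSer} (hy : y ∈ fracS A) (h : qExpand QBar l y ∈ locS A) :
    ∃ h' : y ∈ locS A, qExpand (Res A) l (redL A ⟨y, h'⟩) = redL A ⟨_, h⟩ := by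
  suffices h' : y ∈ locS A by
    exact ⟨h', (redL_qExpand l h').symm.trans (redL_congr _ _ rfl)⟩
  rcases eq_or_ne y 0 with rfl | hy0
  · exact zero_mem _
  obtain ⟨c, hc, hcy, hne⟩ := exists_scale hA hp hy hy0
  have hcA : c⁻¹ ∈ A := by
    by_contra hn
    have hcA : c ∈ A := (A.mem_or_inv_mem c).resolve_right hn
    have hcn : c ∈ A.nonunits := by
      by_contra hcn
      exact hn ((A.valuation_le_one_iff _).mp (by
        rw [map_inv₀, valuation_eq_one hcA hcn, inv_one]))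
    obtain ⟨h1, e1⟩ := redL_const_mul hcA h
    rw [(residue_eq_zero_iff _).mpr hcn, map_zero, zero_mul] at e1
    refine (map_ne_zero (qExpand (Res A) l)).mpr hne ?_
    rw [← redL_qExpand l hcy, ← e1]
    exact redL_congr _ _ (by
      rw [map_mul, algebraMap_eq_C, qExpand_C])
  have := mul_mem (algebraMap_mem_locS hcA) hcy
  rwa [← mul_assoc, ← map_mul, inv_mul_cancel₀ hc, map_one, one_mul] at this

theorem isGUnit_of_qExpand {y : LSer} (hy : y ∈ fracS A) (h : IsGUnit A (qExpand QBar l y)) :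
    IsGUnit A y := by
  obtain ⟨h, hne⟩ := h
  obtain ⟨h', e⟩ := locS_of_qExpand hA hp hy h
  exact ⟨h', fun h0 => hne (by rw [← e, h0, map_zero])⟩

/-- The reduction of the image of a series is the image of its reduction. -/
theorem exists_isRed_heckeImage (hlp : ¬ p ∣ l) {x y : LSer} {z : LaurentSeries (Res A)}
    (hy : y ∈ fracS A) (hxy : ∀ ζ : QBarˣ, IsPrimitiveRoot ζ l → qExpand QBar l y = heckeProd l ζ x)
    (hx : IsRed A x z) : ∃ X, IsRed A y X ∧ IsHeckeImage l z X := by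
  obtain ⟨hz, c, hc, hcx, rfl⟩ := hx
  obtain ⟨ζ, hζ⟩ := exists_primitive (l := l)
  have key : ∀ {ξ : QBarˣ}, IsPrimitiveRoot ξ l →
      qExpand QBar l (algebraMap QBar LSer (c ^ (l + 1)) * y) =
        heckeProd l ξ (algebraMap QBar LSer c * x) := by
    intro ξ hξ
    rw [map_mul, hxy ξ hξ, map_mul (heckeProd l ξ), algebraMap_eq_C, algebraMap_eq_C, heckeProd_C,
      qExpand_C]
  obtain ⟨hm, e⟩ := heckeProd_mem_locS hζ.pow_eq_one hcx
  obtain ⟨hy', e'⟩ := locS_of_qExpand hA hp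
    (mul_mem (algebraMap_mem_fracS _) hy) (by rw [key hζ]; exact hm)
  refine ⟨redL A ⟨_, hy'⟩, ⟨fun h0 => ?_, c ^ (l + 1), pow_ne_zero _ hc, hy', rfl⟩,
    fun η hη => ?_⟩
  · rw [h0, map_zero, redL_congr _ hm (key hζ), e] at e'
    exact heckeProd_ne_zero l _ hz e'.symm
  · obtain ⟨ξ, hξ, rfl⟩ := exists_resRoot hA hp hlp η hη
    obtain ⟨hm', e''⟩ := heckeProd_mem_locS hξ.pow_eq_one hcx
    rw [e', redL_congr _ hm' (key hξ), e'']

/-- The order of the image is `l + 1` times the order. -/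
theorem gord_heckeImage (C : CoefField A p) {x y : LSer} (hx : x ∈ fracS A)
    (hx0 : x ≠ 0) (hfix : C.Fix x) (hy : y ∈ fracS A)
    (hxy : ∀ ζ : QBarˣ, IsPrimitiveRoot ζ l → qExpand QBar l y = heckeProd l ζ x) :
    C.gord y = ((l : ℤ) + 1) * C.gord x := by
  refine CoefField.gord_eq (isGUnit_of_qExpand (l := l) hA hp
    (mul_mem (algebraMap_mem_fracS _) hy) ?_)
  obtain ⟨h, hne⟩ := CoefField.gord_spec hA hp hx hx0 hfix
  obtain ⟨ζ, hζ⟩ := exists_primitive (l := l)
  obtain ⟨hm, e⟩ := heckeProd_mem_locS hζ.pow_eq_one h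
  have key : qExpand QBar l (algebraMap QBar LSer (C.π ^ (-(((l : ℤ) + 1) * C.gord x))) * y) =
      heckeProd l ζ (algebraMap QBar LSer (C.π ^ (-C.gord x)) * x) := by
    rw [map_mul, hxy ζ hζ, map_mul (heckeProd l ζ), algebraMap_eq_C, algebraMap_eq_C, heckeProd_C,
      qExpand_C, ← zpow_natCast, ← zpow_mul]
    push_cast
    ring_nf
  rw [key]
  exact ⟨hm, by rw [e]; exact heckeProd_ne_zero l _ hne⟩

omit hp in
/-- `1 + π x₁ ↦ 1 + π y₁` with `y₁ ≡ (l + 1) r` when `x₁ ≡ r`. -/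
theorem heckeImage_congr_one (hp : p.Prime) {π : QBar} (hπ : π ∈ A.nonunits) (hπ0 : π ≠ 0)
    {x₁ y : LSer} (hx₁ : x₁ ∈ locS A) {r : Res A}
    (hr : redL A ⟨x₁, hx₁⟩ = algebraMap (Res A) (LaurentSeries (Res A)) r) (hy : y ∈ fracS A)
    {ζ : QBarˣ} (hζ : IsPrimitiveRoot ζ l)
    (hxy : qExpand QBar l y = heckeProd l ζ (1 + algebraMap QBar LSer π * x₁)) :
    ∃ y₁, ∃ h : y₁ ∈ locS A, y = 1 + algebraMap QBar LSer π * y₁ ∧
      redL A ⟨y₁, h⟩ = algebraMap (Res A) (LaurentSeries (Res A)) (((l : Res A) + 1) * r) := by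
  set P : LSer := algebraMap QBar LSer π with hP
  have hP0 : P ≠ 0 := (map_ne_zero _).mpr hπ0
  have hPl : P ∈ locS A := algebraMap_mem_locS (Arith.mem_of_mem_nonunits hπ)
  set Pi' : locS A := ⟨P, hPl⟩ with hPi
  have hPred : redL A Pi' = 0 := by
    rw [show Pi' = ⟨_, algebraMap_mem_locS (Arith.mem_of_mem_nonunits hπ)⟩ from rfl,
      redL_algebraMap (Arith.mem_of_mem_nonunits hπ),
      (residue_eq_zero_iff (Arith.mem_of_mem_nonunits hπ)).mpr hπ, map_zero]
  have hcst : ∀ u : (Res A)ˣ, ModFun.twist u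
      (HahnSeries.C r : LaurentSeries (Res A)) = HahnSeries.C r := fun u => by
    ext k
    rw [ModFun.coeff_twist]
    rcases eq_or_ne k 0 with rfl | hk
    · simp
    · simp [hk]
  have hz : ∀ {ι : Type} (s : Finset ι) (w : ι → locS A), ∃ W : locS A,
      ∏ i ∈ s, (1 + Pi' * w i) = 1 + Pi' * W ∧ redL A W = ∑ i ∈ s, redL A (w i) := by
    classical
    intro ι s w
    induction s using Finset.induction_on with
    | empty => exact ⟨0, by simp, by simp⟩
    | insert i s hi ih =>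
      obtain ⟨W, hW, hW'⟩ := ih
      refine ⟨w i + W + Pi' * w i * W, by rw [Finset.prod_insert hi, hW]; ring, ?_⟩
      rw [Finset.sum_insert hi, map_add, map_add, map_mul, map_mul, hPred, hW']
      ring
  have hi : ∀ i : ℕ, (ζ ^ i) ^ l = 1 := fun i => by
    rw [← pow_mul, mul_comm, pow_mul, hζ.pow_eq_one, one_pow]
  choose h e using fun i : Fin l => twist_mem_locS (A := A) (hi (i : ℕ)) hx₁
  have hfixP : ∀ u : QBarˣ, ModFun.twist u P = P := fun u => by
    rw [hP, algebraMap_eq_C]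
    ext k
    rw [ModFun.coeff_twist]
    rcases eq_or_ne k 0 with rfl | hk
    · simp
    · simp [hk]
  have hqP : qExpand QBar l P = P := by rw [hP, algebraMap_eq_C, qExpand_C]
  set w : Option (Fin l) → locS A := fun o => o.elim
    ⟨_, qExpand_mem_locS l (qExpand_mem_locS l hx₁)⟩ (fun i => ⟨_, h i⟩)
  obtain ⟨W, hW, hW'⟩ := hz Finset.univ w
  have hprod : qExpand QBar l y = 1 + P * (W : LSer) := by
    have := congrArg Subtype.val hW
    rw [Fintype.prod_option] at this
    rw [hxy, heckeProd_apply]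
    simp only [map_add, map_one, map_mul, hqP, hfixP]
    exact (by simpa [w, Pi'] using this)
  have hy₁ : (y - 1) * P⁻¹ ∈ fracS A :=
    mul_mem (sub_mem hy (one_mem _)) (inv_mem (algebraMap_mem_fracS _))
  have hq : qExpand QBar l ((y - 1) * P⁻¹) = (W : LSer) := by
    rw [map_mul, map_sub, map_one, map_inv₀, hqP, hprod]
    field_simp
    ring
  obtain ⟨h', e'⟩ := locS_of_qExpand hA hp hy₁ (hq ▸ W.2)
  refine ⟨(y - 1) * P⁻¹, h', by field_simp; ring, qExpand_injective l ?_⟩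
  rw [e', redL_congr _ W.2 hq, hW', Fintype.sum_option, algebraMap_eq_C, qExpand_C]
  simp only [w, Option.elim]
  rw [redL_qExpand l (qExpand_mem_locS l hx₁), redL_qExpand l hx₁, hr, algebraMap_eq_C, qExpand_C,
    qExpand_C]
  simp only [e, hr, algebraMap_eq_C, hcst, Finset.sum_const, Finset.card_univ, Fintype.card_fin,
    map_mul, map_add, map_one, nsmul_eq_mul, map_natCast]
  ring

end Reduction

/-! ### Eigen classes -/

section Eigen

variable {N : ℕ} [NeZero N] {m : ℕ} [NeZero m]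

set_option maxHeartbeats 1000000 in
/-- The Kummer function of the image of a class under a Hecke operator is the norm. -/
theorem exists_heckeNorm_toTorsion (l : ℕ) [NeZero l] (hl : l.Prime)
    (f : JacTorsion.divGrp QBar (FB N) m) :
    ∃ f' : JacTorsion.divGrp QBar (FB N) m,
      ((f' : (FB N)ˣ) : FB N) = heckeNorm N l ((f : (FB N)ˣ) : FB N) ∧
      (JacTorsion.toTorsion (Additive.ofMul f') : JZero N) =
        heckeOperatorBar N ⟨l, hl⟩ (JacTorsion.toTorsion (Additive.ofMul f) : JZero N) := by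
  have hin := FF.heckeInputsAlong QBar N l
  have := hin.snd.snd.fst
  obtain ⟨f', hf', htor⟩ := GaloisReps.correspondence_toTorsion (heckeBetaBar QBar N l)
    (heckeAlphaBar QBar N l) hin.snd.fst hin.fst hin.snd.snd.snd.snd.1
    hin.snd.snd.snd.fst hin.snd.snd.snd.snd.2 f
  refine ⟨f', hf', htor.trans ?_⟩
  show _ = heckeOperatorAlong QBar N l _
  rw [heckeOperatorAlong, dif_pos hin]
  rfl

/-- The norm of a Kummer function of an eigen class is a power of it up to an `m`-th power. -/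
theorem exists_heckeNorm_eq (l : ℕ) [NeZero l] (hl : l.Prime)
    (f : JacTorsion.divGrp QBar (FB N) m) (a : ℤ)
    (hx : heckeOperatorBar N ⟨l, hl⟩ (JacTorsion.toTorsion (Additive.ofMul f) : JZero N) =
      a • (JacTorsion.toTorsion (Additive.ofMul f) : JZero N)) :
    ∃ h : FB N, h ≠ 0 ∧
      heckeNorm N l ((f : (FB N)ˣ) : FB N) = ((f : (FB N)ˣ) : FB N) ^ a * h ^ m := by
  obtain ⟨f', hf', htor⟩ := exists_heckeNorm_toTorsion l hl f
  have h0 : JacTorsion.toTorsion (Additive.ofMul (f' * (f ^ a)⁻¹)) = 0 := by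
    rw [ofMul_mul, ofMul_inv, ofMul_zpow, map_add, map_neg, map_zsmul, add_neg_eq_zero]
    exact Subtype.ext (htor.trans hx)
  obtain ⟨g, hg⟩ := (JacTorsion.toTorsion_eq_zero_iff _).mp h0
  refine ⟨g, g.ne_zero, ?_⟩
  have hg' : ((g : FB N)) ^ m =
      ((f' : (FB N)ˣ) : FB N) * (((f : (FB N)ˣ) : FB N) ^ a)⁻¹ := by
    have := congrArg (fun u : (FB N)ˣ => (u : FB N)) hg
    simpa using this
  rw [hg', mul_left_comm, mul_inv_cancel₀ (zpow_ne_zero _ (Units.ne_zero _)), mul_one]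
  exact hf'.symm

end Eigen

end Fermat.Agent.RT.MazurP

end
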