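import Fermat.Agent.RT.MazurP.Jump
import Fermat.Agent.RT.MazurP.Steep
import Fermat.Agent.EC.Rep.Cyclotomic
import Fermat.Agent.EC.Rep.Local.NodeTorsion
import Fermat.Agent.EC.Rep.Residual
import Fermat.Agent.EC.Multiplicative.Torsion

/-!
# Inertia over `p` on `E[p]` at a multiplicative place with `p ∣ v(Δ)`

With `wildKer` the part of inertia trivial on `E[p]` and on `μ_p` and `tameKer` the part trivial on
`μ_p`: either the two agree, or the field cut out by `wildKer` is wild with lower jump one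
(peu ramifié).
-/

set_option autoImplicit false

open scoped WeierstrassCurve.Affine Pointwise
open WeierstrassCurve WeierstrassCurve.Affine Fermat.Agent.Arith

noncomputable section

namespace Fermat.Agent.RT.MazurP

open Fermat.Agent.EC.Reduction Fermat.Agent.EC.Multiplicative Fermat.Agent.EC.Rep
open Fermat.Agent.EC.AtP (PointQBar)

variable {A : ValuationSubring (AlgebraicClosure ℚ)} {W : WeierstrassCurve ℤ} {p : ℕ}

theorem smul_zsmul_point (τ : GQ) (a : ℤ) (P : PointQBar W) : τ • (a • P) = a • (τ • P) :=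
  map_zsmul (DistribSMul.toAddMonoidHom (PointQBar W) τ) a P

theorem smul_add_point (τ : GQ) (P Q : PointQBar W) : τ • (P + Q) = τ • P + τ • Q :=
  map_add (DistribSMul.toAddMonoidHom (PointQBar W) τ) P Q

theorem smul_zero_point (τ : GQ) : τ • (0 : PointQBar W) = 0 :=
  map_zero (DistribSMul.toAddMonoidHom (PointQBar W) τ)

theorem zsmul_congr {P : PointQBar W} (hP : (p : ℤ) • P = 0) {a b : ℤ}
    (h : (a : ZMod p) = b) : a • P = b • P := by
  obtain ⟨c, hc⟩ := (ZMod.intCast_eq_intCast_iff_dvd_sub a b p).mp h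
  rw [show b = a + c * p by linear_combination hc, add_zsmul, mul_zsmul, hP, zsmul_zero, add_zero]

theorem sCoord_smul (τ : GQ) (P : PointQBar W) : sCoord (τ • P) = τ (sCoord P) := by
  match P with
  | .zero => rw [← Point.zero_def, smul_zero_point, sCoord_zero, map_zero]
  | .some x y h =>
    obtain ⟨h', e⟩ := EC.Reduction.smul_some (σ := τ) h
    rw [e, sCoord_some, sCoord_some, map_div₀]

section Cyclotomic

variable [Fact p.Prime]

variable (p A)

/-- The part of inertia trivial on the `p`-th roots of unity. -/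
def tameKer : Subgroup GQ := A.inertiaSubgroupIn ℚ ⊓ (cyclotomicHom p).ker

variable (W)

/-- The part of inertia trivial on `E[p]` and on the `p`-th roots of unity. -/
def wildKer : Subgroup GQ where
  carrier := {τ | τ ∈ tameKer A p ∧ ∀ x : PointQBar W, (p : ℤ) • x = 0 → τ • x = x}
  one_mem' := ⟨one_mem _, fun x _ => one_smul GQ x⟩
  mul_mem' := fun {a b} ha hb => ⟨mul_mem ha.1 hb.1, fun x hx => by
    rw [mul_smul, hb.2 x hx, ha.2 x hx]⟩
  inv_mem' := fun {a} ha => ⟨inv_mem ha.1, fun x hx => by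
    rw [inv_smul_eq_iff, ha.2 x hx]⟩

variable {p A W}

theorem mem_tameKer {τ : GQ} :
    τ ∈ tameKer A p ↔ τ ∈ A.inertiaSubgroupIn ℚ ∧ cyclotomicHom p τ = 1 := by
  rw [tameKer, Subgroup.mem_inf, MonoidHom.mem_ker]

theorem mem_wildKer {τ : GQ} :
    τ ∈ wildKer A W p ↔ (τ ∈ A.inertiaSubgroupIn ℚ ∧ cyclotomicHom p τ = 1) ∧
      ∀ x : PointQBar W, (p : ℤ) • x = 0 → τ • x = x := by
  rw [← mem_tameKer]; rfl

theorem wildKer_le : wildKer A W p ≤ tameKer A p := fun _ h => h.1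

theorem conj_mem_tameKer {g h : GQ} (hg : g ∈ A.inertiaSubgroupIn ℚ) (hh : h ∈ tameKer A p) :
    g⁻¹ * h * g ∈ tameKer A p := by
  rw [mem_tameKer] at hh ⊢
  exact ⟨mul_mem (mul_mem (inv_mem hg) hh.1) hg, by
    rw [map_mul, map_mul, hh.2, mul_one, map_inv, inv_mul_cancel]⟩

theorem conj_mem_wildKer {g h : GQ} (hg : g ∈ A.inertiaSubgroupIn ℚ) (hh : h ∈ wildKer A W p) :
    g⁻¹ * h * g ∈ wildKer A W p := by
  refine ⟨conj_mem_tameKer hg hh.1, fun x hx => ?_⟩
  rw [mul_smul, mul_smul, hh.2 (g • x) (by rw [← smul_zsmul_point, hx, smul_zero_point]), inv_smul_smul]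

/-- `τ₀` in inertia with primitive cyclotomic value, generating inertia modulo `tameKer`. -/
theorem exists_tame_generator (hA : A.LiesOverPrime p) :
    ∃ τ₀ ∈ A.inertiaSubgroupIn ℚ,
      (∀ j : ℕ, ((cyclotomicHom p τ₀ : ZMod p)) ^ j = 1 → p - 1 ∣ j) ∧ τ₀ ^ (p - 1) ∈ tameKer A p ∧
      ∀ τ ∈ A.inertiaSubgroupIn ℚ, ∃ i : ℕ, (τ₀ ^ i)⁻¹ * τ ∈ tameKer A p := by
  obtain ⟨u, hu⟩ := IsCyclic.exists_generator (α := (ZMod p)ˣ)
  obtain ⟨τ₀, h₀, hχ⟩ := exists_mem_inertia_cyclotomicHom_eq hA u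
  refine ⟨τ₀, h₀, fun j hj => ?_, mem_tameKer.mpr ⟨pow_mem h₀ _, ?_⟩, fun τ hτ => ?_⟩
  · rw [hχ, ← Units.val_pow_eq_pow_val, Units.val_eq_one, ← orderOf_dvd_iff_pow_eq_one,
      orderOf_eq_card_of_forall_mem_zpowers hu, Nat.card_eq_fintype_card, ZMod.card_units] at hj
    exact hj
  · rw [map_pow, hχ, ZMod.units_pow_card_sub_one_eq_one]
  · obtain ⟨i, hi⟩ : ∃ i : ℕ, u ^ i = cyclotomicHom p τ :=
      (mem_powers_iff_mem_zpowers.mpr (hu _))
    exact ⟨i, mem_tameKer.mpr ⟨mul_mem (inv_mem (pow_mem h₀ _)) hτ, by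
      rw [map_mul, map_inv, map_pow, hχ, hi, inv_mul_cancel]⟩⟩

variable (A W p)

/-- A basis of `E[p]` adapted to the place: `R` reduces to the origin and `S` to the node. -/
structure Frame where
  R : PointQBar W
  S : PointQBar W
  hR : (p : ℤ) • R = 0
  hS : (p : ℤ) • S = 0
  R_ne : R ≠ 0
  R_inE1 : InE1 A R
  S_not : ¬ InE0 A (W.map (Int.castRingHom (IsLocalRing.ResidueField A))) S
  span : ∀ x : PointQBar W, (p : ℤ) • x = 0 → ∃ a b : ℤ, x = a • R + b • S
  smul_R : ∀ τ ∈ A.inertiaSubgroupIn ℚ, τ • R = (cyclotomicHom p τ : ZMod p).val • R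
  smul_S : ∀ τ ∈ A.inertiaSubgroupIn ℚ, ∃ b : ℤ, τ • S = S + b • R

variable {A W p}

/-- At a multiplicative place over the odd `p`, a frame exists and inertia acts on `E[p]` with
trace `χ + 1`. -/
theorem exists_frame (hA : A.LiesOverPrime p) (hp2 : p ≠ 2) (hΔ0 : W.Δ ≠ 0)
    (hΔ : (p : ℤ) ∣ W.Δ) (hc₄ : ¬ (p : ℤ) ∣ W.c₄) :
    Nonempty (Frame A W p) ∧ ∀ τ ∈ A.inertiaSubgroupIn ℚ,
      LinearMap.trace (ZMod p) (residualRep W p hΔ0).V ((residualRep W p hΔ0).ρ τ) =
        (cyclotomicHom p τ : ZMod p) + 1 := by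
  classical
  have hp : p.Prime := Fact.out
  set V := W.map (Int.castRingHom (IsLocalRing.ResidueField A)) with hV
  obtain ⟨R, htor, -, hR1, hR0, hgen⟩ := exists_inE0_system hA hp hp2 hΔ0 hΔ hc₄
  obtain ⟨N, -⟩ := exists_node_int hA hp hΔ0 hΔ hc₄
  have hRtor : (p : ℤ) • R 1 = 0 := by simpa using htor 1
  have hRE1 : InE1 A (R 1) := inE1_of_pow_nsmul_eq_zero N hA hp (hR0 1) (n := 1)
    (by rw [pow_one, ← natCast_zsmul]; exact hRtor)
  obtain ⟨S, hS, hS1⟩ := exists_torsion_not_inE1 hA hp hp2 hΔ0 hΔ hc₄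
  have hStor : (p : ℤ) • S = 0 := by rw [natCast_zsmul]; exact hS
  have hS0 : ¬ InE0 A V S := fun h => hS1 (inE1_of_pow_nsmul_eq_zero N hA hp h (n := 1)
    (by rw [pow_one]; exact hS))
  let r : (residualRep W p hΔ0).V := ⟨R 1, (Submodule.mem_torsionBy_iff _ _).mpr hRtor⟩
  let s : (residualRep W p hΔ0).V := ⟨S, (Submodule.mem_torsionBy_iff _ _).mpr hStor⟩
  have hr : r ≠ 0 := fun e => hR1 (congrArg Subtype.val e)
  have hs : s ∉ (ZMod p) ∙ r := by
    intro hmem
    obtain ⟨a, ha⟩ := Submodule.mem_span_singleton.mp hmem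
    obtain ⟨a, rfl⟩ := ZMod.intCast_surjective a
    rw [Int.cast_smul_eq_zsmul] at ha
    refine hS0 ?_
    rw [← (show a • R 1 = S from congrArg Subtype.val ha)]
    exact zsmul_mem (show R 1 ∈ N.red.E0 from hR0 1) a
  have hb : LinearIndependent (ZMod p) ![r, s] := by
    rw [linearIndependent_fin2]
    refine ⟨fun e => hs (by simp at e; rw [e]; exact zero_mem _), fun a e => ?_⟩
    simp at e
    rcases eq_or_ne a 0 with rfl | ha
    · exact hr (by simpa using e.symm)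
    · exact hs (Submodule.mem_span_singleton.mpr ⟨a⁻¹, by rw [← e, inv_smul_smul₀ ha]⟩)
  let b := basisOfLinearIndependentOfCardEqFinrank hb
    (by rw [Fintype.card_fin, (residualRep W p hΔ0).finrank_eq])
  have hb0 : b 0 = r := by simp [b]
  have hb1 : b 1 = s := by simp [b]
  have hmain : ∀ τ ∈ A.inertiaSubgroupIn ℚ, ∃ a c : ℤ, τ • R 1 = a • R 1 ∧
      τ • S = S + c • R 1 ∧ ((a : ZMod p) = (cyclotomicHom p τ : ZMod p)) ∧
      LinearMap.trace (ZMod p) (residualRep W p hΔ0).V ((residualRep W p hΔ0).ρ τ) =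
        (a : ZMod p) + 1 := by
    intro τ hτ
    obtain ⟨a, ha⟩ := hgen 1 (τ • R 1)
      (by rw [pow_one, ← smul_zsmul_point, hRtor, smul_zero_point])
      ((N.red.inE0_smul_iff (res_inertia hτ).1 (φ := RingHom.id _) (res_inertia hτ).2).mpr (hR0 1))
    obtain ⟨c, hc⟩ := hgen 1 (τ • S - S)
      (by rw [pow_one, zsmul_sub, ← smul_zsmul_point, hStor, smul_zero_point, sub_zero])
      (N.inE0_smul_sub (res_inertia hτ).1 (res_inertia hτ).2 S)
    have e0 : (residualRep W p hΔ0).ρ τ r = (a : ZMod p) • r := by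
      rw [Int.cast_smul_eq_zsmul]; exact Subtype.ext ha
    have e1 : (residualRep W p hΔ0).ρ τ s = (c : ZMod p) • r + s := by
      rw [Int.cast_smul_eq_zsmul]
      exact Subtype.ext (show τ • S = c • R 1 + S by rw [← hc, sub_add_cancel])
    have e0' : (residualRep W p hΔ0).ρ τ (b 0) = (a : ZMod p) • b 0 := by rw [hb0]; exact e0
    have e1' : (residualRep W p hΔ0).ρ τ (b 1) = (c : ZMod p) • b 0 + b 1 := by
      rw [hb0, hb1]; exact e1
    have hd : LinearMap.det ((residualRep W p hΔ0).ρ τ) = (a : ZMod p) := by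
      rw [← LinearMap.det_toMatrix b, Matrix.det_fin_two]
      simp [LinearMap.toMatrix_apply, e0', e1']
    refine ⟨a, c, ha, by rw [← hc]; abel, ?_, ?_⟩
    · rw [← hd, det_residualRep hΔ0 (card_rootsOfUnity_qbar p), cyclotomicHom_apply]
    · rw [LinearMap.trace_eq_matrix_trace _ b, Matrix.trace_fin_two]
      simp [LinearMap.toMatrix_apply, e0', e1']
  refine ⟨⟨{ R := R 1, S := S, hR := hRtor, hS := hStor, R_ne := hR1, R_inE1 := hRE1,
             S_not := hS0, span := fun x hx => ?_, smul_R := fun τ hτ => ?_,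
             smul_S := fun τ hτ => ?_ }⟩, fun τ hτ => ?_⟩
  · let v : (residualRep W p hΔ0).V := ⟨x, (Submodule.mem_torsionBy_iff _ _).mpr hx⟩
    obtain ⟨a₀, ha₀⟩ := ZMod.intCast_surjective (b.repr v 0)
    obtain ⟨a₁, ha₁⟩ := ZMod.intCast_surjective (b.repr v 1)
    have e := b.sum_repr v
    rw [Fin.sum_univ_two, hb0, hb1, ← ha₀, ← ha₁, Int.cast_smul_eq_zsmul,
      Int.cast_smul_eq_zsmul] at e
    exact ⟨a₀, a₁, (congrArg Subtype.val e).symm⟩
  · obtain ⟨a, c, ha, -, hχ, -⟩ := hmain τ hτ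
    rw [ha, ← natCast_zsmul]
    exact zsmul_congr hRtor (by rw [hχ]; simp)
  · obtain ⟨a, c, -, hc, -⟩ := hmain τ hτ
    exact ⟨c, hc⟩
  · obtain ⟨a, c, -, -, hχ, ht⟩ := hmain τ hτ
    rw [ht, hχ]

namespace Frame

variable (F : Frame A W p)

theorem smul_R_of_mem {τ : GQ} (hτ : τ ∈ tameKer A p) : τ • F.R = F.R := by
  rw [mem_tameKer] at hτ
  rw [F.smul_R τ hτ.1, hτ.2, Units.val_one, ZMod.val_one, one_smul]

theorem mem_wildKer_of {τ : GQ} (hτ : τ ∈ tameKer A p) (hS : τ • F.S = F.S) :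
    τ ∈ wildKer A W p := by
  refine ⟨hτ, fun x hx => ?_⟩
  obtain ⟨a, b, rfl⟩ := F.span x hx
  rw [smul_add_point, smul_zsmul_point, smul_zsmul_point, F.smul_R_of_mem hτ, hS]

theorem pow_smul_S {τ : GQ} (hτ : τ ∈ tameKer A p) {b : ℤ} (hb : τ • F.S = F.S + b • F.R)
    (n : ℕ) : τ ^ n • F.S = F.S + ((n : ℤ) * b) • F.R := by
  induction n with
  | zero => simp
  | succ n ih =>
    rw [pow_succ', mul_smul, ih, smul_add_point, hb, smul_zsmul_point, F.smul_R_of_mem hτ, add_assoc,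
      ← add_zsmul]
    push_cast
    ring_nf

end Frame

end Cyclotomic

variable [Fact p.Prime]

/-- Fields `Hk` between the fixed fields of `tameKer` and of `wildKer` give tower data. -/
theorem exists_towerData (hA : A.LiesOverPrime p) {ζ : QBar} (hζ : IsPrimitiveRoot ζ p)
    (Hk : Subgroup GQ) (σ : GQ) (hle : Hk ≤ tameKer A p) (hσ : σ ∈ tameKer A p)
    (hnorm : ∀ g ∈ A.inertiaSubgroupIn ℚ, ∀ h ∈ Hk, g⁻¹ * h * g ∈ Hk)
    (hgen : ∀ h ∈ tameKer A p, ∃ i : ℕ, (σ ^ i)⁻¹ * h ∈ Hk) (hpow : σ ^ p ∈ Hk)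
    (hconj : ∀ g ∈ A.inertiaSubgroupIn ℚ,
      (σ ^ (cyclotomicHom p g : ZMod p).val)⁻¹ * (g * σ * g⁻¹) ∈ Hk) :
    ∃ T : TowerData A p, T.Hk = Hk ∧ T.H₁ = tameKer A p ∧ T.σ = σ ∧ T.ζ = ζ ∧
      (cyclotomicHom p T.τ₀ : ZMod p) = (T.g : ZMod p) := by
  obtain ⟨τ₀, hτ₀, hprim, hp', hgen'⟩ := exists_tame_generator hA
  have hg : (cyclotomicHom p τ₀ : ZMod p) =
      ((cyclotomicHom p τ₀ : ZMod p).val : ZMod p) := (ZMod.natCast_zmod_val _).symm
  exact ⟨{ Hk := Hk
           H₁ := tameKer A p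
           σ := σ
           τ₀ := τ₀
           g := (cyclotomicHom p τ₀ : ZMod p).val
           ζ := ζ
           le := hle
           le_inertia := fun h hh => (mem_tameKer.mp hh).1
           σ_mem := hσ
           τ₀_mem := hτ₀
           normal := hnorm σ (mem_tameKer.mp hσ).1
           normal_τ₀ := hnorm τ₀ hτ₀
           normal₁ := fun h hh => conj_mem_tameKer hτ₀ hh
           gen₁ := hgen
           pow_σ := hpow
           gen := hgen'
           pow_τ₀ := hp'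
           primitive := fun j hj => hprim j (by rw [hg]; exact hj)
           g_ne := hg ▸ Units.ne_zero _
           conj := hconj τ₀ hτ₀
           hζ := hζ
           ζ_fixed := fun h hh => by
             rw [cyclotomicHom_spec (n := p) h hζ.pow_eq_one,
               (mem_tameKer.mp hh).2, Units.val_one, ZMod.val_one, pow_one]
           τ₀_ζ := cyclotomicHom_spec τ₀ hζ.pow_eq_one },
    rfl, rfl, rfl, rfl, hg⟩

/-- An element of `tameKer` moving `S` is the generator of tower data over `wildKer`, normalised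
to move `S` by `R`. -/
theorem exists_wildTower (hA : A.LiesOverPrime p) (F : Frame A W p) {ζ : QBar}
    (hζ : IsPrimitiveRoot ζ p) (hall : ¬ ∀ τ ∈ tameKer A p, τ • F.S = F.S) :
    ∃ T : TowerData A p, T.Hk = wildKer A W p ∧ T.H₁ = tameKer A p ∧ T.ζ = ζ ∧
      (cyclotomicHom p T.τ₀ : ZMod p) = (T.g : ZMod p) ∧ T.σ • F.S = F.S + F.R := by
  simp only [not_forall] at hall
  obtain ⟨τ, hτ, hτS⟩ := hall
  obtain ⟨b, hb⟩ := F.smul_S τ (mem_tameKer.mp hτ).1
  have hb0 : (b : ZMod p) ≠ 0 := fun h => hτS (by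
    rw [hb, zsmul_congr F.hR (b := 0) (by rw [h, Int.cast_zero]), zero_zsmul, add_zero])
  set σ := τ ^ ((b : ZMod p)⁻¹).val with hσdef
  have hσ : σ ∈ tameKer A p := pow_mem hτ _
  have hσS : σ • F.S = F.S + F.R := by
    rw [hσdef, F.pow_smul_S hτ hb, zsmul_congr F.hR (b := 1) (by
      push_cast; rw [ZMod.natCast_val, ZMod.cast_id, inv_mul_cancel₀ hb0]), one_zsmul]
  have hσn : ∀ n : ℕ, σ ^ n • F.S = F.S + (n : ℤ) • F.R := fun n => by
    rw [F.pow_smul_S hσ (b := 1) (by rw [one_zsmul]; exact hσS), mul_one]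
  obtain ⟨T, hTk, hT₁, hTσ, hTζ, hTg⟩ := exists_towerData hA hζ (wildKer A W p) σ wildKer_le
    hσ (fun g hg h hh => conj_mem_wildKer hg hh)
    (fun h hh => by
      obtain ⟨c, hc⟩ := F.smul_S h (mem_tameKer.mp hh).1
      refine ⟨(c : ZMod p).val, F.mem_wildKer_of (mul_mem (inv_mem (pow_mem hσ _)) hh) ?_⟩
      rw [mul_smul, inv_smul_eq_iff, hσn, hc]
      exact congrArg (F.S + ·) (zsmul_congr F.hR
        (by push_cast; rw [ZMod.natCast_val, ZMod.cast_id])))
    (F.mem_wildKer_of (pow_mem hσ _) (by rw [hσn, F.hR, add_zero]))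
    (fun g hg => by
      have hconj : g * σ * g⁻¹ ∈ tameKer A p := by
        simpa using conj_mem_tameKer (inv_mem hg) hσ
      refine F.mem_wildKer_of (mul_mem (inv_mem (pow_mem hσ _)) hconj) ?_
      obtain ⟨c, hc⟩ := F.smul_S _ (inv_mem hg)
      have e : σ • g⁻¹ • F.S = g⁻¹ • F.S + F.R := by
        rw [hc, smul_add_point, hσS, smul_zsmul_point, F.smul_R_of_mem hσ]
        abel
      rw [mul_smul, inv_smul_eq_iff, hσn, mul_smul, mul_smul, e, smul_add_point,
        smul_inv_smul, F.smul_R g hg, natCast_zsmul])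
  exact ⟨T, hTk, hT₁, hTζ, hTg, hTσ.symm ▸ hσS⟩

/-- An element of inertia moving a point at the node by `R`, and its abscissa by less than the
distance to the node, moves it by the parameter of `R`. -/
theorem Frame.valuation_sCoord_move (F : Frame A W p)
    (N : Node A ((W.map (Int.castRingHom ℚ))⁄(AlgebraicClosure ℚ))
      (W.map (Int.castRingHom (IsLocalRing.ResidueField A))))
    {x y : QBar} {hxy} (hS : F.S = Point.some x y hxy) (hat : N.AtNode (Point.some x y hxy))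
    (hc2 : A.valuation N.c < A.valuation (x - N.r) ^ 2) {σ : GQ}
    (hσI : σ ∈ A.inertiaSubgroupIn ℚ) (hσS : σ • F.S = F.S + F.R) (hne : σ x ≠ x)
    (hdiff : A.valuation (σ x - x) < A.valuation (x - N.r)) :
    A.valuation (sCoord F.R) = A.valuation (σ x - x) / A.valuation (x - N.r) := by
  obtain ⟨hσr, hσt, hσa⟩ := N.map_node_eq (res_inertia hσI).1 (res_inertia hσI).2
  obtain ⟨hXlt, hYlt⟩ := (N.atNode_some hxy).mp hat
  have hxA : x ∈ A := by simpa using add_mem ((A.valuation_le_one_iff _).mp hXlt.le) N.hr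
  have hyA : y ∈ A := by simpa using add_mem ((A.valuation_le_one_iff _).mp hYlt.le) N.ht
  have hσb : σ N.b = N.b := by
    have e := congrArg σ N.sum_ab
    rw [map_add, map_neg, N.map_a₁' σ, hσa, ← N.sum_ab] at e
    exact add_left_cancel e
  obtain ⟨h', eσ⟩ := EC.Reduction.smul_some (σ := σ) hxy
  obtain ⟨-, hs⟩ := sCoord_add_neg_of_branch N (h := hxy) (h' := h') hxA
    (res_inertia_map hσI hxA).1 (res_inertia_map hσI hyA).1 (by
      have key : ∀ a : QBar, σ a = a → A.valuation (y - N.t - a * (x - N.r)) <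
          A.valuation (x - N.r) → A.valuation (σ y - N.t - a * (σ x - N.r)) <
          A.valuation (x - N.r) := by
        intro a ha hu
        rwa [show σ y - N.t - a * (σ x - N.r) = σ (y - N.t - a * (x - N.r)) by
          rw [map_sub, map_mul, map_sub, map_sub, ha, hσr, hσt], valuation_inertia hσI]
      rcases (N.nearNode hxy hat).either hc2 with h | h
      · exact Or.inl ⟨h, key _ hσa h⟩
      · exact Or.inr ⟨h, key _ hσb h⟩) hne hdiff
  have hR : Point.some (σ x) (σ y) h' + -Point.some x y hxy = F.R := by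
    rw [← eσ, ← hS, hσS]; abel
  rwa [hR] at hs

/-- The wild generator moves an element of order prime to `p` exactly to the next order. -/
theorem valuation_wild_ratio (hA : A.LiesOverPrime p) (Wd : Wild A p) {x : QBar} (hx0 : x ≠ 0)
    (hxH : ∀ h ∈ Wd.C.H, h x = x) {m : ℤ}
    (hx : A.valuation (x ^ p) = A.valuation (p : QBar) ^ m) (hm : ¬ (p : ℤ) ∣ m) :
    A.valuation (Wd.σ x / x - 1) = A.valuation Wd.C.π := by
  have hp : p.Prime := Fact.out
  have : CharP (IsLocalRing.ResidueField A) p := residueField_charP hA hp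
  set v := A.valuation with hv
  set π := Wd.C.π
  have hπ0 : π ≠ 0 := Wd.C.π_ne_zero
  have hQ0 : v π ≠ 0 := (Valuation.ne_zero_iff _).mpr hπ0
  have hQ1 : v π < 1 := A.mem_nonunits_iff.mp Wd.C.π_nonunit
  have hσv := valuation_inertia Wd.σ_mem_inertia
  have key : ∀ (n : ℕ) (x : QBar), x ≠ 0 → (∀ h ∈ Wd.C.H, h x = x) → v x = v π ^ n →
      ¬ p ∣ n → v (Wd.σ x / x - 1) = v π := by
    intro n x hx0 hxH hvx hn
    set ε := x / π ^ n with hε
    have hεv : v ε = 1 := by rw [hε, map_div₀, map_pow, hvx, div_self (pow_ne_zero _ hQ0)]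
    have hεA : ε ∈ A := (A.valuation_le_one_iff _).mp hεv.le
    have hεA' : ε⁻¹ ∈ A := (A.valuation_le_one_iff _).mp (by rw [map_inv₀, ← hv, hεv, inv_one])
    obtain ⟨t, htA, ht⟩ := Wd.scalar ε hεA fun h hh => by
      rw [hε, map_div₀, map_pow, hxH h hh, Wd.C.π_fixed h hh]
    obtain ⟨w, hwA, hw⟩ := Wd.exists_σ_π_pow n
    have hπA : π ∈ A := mem_of_mem_nonunits Wd.C.π_nonunit
    set R := w + (1 + (n : QBar) * Wd.u * π + w * π ^ 2) * (t * ε⁻¹)
    have hRA : R ∈ A := add_mem hwA (mul_mem (add_mem (add_mem (one_mem A)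
      (mul_mem (mul_mem (natCast_mem A n) Wd.u.2) hπA)) (mul_mem hwA (pow_mem hπA 2)))
      (mul_mem htA hεA'))
    have hxe : x = π ^ n * ε := by rw [hε, mul_div_cancel₀ _ (pow_ne_zero _ hπ0)]
    have hε0 : ε ≠ 0 := div_ne_zero hx0 (pow_ne_zero _ hπ0)
    have hσε : Wd.σ ε = ε + t * π ^ 2 := by linear_combination ht
    have e : Wd.σ x / x - 1 = π * ((n : QBar) * Wd.u + π * R) := by
      rw [div_sub_one hx0, div_eq_iff hx0]
      conv_lhs => rw [hxe, map_mul, hw, hσε]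
      conv_rhs => rw [hxe]
      simp only [R]
      field_simp
      ring
    have hnu : v ((n : QBar) * Wd.u) = 1 := by
      refine le_antisymm ((A.valuation_le_one_iff _).mpr (mul_mem (natCast_mem A n) Wd.u.2))
        (not_lt.mp fun h => ?_)
      have h0 := (res_eq_zero_iff (mul_mem (natCast_mem A n) Wd.u.2)).mpr
        (A.mem_nonunits_iff.mpr h)
      rw [res_mul (natCast_mem A n) Wd.u.2, res_natCast, res_of_mem Wd.u.2, mul_eq_zero] at h0
      exact h0.elim (fun h1 => hn ((CharP.cast_eq_zero_iff _ p n).mp h1)) Wd.u_ne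
    have hlt : v (π * R) < v ((n : QBar) * Wd.u) := by
      rw [hnu, map_mul]
      exact mul_lt_one_of_lt_of_le hQ1 ((A.valuation_le_one_iff _).mpr hRA)
    rw [e, map_mul, v.map_add_eq_of_lt_left hlt, hnu, mul_one]
  obtain ⟨n, hn⟩ := Wd.C.discrete x hx0 hxH
  change v x = v π ^ n at hn
  have hnm : n * p = ((p * (p - 1) : ℕ) : ℤ) * m :=
    zpow_right_injective₀ (zero_lt_iff.mpr hQ0) hQ1.ne (show v π ^ (n * (p : ℤ)) = v π ^ _ by
      rw [zpow_mul, zpow_natCast, ← hn, ← map_pow, hx, Wd.C.val_p, Wd.e_eq, ← zpow_natCast,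
        ← zpow_mul])
  have hpn : ¬ (p : ℤ) ∣ n := by
    have hn' : n = ((p - 1 : ℕ) : ℤ) * m := mul_right_cancel₀
      (Int.natCast_ne_zero.mpr hp.ne_zero) (by rw [hnm]; push_cast; ring)
    rw [hn']
    intro h
    rcases (Nat.prime_iff_prime_int.mp hp).dvd_or_dvd h with h | h
    · have := hp.two_le
      have := Nat.le_of_dvd (by omega) (Int.natCast_dvd_natCast.mp h)
      omega
    · exact hm h
  rcases Int.eq_nat_or_neg n with ⟨n', rfl | rfl⟩
  · exact key n' x hx0 hxH (by rw [hn, zpow_natCast])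
      fun h => hpn (Int.natCast_dvd_natCast.mpr h)
  · have h1 := key n' x⁻¹ (inv_ne_zero hx0) (fun h hh => by rw [map_inv₀, hxH h hh])
      (by rw [map_inv₀, hn, zpow_neg, inv_inv, zpow_natCast])
      fun h => hpn (dvd_neg.mpr (Int.natCast_dvd_natCast.mpr h))
    have hσx : Wd.σ x ≠ 0 := (_root_.map_ne_zero _).mpr hx0
    have e : Wd.σ x⁻¹ / x⁻¹ - 1 = -(Wd.σ x / x - 1) * (x / Wd.σ x) := by
      rw [map_inv₀]
      field_simp
      ring
    rw [e, map_mul, Valuation.map_neg, map_div₀ v x, hσv, div_self ((Valuation.ne_zero_iff _).mpr hx0),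
      mul_one] at h1
    exact h1

/-- The order of `ζ - 1` in a wild field. -/
theorem valuation_zeta_sub_one (hA : A.LiesOverPrime p) (Wd : Wild A p) {ζ : QBar}
    (hζ : IsPrimitiveRoot ζ p) : A.valuation (ζ - 1) = A.valuation Wd.C.π ^ p ∧
      A.valuation (ζ - 1) < A.valuation Wd.C.π := by
  have hp : p.Prime := Fact.out
  have h : A.valuation (ζ - 1) = A.valuation Wd.C.π ^ p := by
    refine (pow_left_inj₀ zero_le zero_le (by have := hp.two_le; omega : p - 1 ≠ 0)).mp ?_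
    rw [(zeta_sub_one hA hp hζ).2.1, ← pow_mul, Wd.C.val_p, Wd.e_eq]
  refine ⟨h, ?_⟩
  rw [h]
  conv_rhs => rw [← pow_one (A.valuation Wd.C.π)]
  exact pow_lt_pow_right_of_lt_one₀ (zero_lt_iff.mpr ((Valuation.ne_zero_iff _).mpr
    Wd.C.π_ne_zero)) (A.mem_nonunits_iff.mp Wd.C.π_nonunit) hp.one_lt

variable (hA : A.LiesOverPrime p) (hp2 : p ≠ 2) (hΔ0 : W.Δ ≠ 0)
  (hΔ : (p : ℤ) ∣ W.Δ) (hc₄ : ¬ (p : ℤ) ∣ W.c₄)
include hA hp2 hΔ0 hΔ hc₄

omit hΔ0 hΔ hc₄ in
/-- The parameter of the torsion point in the kernel of reduction has the order of `ζ - 1`. -/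
theorem valuation_sCoord_R (T : TowerData A p) (hT : T.H₁ = tameKer A p) (F : Frame A W p)
    (hg : (cyclotomicHom p T.τ₀ : ZMod p) = (T.g : ZMod p)) :
    A.valuation (sCoord F.R) = A.valuation (T.ζ - 1) := by
  classical
  have hp : p.Prime := Fact.out
  have : CharP (IsLocalRing.ResidueField A) p := residueField_charP hA hp
  obtain ⟨hP1, hP1p, hP1res⟩ := zeta_sub_one hA hp T.hζ
  have hred := reducesTo_int W A
  set s := sCoord F.R with hsdef
  set π₁ := T.ζ - 1 with hπ₁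
  have hs0 : s ≠ 0 := hred.sCoord_ne_zero F.R_inE1 F.R_ne
  have hslt : A.valuation s < 1 := A.mem_nonunits_iff.mp (hred.sCoord_mem F.R_inE1)
  obtain ⟨k, hk⟩ := (TowerData.tame hA hp T).discrete s hs0 fun τ hτ => by
    rw [hsdef, ← sCoord_smul, F.smul_R_of_mem (hT ▸ hτ)]
  change A.valuation s = A.valuation π₁ ^ k at hk
  have hP0 : 0 < A.valuation π₁ := zero_lt_iff.mpr ((Valuation.ne_zero_iff _).mpr
    (sub_ne_zero.mpr (T.hζ.ne_one hp.one_lt)))
  have hk1 : 0 < k := by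
    by_contra hle
    rw [hk] at hslt
    exact absurd (one_le_zpow_of_nonpos₀ hP0 hP1.le (not_lt.mp hle)) (not_le.mpr hslt)
  obtain ⟨k, rfl⟩ := Int.eq_ofNat_of_zero_le hk1.le
  rw [zpow_natCast] at hk
  have hk2 : 2 * k ≤ p - 1 := by
    by_contra hlt
    refine F.R_ne (hred.eq_zero_of_odd_nsmul (hp.odd_of_ne_two hp2) F.R_inE1 ?_
      (by rw [← natCast_zsmul]; exact F.hR))
    rw [← hP1p, ← hsdef, hk, ← pow_mul, mul_comm]
    exact pow_lt_pow_right_of_lt_one₀ hP0 hP1 (not_le.mp hlt)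
  have hgR : T.τ₀ • F.R = T.g • F.R := by
    rw [F.smul_R _ T.τ₀_mem, hg, ← natCast_zsmul, ← natCast_zsmul _ T.g]
    exact zsmul_congr F.hR (by simp)
  obtain ⟨hq, hqr⟩ := res_sCoord_nsmul_div hred F.R_inE1 F.R_ne T.g
  rw [← hgR, sCoord_smul] at hq hqr
  set w := s / π₁ ^ k with hw
  have hπk : π₁ ^ k ≠ 0 := pow_ne_zero _ (sub_ne_zero.mpr (T.hζ.ne_one hp.one_lt))
  obtain ⟨hwA, hwr⟩ := res_ne_zero_of_valuation_eq_one (A := A) (x := w) (by
    rw [hw, map_div₀, map_pow, hk, div_self (pow_ne_zero _ hP0.ne')])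
  obtain ⟨hτw, hτwr⟩ := res_inertia_map T.τ₀_mem hwA
  obtain ⟨hζA, hζr⟩ := hP1res T.g
  have e : T.τ₀ s / s * w = ((T.ζ ^ T.g - 1) / π₁) ^ k * T.τ₀ w := by
    have hτk : T.τ₀ (π₁ ^ k) ≠ 0 := (map_ne_zero _).mpr hπk
    have e1 : T.τ₀ π₁ = T.ζ ^ T.g - 1 := by rw [hπ₁, map_sub, map_one, T.τ₀_ζ]
    rw [hw, map_div₀, map_pow, e1, div_pow, div_mul_div_cancel₀' (by rw [← e1, ← map_pow]; exact hτk)]
    field_simp
  have e' := congrArg (res A) e
  rw [res_mul hq hwA, hqr, res_mul (pow_mem hζA k) hτw, res_pow hζA, hζr, hτwr] at e'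
  have h1 : (T.g : ZMod p) ^ k = (T.g : ZMod p) :=
    (ZMod.castHom (dvd_refl p) (IsLocalRing.ResidueField A)).injective
      (by rw [map_pow, map_natCast]; exact (mul_right_cancel₀ hwr e').symm)
  obtain ⟨i, rfl⟩ : ∃ i, k = i + 1 := ⟨k - 1, by omega⟩
  rw [pow_succ] at h1
  rcases Nat.eq_zero_or_pos i with rfl | hi
  · rw [hk, zero_add, pow_one]
  · have := Nat.le_of_dvd hi (T.primitive i ((mul_eq_right₀ T.g_ne).mp h1))
    omega

/-- If some element of `tameKer` moves `E[p]`, the field of `wildKer` is wild with jump one. -/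
theorem wildKer_eq_tameKer_or_exists_wild (hv : p ∣ padicValInt p W.Δ) :
    wildKer A W p = tameKer A p ∨
      ∃ Wd : Wild A p, Wd.C.H = wildKer A W p ∧ Wd.C₁.H = tameKer A p ∧
        (∃ x : PointQBar W, (p : ℤ) • x = 0 ∧ Wd.σ • x ≠ x) ∧
        ∀ h ∈ tameKer A p, ∃ i : ℕ, (Wd.σ ^ i)⁻¹ * h ∈ wildKer A W p := by
  classical
  have hp : p.Prime := Fact.out
  obtain ⟨⟨F⟩, -⟩ := exists_frame hA hp2 hΔ0 hΔ hc₄
  by_cases hall : ∀ τ ∈ tameKer A p, τ • F.S = F.S
  · exact Or.inl (le_antisymm wildKer_le fun τ hτ => F.mem_wildKer_of hτ (hall τ hτ))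
  right
  have : NeZero (p : QBar) := ⟨Nat.cast_ne_zero.mpr hp.ne_zero⟩
  obtain ⟨ζ, hζ⟩ := HasEnoughRootsOfUnity.exists_primitiveRoot QBar p
  obtain ⟨T, hTk, hT₁, -, hgcast, hσS⟩ := exists_wildTower hA F hζ hall
  have hσ : T.σ ∈ tameKer A p := hT₁ ▸ T.σ_mem
  set σ := T.σ with hσdef
  -- the coordinate of `S` near the node
  obtain ⟨N, hN⟩ := exists_node_int hA hp hΔ0 hΔ hc₄
  obtain ⟨m, hm⟩ := hv
  have hR2 : ∀ P : PointQBar W, σ • F.S = P → P - F.S = F.R := fun P h => by rw [← h, hσS]; abel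
  obtain ⟨z, hzA, hzH, hzσ⟩ : ∃ z ∈ A, (∀ h ∈ wildKer A W p, h z = z) ∧
      A.valuation (σ z - z) = A.valuation (sCoord F.R) := by
    have hat := (N.not_inE0_iff F.S).mp F.S_not
    generalize hSdef : F.S = P at hat
    match P with
    | .some x y hxy =>
      obtain ⟨hc2, i, hi0, -, hXp⟩ := N.valuation_pow_of_nsmul (hp.odd_of_ne_two hp2) hat
        (by rw [← natCast_zsmul, ← hSdef]; exact F.hS)
      obtain ⟨hXlt, hYlt⟩ := (N.atNode_some hxy).mp hat
      have hxA : x ∈ A := by simpa using add_mem ((A.valuation_le_one_iff _).mp hXlt.le) N.hr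
      have hXk : A.valuation (x - N.r) = A.valuation (p : QBar) ^ (m * i) := by
        refine (pow_left_inj₀ zero_le zero_le hp.ne_zero).mp ?_
        rw [hXp, hN, hm, ← pow_mul, ← pow_mul]
        ring_nf
      have hpk : (p : QBar) ^ (m * i) ≠ 0 := pow_ne_zero _ (Nat.cast_ne_zero.mpr hp.ne_zero)
      set z := (x - N.r) / (p : QBar) ^ (m * i) with hzdef
      have hzv : A.valuation z = 1 := by
        rw [hzdef, map_div₀, map_pow, hXk, div_self (pow_ne_zero _
          ((Valuation.ne_zero_iff _).mpr (Nat.cast_ne_zero.mpr hp.ne_zero)))]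
      have hzA : z ∈ A := (A.valuation_le_one_iff _).mp hzv.le
      have hnode : ∀ h ∈ A.inertiaSubgroupIn ℚ, h N.r = N.r ∧ h N.t = N.t ∧ h N.a = N.a := fun h hh =>
        N.map_node_eq (res_inertia hh).1 (res_inertia hh).2
      have hσI := (mem_tameKer.mp hσ).1
      have hσr := (hnode σ hσI).1
      obtain ⟨h', eσ⟩ := EC.Reduction.smul_some (σ := σ) hxy
      have hdiff : A.valuation (σ x - x) < A.valuation (x - N.r) := by
        have e : σ x - x = (σ z - z) * (p : QBar) ^ (m * i) := by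
          rw [hzdef, map_div₀, map_pow, map_natCast, map_sub, hσr]
          field_simp
          ring
        rw [e, map_mul, map_pow, ← hXk]
        exact mul_lt_of_lt_one_left (zero_lt_iff.mpr ((Valuation.ne_zero_iff _).mpr
          (fun h0 => (ne_of_lt hc2) (absurd h0 (NearNode.X_ne_zero hc2)))))
          (valuation_inertia_sub_lt hσI hzA)
      have hne : σ x ≠ x := by
        intro hx
        rcases Y_eq_of_X_eq h'.left hxy.left hx with hy | hy
        · refine F.R_ne ((hR2 _ (show σ • F.S = F.S by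
            rw [hSdef, eσ]; exact some_eq_some _ _ hx hy)).symm.trans (sub_self _))
        · refine F.S_not ?_
          have hneg : σ • F.S = -F.S := by
            rw [hSdef, eσ, Point.neg_some]; exact some_eq_some _ _ hx hy
          have h2 : (2 : ℕ) • F.S ∈ N.red.E0 := by
            rw [show (2 : ℕ) • F.S = -F.R by rw [← hR2 _ hneg, two_nsmul]; abel]
            exact neg_mem (show F.R ∈ N.red.E0 from 
              InE1.inE0 F.R_inE1)
          obtain ⟨j, hj⟩ := hp.odd_of_ne_two hp2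
          have e : F.S = (j + 1) • (2 : ℕ) • F.S := by
            rw [← mul_smul, show (j + 1) * 2 = p + 1 by omega, add_smul, one_smul,
              ← natCast_zsmul, F.hS, zero_add]
          show F.S ∈ N.red.E0
          rw [e]
          exact nsmul_mem h2 _
      refine ⟨z, hzA, fun h hh => ?_, ?_⟩
      · obtain ⟨h'', eh⟩ := EC.Reduction.smul_some (σ := h) hxy
        have e := (mem_wildKer.mp hh).2 F.S F.hS
        rw [hSdef, eh] at e
        rw [hzdef, map_div₀, map_pow, map_natCast, map_sub,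
          (hnode h (mem_wildKer.mp hh).1.1).1, ((Point.some.injEq ..).mp e).1]
      · rw [F.valuation_sCoord_move N hSdef hat hc2 hσI hσS hne hdiff, hzdef, map_div₀ σ,
          map_pow σ, map_natCast σ, map_sub σ x, hσr, ← sub_div, map_div₀, map_pow, ← hXk]
        congr 2
        ring
  obtain ⟨Wd, hC, hC₁, hσW⟩ := TowerData.exists_wild hA hp T hzA (fun h hh => hzH h (hTk ▸ hh))
    (hzσ.trans (valuation_sCoord_R hA hp2 T hT₁ F hgcast))
  refine ⟨Wd, hC.trans hTk, hC₁.trans hT₁, ⟨F.S, F.hS, fun e => F.R_ne (by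
    rw [hσW] at e; rw [← hR2 _ e, sub_self])⟩, fun h hh => ?_⟩
  rw [hσW, ← hTk]
  exact T.gen₁ h (hT₁ ▸ hh)

end Fermat.Agent.RT.MazurP

end
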