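import Fermat.Agent.FiniteFlat.FixedLift
import Fermat.Agent.RT.Mazur.Scale
import Fermat.Agent.Semistable.Echelon

/-!
# Series with coefficients in a ramified field and their orders

A `CoefField` is the fixed field of a subgroup of inertia together with a uniformiser. Nonzero
quotients of integral series with coefficients there are a power of the uniformiser times a series
with nonzero reduction.
-/

set_option autoImplicit false

noncomputable section

namespace Fermat.Agent.RT.MazurP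

open ModularCurve Fermat.Agent.Semistable Fermat.Agent.Arith Fermat.Agent.RT.Mazur

variable {A : ValuationSubring QBar} {p : ℕ}

/-- A discretely valued coefficient field inside `QBar`, with the residue field of `A`. -/
structure CoefField (A : ValuationSubring QBar) (p : ℕ) where
  /-- The group fixing the field. -/
  H : Subgroup GQ
  le_inertia : H ≤ A.inertiaSubgroupIn ℚ
  /-- The uniformiser. -/
  π : QBar
  π_ne_zero : π ≠ 0
  π_nonunit : π ∈ A.nonunits
  π_fixed : ∀ τ ∈ H, τ π = π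
  /-- The ramification index. -/
  e : ℕ
  e_pos : 0 < e
  val_p : A.valuation (p : QBar) = A.valuation π ^ e
  discrete : ∀ x : QBar, x ≠ 0 → (∀ τ ∈ H, τ x = x) →
    ∃ n : ℤ, A.valuation x = A.valuation π ^ n

/-- Every residue class contains an element fixed by all of inertia. -/
theorem exists_inertiaFixed_lift (hA : A.LiesOverPrime p) (hp : p.Prime) (r : Res A) :
    ∃ (a : QBar) (ha : a ∈ A), (∀ τ ∈ A.inertiaSubgroupIn ℚ, τ a = a) ∧
      IsLocalRing.residue A ⟨a, ha⟩ = r := by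
  obtain ⟨a, har, hafix⟩ := FiniteFlat.exists_fixed_lift hA hp r
  exact ⟨a, a.2, hafix, har⟩

namespace CoefField

variable (C : CoefField A p)

/-- A series with coefficients in the field. -/
def Fix (x : LSer) : Prop := ∀ τ ∈ C.H, coeffMap (τ : QBar →+* QBar) x = x

variable {C}

theorem Fix.mul {x y : LSer} (hx : C.Fix x) (hy : C.Fix y) : C.Fix (x * y) :=
  fun τ hτ => by rw [map_mul, hx τ hτ, hy τ hτ]

theorem Fix.pow {x : LSer} (hx : C.Fix x) (n : ℕ) : C.Fix (x ^ n) :=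
  fun τ hτ => by rw [map_pow, hx τ hτ]

theorem fix_algebraMap {a : QBar} (ha : ∀ τ ∈ C.H, τ a = a) : C.Fix (algebraMap QBar LSer a) :=
  fun τ hτ => by rw [coeffMap_algebraMap]; exact congrArg _ (ha τ hτ)

theorem Fix.coeff {x : LSer} (hx : C.Fix x) (n : ℤ) {τ : GQ} (hτ : τ ∈ C.H) :
    τ (x.coeff n) = x.coeff n := by
  have h := congrArg (fun s : LSer => s.coeff n) (hx τ hτ)
  simpa only [coeff_coeffMap] using h

variable (C)

/-- The field. -/
def K : IntermediateField ℚ QBar := IntermediateField.fixedField C.H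

theorem mem_K {x : QBar} : x ∈ C.K ↔ ∀ τ ∈ C.H, τ x = x :=
  ⟨fun h τ hτ => h ⟨τ, hτ⟩, fun h τ => h τ.1 τ.2⟩

variable {C}

theorem exists_zpow_mul_unit {a : QBar} (ha : a ≠ 0) (hfix : ∀ τ ∈ C.H, τ a = a) :
    ∃ k : ℤ, C.π ^ (-k) * a ∈ A ∧ C.π ^ (-k) * a ∉ A.nonunits := by
  obtain ⟨k, hk⟩ := C.discrete a ha hfix
  have h1 : A.valuation (C.π ^ (-k) * a) = 1 := by
    rw [map_mul, map_zpow₀, hk, ← zpow_add₀ ((Valuation.ne_zero_iff _).mpr C.π_ne_zero),
      neg_add_cancel, zpow_zero]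
  exact ⟨k, (A.valuation_le_one_iff _).mp h1.le, fun h => by
    rw [ValuationSubring.mem_nonunits_iff, h1] at h; exact lt_irrefl _ h⟩

variable (hA : A.LiesOverPrime p) (hp : p.Prime)
include hA hp

/-- A fixed quotient of integral series is a quotient of fixed integral series, the denominator
having nonzero reduction. -/
theorem exists_fixed_fraction {x : LSer} (hx : x ∈ fracS A) (hfix : C.Fix x) :
    ∃ (a b : intS A) (d : QBar), d ≠ 0 ∧ (∀ τ ∈ C.H, τ d = d) ∧ red A b ≠ 0 ∧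
      C.Fix (a : LSer) ∧ C.Fix (b : LSer) ∧ algebraMap QBar LSer d * x * (b : LSer) = a := by
  obtain ⟨a, ha, b, hb, hb0, hab⟩ := mem_fracS.mp hx
  obtain ⟨c', hc'A, hc'0, hfix'⟩ := Mazur.exists_fixed_multiple hb hb0
  obtain ⟨c, hc, hc', hred', m, hm⟩ :=
    exists_scale_intS hA hp (mul_mem hb hc'A) (mul_ne_zero hb0 hc'0)
  have hF : C.Fix (b * c') := fun τ hτ => hfix' τ (C.le_inertia hτ)
  have hfb : C.Fix (algebraMap QBar LSer c * (b * c')) :=
    (fix_algebraMap fun τ hτ => by rw [hm, map_inv₀, hF.coeff m hτ]).mul hF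
  set b' := algebraMap QBar LSer c * (b * c')
  have hxb : x * b' = algebraMap QBar LSer c * (a * c') := by rw [← hab]; ring
  obtain ⟨t, ht, htc⟩ := exists_natCast_mul_mem (A := A) c
  have hta : algebraMap QBar LSer (t : QBar) * x * b' ∈ intS A := by
    rw [mul_assoc, hxb, ← mul_assoc, ← map_mul]
    exact mul_mem (algebraMap_mem_intS htc) (mul_mem ha hc'A)
  have ht' : ∀ τ ∈ C.H, τ (t : QBar) = t := fun τ _ => map_natCast τ t
  exact ⟨⟨_, hta⟩, ⟨b', hc'⟩, (t : QBar), Nat.cast_ne_zero.mpr ht, ht', hred',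
    ((fix_algebraMap ht').mul hfix).mul hfb, hfb, rfl⟩

theorem fracOver {x : LSer} (hx : x ∈ fracS A) (hfix : C.Fix x) : FracOver A C.K x := by
  obtain ⟨a, b, d, hd, hdfix, hb, hfa, hfb, h⟩ := exists_fixed_fraction hA hp hx hfix
  obtain ⟨t, ht, htd⟩ := exists_natCast_mul_mem (A := A) d⁻¹
  have hmem : ∀ {y : QBar}, (∀ τ ∈ C.H, τ y = y) → y ∈ (algebraMap C.K QBar).fieldRange :=
    fun {y} hy => ⟨⟨y, C.mem_K.mpr hy⟩, rfl⟩
  refine ⟨algebraMap QBar LSer ((t : QBar) * d⁻¹) * a, mul_mem (algebraMap_mem_intS htd) a.2,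
    algebraMap QBar LSer (t : QBar) * b, mul_mem (algebraMap_mem_intS (natCast_mem A t)) b.2,
    mul_ne_zero ((map_ne_zero _).mpr (Nat.cast_ne_zero.mpr ht)) (ne_zero_of_red_ne_zero hb),
    ?_, fun n => hmem fun τ hτ => ?_, fun n => hmem fun τ hτ => ?_⟩
  · rw [← h, map_mul (algebraMap QBar LSer) (t : QBar), map_inv₀]
    field_simp [(map_ne_zero (algebraMap QBar LSer)).mpr hd]
  · exact ((fix_algebraMap (C := C) fun τ hτ => by
      rw [map_mul, map_natCast, map_inv₀, hdfix τ hτ]).mul hfa).coeff n hτ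
  · exact ((fix_algebraMap (C := C) fun τ _ => map_natCast τ t).mul hfb).coeff n hτ

theorem exists_zpow_isGUnit {x : LSer} (hx : x ∈ fracS A) (h0 : x ≠ 0) (hfix : C.Fix x) :
    ∃ n : ℤ, IsGUnit A (algebraMap QBar LSer (C.π ^ (-n)) * x) := by
  obtain ⟨a, b, d, hd, hdfix, hb, hfa, -, h⟩ := exists_fixed_fraction hA hp hx hfix
  have hd' : algebraMap QBar LSer d ≠ 0 := (map_ne_zero _).mpr hd
  have ha0 : (a : LSer) ≠ 0 := by
    rw [← h]; exact mul_ne_zero (mul_ne_zero hd' h0) (ne_zero_of_red_ne_zero hb)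
  obtain ⟨c, hc0, hca, hred, m, hm⟩ := exists_scale_intS hA hp a.2 ha0
  have hcfix : ∀ τ ∈ C.H, τ (c * d) = c * d := fun τ hτ => by
    rw [map_mul, hm, map_inv₀, hfa.coeff m hτ, hdfix τ hτ]
  obtain ⟨k, hk, hku⟩ := exists_zpow_mul_unit (C := C) (inv_ne_zero (mul_ne_zero hc0 hd))
    fun τ hτ => by rw [map_inv₀, hcfix τ hτ]
  have hga : IsGUnit A (algebraMap QBar LSer c * a) :=
    ⟨intS_le_locS hca, by rw [redL_of_mem_intS ⟨_, hca⟩]; exact hred⟩
  have hgb : IsGUnit A (b : LSer) :=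
    ⟨intS_le_locS b.2, by rw [redL_of_mem_intS b]; exact hb⟩
  refine ⟨k, ?_⟩
  have hg := ((isGUnit_algebraMap hk hku).mul hga).mul hgb.inv
  have e : algebraMap QBar LSer (C.π ^ (-k) * (c * d)⁻¹) * (algebraMap QBar LSer c * (a : LSer)) *
      (b : LSer)⁻¹ = algebraMap QBar LSer (C.π ^ (-k)) * x := by
    have hb' := ne_zero_of_red_ne_zero hb
    have hc' : algebraMap QBar LSer c ≠ 0 := (map_ne_zero _).mpr hc0
    rw [← h, map_mul, map_inv₀, map_mul]
    field_simp
  rwa [e] at hg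

omit hA hp in
theorem π_zpow_eq_one {k : ℤ} (h : A.valuation (C.π ^ k) = 1) : k = 0 := by
  rw [map_zpow₀] at h
  exact zpow_right_injective₀ (zero_lt_iff.mpr ((Valuation.ne_zero_iff _).mpr C.π_ne_zero))
    (C.π_nonunit).ne (a₁ := k) (a₂ := 0) (by simpa using h)

open Classical in
variable (C) in
omit hA hp in
/-- The order of a series in units of the uniformiser. -/
def gord (x : LSer) : ℤ :=
  if h : ∃ n : ℤ, IsGUnit A (algebraMap QBar LSer (C.π ^ (-n)) * x) then h.choose else 0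

omit hA hp in
theorem gord_eq {x : LSer} {n : ℤ}
    (h : IsGUnit A (algebraMap QBar LSer (C.π ^ (-n)) * x)) : C.gord x = n := by
  rw [gord, dif_pos ⟨n, h⟩]
  have hv := valuation_eq_of_isGUnit
    (Exists.choose_spec (⟨n, h⟩ : ∃ m : ℤ, IsGUnit A (algebraMap QBar LSer (C.π ^ (-m)) * x))) h
  set m := Exists.choose (⟨n, h⟩ : ∃ m : ℤ, IsGUnit A (algebraMap QBar LSer (C.π ^ (-m)) * x))
  have hπ : A.valuation C.π ≠ 0 := (Valuation.ne_zero_iff _).mpr C.π_ne_zero
  have := π_zpow_eq_one (C := C) (k := -m - -n) (by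
    rw [map_zpow₀, zpow_sub₀ hπ, ← map_zpow₀, ← map_zpow₀, hv,
      div_self ((Valuation.ne_zero_iff _).mpr (zpow_ne_zero _ C.π_ne_zero))])
  omega

theorem gord_spec {x : LSer} (hx : x ∈ fracS A) (h0 : x ≠ 0) (hfix : C.Fix x) :
    IsGUnit A (algebraMap QBar LSer (C.π ^ (-C.gord x)) * x) := by
  obtain ⟨n, hn⟩ := exists_zpow_isGUnit hA hp hx h0 hfix
  rwa [gord_eq hn]

omit hA hp in
theorem gord_of_isGUnit {x : LSer} (hx : IsGUnit A x) : C.gord x = 0 :=
  gord_eq (by simpa using hx)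

theorem gord_mul {x y : LSer} (hx : x ∈ fracS A) (hy : y ∈ fracS A) (hx0 : x ≠ 0) (hy0 : y ≠ 0)
    (hfx : C.Fix x) (hfy : C.Fix y) : C.gord (x * y) = C.gord x + C.gord y := by
  refine gord_eq ?_
  rw [neg_add, zpow_add₀ C.π_ne_zero, map_mul, mul_mul_mul_comm]
  exact (gord_spec hA hp hx hx0 hfx).mul (gord_spec hA hp hy hy0 hfy)

theorem gord_pow {x : LSer} (hx : x ∈ fracS A) (hx0 : x ≠ 0) (hfx : C.Fix x) (n : ℕ) :
    C.gord (x ^ n) = n * C.gord x := by
  induction n with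
  | zero => rw [pow_zero, gord_of_isGUnit isGUnit_one]; simp
  | succ n ih =>
    rw [pow_succ, gord_mul hA hp (pow_mem hx n) hx (pow_ne_zero n hx0) hx0 (hfx.pow n) hfx, ih]
    push_cast; ring

theorem gord_nonneg_of_mem_locS {x : LSer} (hx : x ∈ locS A) (h0 : x ≠ 0) (hfix : C.Fix x) :
    0 ≤ C.gord x := by
  by_contra hlt
  obtain ⟨hm, hne⟩ := gord_spec hA hp (locS_le_fracS hx) h0 hfix
  obtain ⟨n, hn⟩ : ∃ n : ℕ, -C.gord x = n + 1 := ⟨(-C.gord x - 1).toNat, by omega⟩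
  have hnu : C.π ^ (-C.gord x) ∈ A.nonunits := by
    rw [hn, zpow_add₀ C.π_ne_zero, zpow_one, zpow_natCast]
    exact nonunits_mul_left (pow_mem (mem_of_mem_nonunits C.π_nonunit) n) C.π_nonunit
  obtain ⟨hmem, e⟩ := redL_const_mul (mem_of_mem_nonunits hnu) hx
  rw [(residue_eq_zero_iff _).mpr hnu, map_zero, zero_mul] at e
  exact hne e

/-- A fixed element of `locS` with zero reduction is divisible by the uniformiser. -/
theorem inv_π_mul_mem {x : LSer} (hx : x ∈ locS A)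
    (hfix : C.Fix x) (h : redL A ⟨x, hx⟩ = 0) : algebraMap QBar LSer C.π⁻¹ * x ∈ locS A := by
  rcases eq_or_ne x 0 with h0 | h0
  · rw [h0, mul_zero]; exact zero_mem _
  obtain ⟨hg, hgne⟩ := C.gord_spec hA hp (locS_le_fracS hx) h0 hfix
  have hnn := C.gord_nonneg_of_mem_locS hA hp hx h0 hfix
  generalize C.gord x = g at hg hgne hnn
  have hg1 : 1 ≤ g := by
    by_contra hlt
    obtain rfl : g = 0 := by omega
    refine hgne ?_
    rw [redL_congr hg hx (by rw [neg_zero, zpow_zero, map_one, one_mul])]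
    exact h
  obtain ⟨e, rfl⟩ : ∃ e : ℕ, g = 1 + e := ⟨(g - 1).toNat, by omega⟩
  have h2 := mul_mem (algebraMap_mem_locS (pow_mem (mem_of_mem_nonunits C.π_nonunit) e)) hg
  rwa [← mul_assoc, ← map_mul, ← zpow_natCast, ← zpow_add₀ C.π_ne_zero,
    show (e : ℤ) + -(1 + (e : ℤ)) = -1 by omega, zpow_neg_one] at h2

end CoefField

end Fermat.Agent.RT.MazurP

end
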