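import Fermat.Agent.RT.MazurP.Cong

/-!
# The position of the reductions at the zeros of the reduced unit

For a Kummer function `f` moved by the wild generator to `f f₀ q ^ p`, the first reductions of
`(q - 1) / π` are constants, and the orders of the reductions of `f` at the zeros of the reduced
unit satisfy one congruence with them.
-/

set_option autoImplicit false
set_option linter.unusedSectionVars false

noncomputable section

namespace Fermat.Agent.RT.MazurP

open ModularCurve AlgebraicCurve Fermat.Agent.Semistable Fermat.Agent.Arith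
open Fermat.Agent.RT.Mazur

variable {A : ValuationSubring QBar} {p M : ℕ} [Fact p.Prime] [NeZero M]
variable {hpM : ¬ p ∣ M}

/-- The action of the wild generator on a Kummer function, with its normalised ingredients. -/
structure SigmaRel (W : Wild A p) (K : Kum hpM W.C p) where
  /-- The factor coming from the fixed class. -/
  f₀ : FB (p * M)
  f₀_ne : f₀ ≠ 0
  f₀_dvd : ∀ v : Place QBar (FB (p * M)), (p : ℤ) ∣ v.ord f₀
  f₀_fix : ∀ τ ∈ W.C₁.H, galF (p * M) τ f₀ = f₀
  f₀_red : ∀ s, ∃ h : iota2 M p hpM s f₀ ∈ locS A, redL A ⟨_, h⟩ = 1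
  /-- The `p`-th root factor. -/
  q : FB (p * M)
  q_fix : ∀ τ ∈ W.C.H, galF (p * M) τ q = q
  /-- `(q - 1) / π` on either side. -/
  y : Fin 2 → LSer
  y_mem : ∀ s, y s ∈ locS A
  q_eq : ∀ s, iota2 M p hpM s q = 1 + algebraMap QBar LSer W.C.π * y s
  /-- The constant. -/
  κ : QBar
  κ_ne : κ ≠ 0
  rel : galF (p * M) W.σ K.f = algebraMap QBar (FB (p * M)) κ * K.f * f₀ * q ^ p

namespace SigmaRel

variable {W : Wild A p} {K : Kum hpM W.C p} (R : SigmaRel W K)

/-- The product with the fixed factor has the same reductions. -/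
def twist : Kum hpM W.C p where
  l_pos := (Fact.out : p.Prime).pos
  f := K.f * R.f₀
  f_ne := mul_ne_zero K.f_ne R.f₀_ne
  dvd v := by rw [v.ord_mul K.f_ne R.f₀_ne]; exact dvd_add (K.dvd v) (R.f₀_dvd v)
  fix τ hτ := by rw [map_mul, K.fix τ hτ, R.f₀_fix τ (W.le hτ)]
  v := K.v
  fb := K.fb
  fb_ne := K.fb_ne
  spec s := by
    obtain ⟨h, hr⟩ := K.spec s
    obtain ⟨h₀, hr₀⟩ := R.f₀_red s
    have e : algebraMap QBar LSer (W.C.π ^ (-K.v s)) * iota2 M p hpM s (K.f * R.f₀) =
        algebraMap QBar LSer (W.C.π ^ (-K.v s)) * iota2 M p hpM s K.f *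
          iota2 M p hpM s R.f₀ := by
      rw [map_mul, mul_assoc]
    exact ⟨by rw [e]; exact mul_mem h h₀,
      by rw [redL_congr _ (mul_mem h h₀) e, redL_mul' h h₀, hr, hr₀, mul_one]⟩

/-- The fixed factor over the tame field. -/
def tame : Kum hpM W.C₁ p where
  l_pos := (Fact.out : p.Prime).pos
  f := R.f₀
  f_ne := R.f₀_ne
  dvd := R.f₀_dvd
  fix := R.f₀_fix
  v := 0
  fb := 1
  fb_ne _ := one_ne_zero
  spec s := by
    obtain ⟨h₀, hr₀⟩ := R.f₀_red s
    have e : algebraMap QBar LSer (W.C₁.π ^ (-(0 : Fin 2 → ℤ) s)) * iota2 M p hpM s R.f₀ =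
        iota2 M p hpM s R.f₀ := by
      rw [Pi.zero_apply, neg_zero, zpow_zero, map_one, one_mul]
    exact ⟨by rw [e]; exact h₀, (redL_congr _ h₀ e).trans hr₀⟩

/-- The reduction of `(q - 1) / π` is a function of level `M`. -/
theorem exists_red_y [CharP (Res A) p] (hA : A.LiesOverPrime p) (hM : (M : Res A) ≠ 0)
    (s : Fin 2) :
    ∃ r : KM A M, redL A ⟨_, R.y_mem s⟩ = (r : LaurentSeries (Res A)) := by
  by_cases h0 : redL A ⟨_, R.y_mem s⟩ = 0
  · exact ⟨0, h0⟩
  have e : algebraMap QBar LSer W.C.π⁻¹ * iota2 M p hpM s (R.q - 1) = R.y s := by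
    rw [map_sub, map_one, R.q_eq, add_sub_cancel_left, ← mul_assoc, ← map_mul,
      inv_mul_cancel₀ W.C.π_ne_zero, map_one, one_mul]
  exact ⟨⟨_, isRed_mem_KM p M hpM hA hM (x := R.q - 1) (s := s) ⟨h0, W.C.π⁻¹,
    inv_ne_zero W.C.π_ne_zero, by rw [e]; exact R.y_mem s, redL_congr _ _ e⟩⟩, rfl⟩

end SigmaRel

variable [CharP (Res A) p] [FF.IsFunctionField (Res A) (KM A M)]
variable {W : Wild A p} {K : Kum hpM W.C p}

/-- The pair of powers of `j - c`. -/
def jPair (A : ValuationSubring QBar) (p M : ℕ) [NeZero M] (c n : ℕ) (s : Fin 2) : KM A M :=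
  (jK A M ^ sideDeg p s - c) ^ n

/-- The two elements of the reduced space one degree higher. -/
theorem SigmaRel.exists_mul_mem (R : SigmaRel W K) (hA : A.LiesOverPrime p)
    (hM : (M : Res A) ≠ 0) (V : VUnit A hpM) (hV : V.Simple) (k : ℕ)
    (hk : 0 ≤ (p : ℤ) * k + K.δ) :
    ∃ n₀ : ℕ, ∀ n, n₀ ≤ n → ∀ (m : ℕ) (c : ℕ), ∀ r ∈ K.Im k m,
      (fun s => r s * (jPair A p M c n s : LaurentSeries (Res A))) ∈ K.Im k (m + n) ∧
      (fun s => (redL A ⟨_, R.y_mem s⟩ + algebraMap (Res A) (LaurentSeries (Res A))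
          ((if s = 0 then 0 else (k : Res A)) * IsLocalRing.residue A W.u)) *
          (r s * (jPair A p M c n s : LaurentSeries (Res A)))) ∈ K.Im k (m + n) := by
  classical
  have hp : p.Prime := Fact.out
  obtain ⟨n₁, hn₁⟩ := (Kum.one W.C₁ hpM).exists_Im_congr V hA hM hV R.tame rfl rfl (k := 0)
    (by show (0 : ℤ) ≤ (p : ℤ) * 0 + 0; simp)
  obtain ⟨n₂, hn₂⟩ := K.exists_Im_congr V hA hM hV R.twist rfl rfl hk
  refine ⟨n₁ + n₂, fun n hn m c r hr => ?_⟩
  -- the auxiliary power
  set H : FB (p * M) := (upF M p (jM M) - c) ^ n with hH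
  have hHfix : ∀ τ : GQ, galF (p * M) τ H = H := fun τ => by
    rw [hH, map_pow, map_sub, galF_upF, galF_jM, map_natCast]
  have hH1 : upF M p (jM M) - c ∈ HN M p 1 := by
    refine sub_mem (upF_mem_HN M p (self_mem_polesSpace _)) ?_
    rw [← map_natCast (algebraMap QBar (FB (p * M))), ← mul_one (algebraMap QBar (FB (p * M)) _),
        ← Algebra.smul_def]
    exact Submodule.smul_mem _ _ (one_mem_polesSpace _ _)
  have hHp : H ^ p ∈ HN M p (p * n) := by
    have := pow_mem_polesSpace (pow_mem_polesSpace hH1 n) p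
    rwa [mul_one] at this
  set tj : loc2 A (iota1 M) := ⟨jM M, jM_mem M⟩
  have hHs : ∀ s, ∃ h : iota2 M p hpM s H ∈ locS A,
      redL A ⟨_, h⟩ = (jPair A p M c n s : LaurentSeries (Res A)) := by
    intro s
    set x : loc2 A (iota2 M p hpM) := (⟨_, upF_mem_loc2 M p hpM tj.2⟩ - (c : loc2 A _)) ^ n with hx
    have e : (x : FB (p * M)) = H := by rw [hx, hH]; push_cast; rfl
    refine ⟨e ▸ (mem_loc2 _).mp x.2 s, ?_⟩
    rw [redL_congr _ ((mem_loc2 _).mp x.2 s) (by rw [e]), ← red2_apply, hx, map_pow, map_sub,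
      map_natCast, red2_upF, Pi.pow_apply, Pi.sub_apply, Pi.natCast_apply, jPair]
    push_cast
    rw [coe_jK]
    fin_cases s
    · simp [sideDeg, tj, red1_jM]
    · simp [sideDeg, tj, red1_jM, ← pow_eq_qExpand_gen_one p]
  choose hHm hHr using hHs
  -- the element of the space of `f₀` congruent to it
  have hone : (fun s => redL A ⟨iota2 M p hpM s H, hHm s⟩) ∈ (Kum.one W.C₁ hpM).Im 0 n := by
    have hmem : H ∈ (Kum.one W.C₁ hpM).V n := by
      rw [Kum.mem_V]
      show H ^ p * 1 ∈ _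
      rw [mul_one]
      exact hHp
    have := (Kum.one W.C₁ hpM).red_mem_Im (k := 0) hmem fun s => by
      rw [tw_zero]; exact hHm s
    convert this using 2 with s
    exact redL_congr _ _ (tw_zero _ _ _ _).symm
  rw [hn₁ n (by omega)] at hone
  obtain ⟨u, huV, hufix, hum, hur⟩ := (R.tame.Im_spec hA 0 n).2.2 _ hone
  have hu : ∀ s, ∃ w ∈ locS A, iota2 M p hpM s u =
      iota2 M p hpM s H + algebraMap QBar LSer (W.C.π ^ 2) * w := by
    intro s
    have hus : iota2 M p hpM s u ∈ locS A := by rw [← tw_zero W.C₁]; exact hum s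
    obtain ⟨w, hw, e⟩ := W.exists_eq_π_sq_mul hA (sub_mem hus (hHm s))
      (fun τ hτ => by rw [← map_sub, ← iota2_galF, map_sub, hufix τ hτ, hHfix])
      (by
        rw [show (⟨_, sub_mem hus (hHm s)⟩ : locS A) = ⟨_, hus⟩ - ⟨_, hHm s⟩ from rfl, map_sub,
          redL_congr hus (hum s) (tw_zero _ _ _ _).symm, hur s, sub_self])
    exact ⟨w, hw, by rw [← e]; ring⟩
  choose w hw hu using hu
  obtain ⟨ξ, hξ, hξf, hξm, hξr⟩ := (K.Im_spec hA k m).2.2 r hr
  have hξ' : ξ ^ p * K.f ∈ HN M p (p * m) := K.mem_V.mp hξ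
  have hmn : p * (m + n) = p * m + p * n := mul_add _ _ _
  have htwmul : ∀ (x y : FB (p * M)) (s : Fin 2),
      tw hpM W.C.π k (x * y) s = tw hpM W.C.π k x s * iota2 M p hpM s y := fun x y s => by
    rw [tw_apply, tw_apply, map_mul, mul_assoc]
  refine ⟨?_, ?_⟩
  · have hmem : ξ * H ∈ K.V (m + n) := by
      rw [Kum.mem_V, hmn, mul_pow, show ξ ^ p * H ^ p * K.f = ξ ^ p * K.f * H ^ p by ring]
      exact mul_mem_polesSpace hξ' hHp
    have := K.red_mem_Im (k := (k : ℤ)) hmem fun s => by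
      rw [htwmul]; exact mul_mem (hξm s) (hHm s)
    convert this using 2 with s
    rw [redL_congr _ (mul_mem (hξm s) (hHm s)) (htwmul _ _ _),
      redL_mul' (hξm s) (hHm s), hξr, hHr]
  -- the difference
  set φ : FB (p * M) := algebraMap QBar (FB (p * M)) W.C.π⁻¹ *
    (R.q * galF (p * M) W.σ ξ * H - ξ * u) with hφ
  have hφV : φ ∈ R.twist.V (m + n) := by
    rw [hφ, ← Algebra.smul_def]
    refine Submodule.smul_mem _ _ (sub_mem ?_ ?_)
    · rw [Kum.mem_V, hmn]
      show (R.q * galF (p * M) W.σ ξ * H) ^ p * (K.f * R.f₀) ∈ _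
      have h1 : galF (p * M) W.σ (ξ ^ p * K.f) ∈ HN M p (p * m) :=
        galF_mem_poles (p * M) (by rw [galF_upF, galF_jM]) hξ'
      have h2 : (R.q * galF (p * M) W.σ ξ) ^ p * (K.f * R.f₀) ∈ HN M p (p * m) := by
        rw [map_mul, map_pow, R.rel] at h1
        have h3 := Submodule.smul_mem (HN M p (p * m)) R.κ⁻¹ h1
        rw [Algebra.smul_def, map_inv₀] at h3
        convert h3 using 1
        field_simp [(_root_.map_ne_zero (algebraMap QBar (FB (p * M)))).mpr R.κ_ne]
        ring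
      rw [mul_pow _ H p, mul_right_comm]
      exact mul_mem_polesSpace h2 hHp
    · rw [Kum.mem_V, hmn, mul_pow]
      show ξ ^ p * u ^ p * (K.f * R.f₀) ∈ _
      rw [mul_mul_mul_comm]
      exact mul_mem_polesSpace hξ' (R.tame.mem_V.mp huV)
  set α : LSer := algebraMap QBar LSer W.C.π with hα
  have hα0 : α ≠ 0 := (_root_.map_ne_zero _).mpr W.C.π_ne_zero
  have hαloc : α ∈ locS A := algebraMap_mem_locS (mem_of_mem_nonunits W.C.π_nonunit)
  -- the action on the twisted series
  obtain ⟨ω, hω, hωe⟩ := W.exists_σ_π_pow k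
  have hσx : ∀ s, ∃ z ∈ locS A, tw hpM W.C.π k (galF (p * M) W.σ ξ) s =
      tw hpM W.C.π k ξ s * (1 + α * algebraMap QBar LSer
        ((if s = 0 then 0 else (k : QBar)) * (W.u : QBar))) + α ^ 2 * z := by
    intro s
    obtain ⟨z, hz, ez⟩ := W.exists_σ_locS hA hp (hξm s) (fix_tw hξf k s)
    rw [map_pow, ← hα] at ez
    rcases (by fin_cases s <;> simp : s = 0 ∨ s = 1) with rfl | rfl
    · refine ⟨z, hz, ?_⟩
      simp only [if_true, zero_mul, map_zero, mul_zero, add_zero, mul_one]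
      rw [← ez, tw_zero_apply, tw_zero_apply, iota2_galF]
    · set v : QBar := 1 + (k : QBar) * (W.u : QBar) * W.C.π + ω * W.C.π ^ 2 with hv
      have hvA : algebraMap QBar LSer v ∈ locS A := algebraMap_mem_locS (add_mem (add_mem (one_mem A)
        (mul_mem (mul_mem (natCast_mem A k) W.u.2) (mem_of_mem_nonunits W.C.π_nonunit)))
        (mul_mem hω (pow_mem (mem_of_mem_nonunits W.C.π_nonunit) 2)))
      refine ⟨algebraMap QBar LSer ω * tw hpM W.C.π k ξ 1 + algebraMap QBar LSer v * z,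
        add_mem (mul_mem (algebraMap_mem_locS hω) (hξm 1)) (mul_mem hvA hz), ?_⟩
      simp only [one_ne_zero, if_false] at ez ⊢
      have key : tw hpM W.C.π k (galF (p * M) W.σ ξ) 1 = algebraMap QBar LSer v *
          coeffMap (W.σ : QBar →+* QBar) (tw hpM W.C.π k ξ 1) := by
        rw [tw_one_apply, tw_one_apply, iota2_galF, map_mul, coeffMap_algebraMap, ← mul_assoc,
          ← map_mul]
        congr 2
        show _ = v * W.σ (W.C.π ^ (-(k : ℤ)))
        rw [zpow_neg, zpow_natCast, map_inv₀, hωe, mul_inv, mul_left_comm,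
          mul_inv_cancel₀ ?_, mul_one]
        intro hv0
        have := hωe
        rw [hv0, mul_zero, map_eq_zero] at this
        exact pow_ne_zero _ W.C.π_ne_zero this
      rw [key, ez]
      simp only [hv, map_add, map_mul, map_one, map_pow, ← hα]
      ring
  choose z hz hσx using hσx
  set X : Fin 2 → LSer := fun s => tw hpM W.C.π k ξ s with hX
  set β : Fin 2 → LSer := fun s =>
    algebraMap QBar LSer ((if s = 0 then 0 else (k : QBar)) * (W.u : QBar)) with hβ
  have hβA : ∀ s : Fin 2, (if s = 0 then 0 else (k : QBar)) * (W.u : QBar) ∈ A := fun s => by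
    refine mul_mem ?_ W.u.2
    split_ifs
    · exact zero_mem _
    · exact natCast_mem A k
  set rest : Fin 2 → LSer := fun s => R.y s * β s * X s * iota2 M p hpM s H +
    z s * iota2 M p hpM s H + α * (R.y s * z s * iota2 M p hpM s H) - X s * w s with hrest
  have hrestm : ∀ s, rest s ∈ locS A := fun s => by
    refine sub_mem (add_mem (add_mem ?_ ?_) ?_) (mul_mem (hξm s) (hw s))
    · exact mul_mem (mul_mem (mul_mem (R.y_mem s) (algebraMap_mem_locS (hβA s))) (hξm s)) (hHm s)
    · exact mul_mem (hz s) (hHm s)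
    · exact mul_mem hαloc (mul_mem (mul_mem (R.y_mem s) (hz s)) (hHm s))
  have etw : ∀ s, tw hpM W.C.π k φ s =
      (R.y s + β s) * (X s * iota2 M p hpM s H) + α * rest s := by
    intro s
    rw [tw_apply, hφ, map_mul, map_sub, map_mul, map_mul, map_mul, AlgHom.commutes, map_inv₀,
      R.q_eq, hu s, map_pow (algebraMap QBar LSer), ← hα]
    have e1 := hσx s
    rw [tw_apply] at e1
    have e2 : algebraMap QBar LSer (tsc W.C.π k s) * iota2 M p hpM s ξ = X s := rfl
    have eX : tw hpM W.C.π (↑k) ξ s = X s := rfl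
    rw [eX] at e1
    simp only [hrest, hβ]
    field_simp
    linear_combination (1 + α * R.y s) * iota2 M p hpM s H * e1 -
      (iota2 M p hpM s H + α ^ 2 * w s) * e2
  have hφm : ∀ s, tw hpM W.C.π k φ s ∈ locS A := fun s => by
    rw [etw]
    exact add_mem (mul_mem (add_mem (R.y_mem s) (algebraMap_mem_locS (hβA s)))
      (mul_mem (hξm s) (hHm s))) (mul_mem hαloc (hrestm s))
  have := R.twist.red_mem_Im (k := (k : ℤ)) hφV hφm
  rw [← hn₂ (m + n) (by omega)] at this
  convert this using 2 with s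
  have m1 := mul_mem (add_mem (R.y_mem s) (algebraMap_mem_locS (hβA s)))
    (mul_mem (hξm s) (hHm s))
  have m2 := mul_mem hαloc (hrestm s)
  rw [redL_congr (hφm s) (add_mem m1 m2) (etw s),
    show (⟨_, add_mem m1 m2⟩ : locS A) = ⟨_, m1⟩ + ⟨_, m2⟩ from rfl, map_add,
    redL_mul' hαloc (hrestm s), show redL A ⟨α, hαloc⟩ = 0 from
      (redL_algebraMap (mem_of_mem_nonunits W.C.π_nonunit)).trans
        (by rw [(residue_eq_zero_iff _).mpr W.C.π_nonunit, map_zero]),
    zero_mul, add_zero,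
    redL_mul' (add_mem (R.y_mem s) (algebraMap_mem_locS (hβA s))) (mul_mem (hξm s) (hHm s)),
    redL_mul' (hξm s) (hHm s),
    show (⟨_, add_mem (R.y_mem s) (algebraMap_mem_locS (hβA s))⟩ : locS A) =
      ⟨_, R.y_mem s⟩ + ⟨_, algebraMap_mem_locS (hβA s)⟩ from rfl, map_add,
    redL_algebraMap (hβA s), hξr, hHr]
  congr 3
  rw [show (⟨_, hβA s⟩ : A) = (if s = 0 then (0 : A) else (k : A)) * W.u from
    Subtype.ext (by split_ifs <;> push_cast <;> rfl), map_mul]
  split_ifs <;> simp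

end Fermat.Agent.RT.MazurP

end
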