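import Fermat.Agent.RT.MazurP.Count

/-!
# The equalities forced by the count

When the vertical unit has only zeros of order twelve, in the number predicted by the genus, the
count is an equality: orders of reductions are divisible by the exponent away from these zeros, satisfy one
congruence at each of them, and all projections of the reduced spaces are full.
-/

set_option autoImplicit false
set_option linter.unusedSectionVars false

noncomputable section

namespace Fermat.Agent.RT.MazurP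

open ModularCurve AlgebraicCurve Fermat.Agent.Semistable Fermat.Agent.Arith
open Fermat.Agent.RT.Mazur

variable {A : ValuationSubring QBar} {p M : ℕ} [Fact p.Prime] [NeZero M]
variable {hpM : ¬ p ∣ M} {C : CoefField A p} {l : ℕ}
variable [FF.IsFunctionField (Res A) (KM A M)]

/-- The trivial class over `C`. -/
def Kum.one (C : CoefField A p) (hpM : ¬ p ∣ M) : Kum hpM C p where
  l_pos := (Fact.out : p.Prime).pos
  f := 1
  f_ne := one_ne_zero
  dvd v := by rw [v.ord_one]; exact dvd_zero _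
  fix τ _ := map_one _
  v := 0
  fb := 1
  fb_ne _ := one_ne_zero
  spec s := by
    have e : algebraMap QBar LSer (C.π ^ (-(0 : Fin 2 → ℤ) s)) * iota2 M p hpM s 1 = 1 := by
      rw [Pi.zero_apply, neg_zero, zpow_zero, map_one, map_one, one_mul]
    exact ⟨by rw [e]; exact one_mem _, (redL_congr _ (one_mem _) e).trans (map_one (redL A))⟩

/-- The divisor of the zeros of the reduced unit away from the cusps. -/
def VUnit.oD (V : VUnit A hpM) : Divisor (Res A) (KM A M) :=
  Finsupp.onFinset (FF.div (Res A) V.ub).support V.oW fun P h => by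
    rw [Finsupp.mem_support_iff, FF.div_apply]
    intro h0
    exact h (by rw [VUnit.oW, h0, ite_self])

/-- The reduced unit has only zeros of order twelve away from the cusps, as many as the difference
of the genera. -/
structure VUnit.Simple (V : VUnit A hpM) : Prop where
  val : ∀ P, V.oW P = 0 ∨ V.oW P = 12
  genus : 12 * ((genusFF QBar (FB (p * M)) : ℤ) + 1 - 2 * genusFF (Res A) (KM A M)) =
    Divisor.degree V.oD

/-- Exactness of a rounding. -/
theorem dvd_of_mul_cdiv_eq {a b : ℤ} (h : b * cdiv a b = a) : b ∣ a := ⟨_, h.symm⟩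

namespace Kum

variable [CharP (Res A) p] (K : Kum hpM C l) (V : VUnit A hpM)

theorem degree_oD_eq :
    Divisor.degree V.oD = ∑ P ∈ K.S₀ V, V.oW P := by
  classical
  have := residueField_isAlgClosed A
  rw [FF.degree_eq_sum V.oD (K.S₀ V) (Finsupp.support_onFinset_subset.trans
    Finset.subset_union_right)]
  exact Finset.sum_congr rfl fun P _ => by simp [FF.deg_eq_one, VUnit.oD]

theorem sum_s₀_eq : ∑ P ∈ K.S₀ V, K.s₀ P = 0 ∧ ∑ P ∈ K.S₀ V, K.t₀ P = 0 := by
  classical
  have := residueField_isAlgClosed A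
  constructor
  · have h := FF.degree_div (K := Res A) (K.fb 0)
    rw [FF.degree_eq_sum _ (K.S₀ V)
      (Finset.subset_union_left.trans Finset.subset_union_left)] at h
    simpa [FF.deg_eq_one, s₀] using h
  · have h := FF.degree_div (K := Res A) (K.fb 1)
    rw [FF.degree_eq_sum _ (K.S₀ V)
      (Finset.subset_union_right.trans Finset.subset_union_left)] at h
    simpa [FF.deg_eq_one, t₀] using h

theorem lA_of_node {P : Place (Res A) (KM A M)} (hP : V.oW P = 12) (k : ℤ) :
    K.lA V k P = cdiv (k + cdiv (K.δ - C.e * K.s₀ P) l) C.e := by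
  have hp : (0 : ℤ) < l := by exact_mod_cast K.l_pos
  have he : (0 : ℤ) < C.e := by exact_mod_cast C.e_pos
  rw [lA, hP, ← cdiv_mul_add hp he]
  refine eq_of_forall_ge_iff fun z => ?_
  rw [cdiv_le_iff (by positivity), cdiv_le_iff (by positivity)]
  constructor <;> intro h <;> linarith

theorem lB_of_node {P : Place (Res A) (KM A M)} (hP : V.oW P = 12) (k : ℤ) :
    K.lB V k P = cdiv (-k + cdiv (-K.δ - C.e * K.t₀ P) l) C.e := by
  have hp : (0 : ℤ) < l := by exact_mod_cast K.l_pos
  have he : (0 : ℤ) < C.e := by exact_mod_cast C.e_pos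
  rw [lB, hP, ← cdiv_mul_add hp he]
  refine eq_of_forall_ge_iff fun z => ?_
  rw [cdiv_le_iff (by positivity), cdiv_le_iff (by positivity)]
  constructor <;> intro h <;> linarith

theorem lAB_of_off {P : Place (Res A) (KM A M)} (hP : V.oW P = 0) (k : ℤ) :
    K.lA V k P = cdiv (-K.s₀ P) l ∧ K.lB V k P = cdiv (-K.t₀ P) l := by
  have hp : (0 : ℤ) < l := by exact_mod_cast K.l_pos
  have he : (0 : ℤ) < C.e := by exact_mod_cast C.e_pos
  constructor <;>
  · first | rw [lA, hP] | rw [lB, hP]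
    refine eq_of_forall_ge_iff fun z => ?_
    rw [cdiv_le_iff (by positivity), cdiv_le_iff hp]
    constructor <;> intro h <;> nlinarith

theorem excess_of_node {P : Place (Res A) (KM A M)} (hP : V.oW P = 12) (k₀ : ℤ) :
    K.excess V k₀ P =
      cdiv (K.δ - C.e * K.s₀ P) l + cdiv (-K.δ - C.e * K.t₀ P) l + C.e := by
  set a := cdiv (K.δ - C.e * K.s₀ P) l with ha
  set b := cdiv (-K.δ - C.e * K.t₀ P) l with hb
  rw [excess, Finset.sum_add_distrib,
    Finset.sum_congr rfl fun (i : ℕ) _ =>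
      show K.lA V (k₀ + i + 1) P = cdiv ((i : ℤ) + (k₀ + 1 + a)) C.e by
        rw [K.lA_of_node V hP, ← ha]; ring_nf,
    sum_cdiv C.e_pos,
    ← Finset.sum_range_reflect,
    Finset.sum_congr rfl fun (i : ℕ) hi =>
      show K.lB V (k₀ + ((C.e - 1 - i : ℕ) : ℤ)) P =
          cdiv ((i : ℤ) + (b - k₀ - ((C.e : ℤ) - 1))) C.e by
        have hie := Finset.mem_range.mp hi
        rw [K.lB_of_node V hP, ← hb]
        congr 1
        omega,
    sum_cdiv C.e_pos]
  ring

theorem excess_of_off {P : Place (Res A) (KM A M)} (hP : V.oW P = 0) (k₀ : ℤ) :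
    K.excess V k₀ P = C.e * (cdiv (-K.s₀ P) l + cdiv (-K.t₀ P) l) := by
  rw [excess, Finset.sum_congr rfl fun (i : ℕ) _ =>
    show K.lA V (k₀ + i + 1) P + K.lB V (k₀ + i) P = cdiv (-K.s₀ P) l + cdiv (-K.t₀ P) l by
      rw [(K.lAB_of_off V hP _).1, (K.lAB_of_off V hP _).2],
    Finset.sum_const, Finset.card_range, nsmul_eq_mul]

/-- The divisibilities of `s₀`, `t₀` by `l`, the genus count on `S₀`, and the projections as full
Riemann–Roch spaces for large `m`. -/
theorem res (hA : A.LiesOverPrime p) (hM : (M : Res A) ≠ 0) (hV : V.Simple) :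
    (∀ P, V.oW P = 0 → (l : ℤ) ∣ K.s₀ P ∧ (l : ℤ) ∣ K.t₀ P) ∧
    (∀ P, V.oW P = 12 → (l : ℤ) ∣ K.δ - C.e * K.s₀ P ∧ (l : ℤ) ∣ K.δ + C.e * K.t₀ P) ∧
    ∀ k : ℤ, 0 ≤ (l : ℤ) * k + K.δ →
      (∑ P ∈ K.S₀ V, (K.lA V (k + 1) P + K.lB V k P) =
          genusFF QBar (FB (p * M)) + 1 - 2 * genusFF (Res A) (KM A M)) ∧
      ∃ m₀ : ℕ, ∀ m, m₀ ≤ m →
        K.Pr (k + 1) m 0 = LS (K.EA V (k + 1) m) ∧ K.Pr k m 1 = LS (K.EB V k m) := by
  classical
  have hp : (0 : ℤ) < l := by exact_mod_cast K.l_pos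
  have he : (0 : ℤ) < C.e := by exact_mod_cast C.e_pos
  -- the slack at each place
  let sl : ℤ → Place (Res A) (KM A M) → ℤ := fun k P =>
    12 * (l : ℤ) * K.excess V k P + 12 * C.e * (K.s₀ P + K.t₀ P) - C.e * l * V.oW P
  have hsl : ∀ k P, 0 ≤ sl k P := by
    intro k P
    rcases hV.val P with h | h <;> simp only [sl]
    · rw [K.excess_of_off V h, h]
      nlinarith [le_mul_cdiv (a := -K.s₀ P) hp, le_mul_cdiv (a := -K.t₀ P) hp]
    · rw [K.excess_of_node V h, h]
      nlinarith [le_mul_cdiv (a := K.δ - C.e * K.s₀ P) hp,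
        le_mul_cdiv (a := -K.δ - C.e * K.t₀ P) hp]
  have key : ∀ k : ℤ, 0 ≤ (l : ℤ) * k + K.δ → (∀ P, sl k P = 0) ∧
      ∑ P ∈ K.S₀ V, K.excess V k P =
        C.e * (genusFF QBar (FB (p * M)) + 1 - 2 * genusFF (Res A) (KM A M)) := by
    intro k hk
    have hle := (K.count V hA hM hk).1
    have hs := K.sum_s₀_eq V
    have hg := hV.genus
    rw [K.degree_oD_eq] at hg
    have htot : ∑ P ∈ K.S₀ V, sl k P = 12 * (l : ℤ) * ∑ P ∈ K.S₀ V, K.excess V k P -
        C.e * l * ∑ P ∈ K.S₀ V, V.oW P := by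
      simp only [sl, Finset.sum_sub_distrib, Finset.sum_add_distrib, ← Finset.mul_sum, hs.1, hs.2]
      ring
    rw [← hg] at htot
    have hnn := Finset.sum_nonneg fun P (_ : P ∈ K.S₀ V) => hsl k P
    have heq : ∑ P ∈ K.S₀ V, sl k P = 0 := by nlinarith
    refine ⟨fun P => ?_, by nlinarith⟩
    by_cases hP : P ∈ K.S₀ V
    · exact (Finset.sum_eq_zero_iff_of_nonneg fun Q _ => hsl k Q).mp heq P hP
    · obtain ⟨h1, h2, h3⟩ := K.data_zero_of_notMem V hP
      simp only [sl]
      rw [K.excess_of_off V h3, h1, h2, h3]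
      simp [cdiv_zero]
  obtain ⟨k, hk⟩ : ∃ k : ℤ, 0 ≤ (l : ℤ) * k + K.δ := ⟨|K.δ|, by
    nlinarith [abs_nonneg K.δ, neg_abs_le K.δ]⟩
  have h0 := (key k hk).1
  refine ⟨fun P hP => ?_, fun P hP => ?_, fun k hk => ?_⟩
  · have h := h0 P
    simp only [sl] at h
    rw [K.excess_of_off V hP, hP] at h
    have l1 := le_mul_cdiv (a := -K.s₀ P) hp
    have l2 := le_mul_cdiv (a := -K.t₀ P) hp
    constructor
    · exact dvd_neg.mp (dvd_of_mul_cdiv_eq (by nlinarith))
    · exact dvd_neg.mp (dvd_of_mul_cdiv_eq (by nlinarith))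
  · have h := h0 P
    simp only [sl] at h
    rw [K.excess_of_node V hP, hP] at h
    have l1 := le_mul_cdiv (a := K.δ - C.e * K.s₀ P) hp
    have l2 := le_mul_cdiv (a := -K.δ - C.e * K.t₀ P) hp
    constructor
    · exact dvd_of_mul_cdiv_eq (by nlinarith)
    · have := dvd_of_mul_cdiv_eq (a := -K.δ - C.e * K.t₀ P) (b := (l : ℤ)) (by nlinarith)
      rw [show K.δ + C.e * K.t₀ P = -(-K.δ - C.e * K.t₀ P) by ring]
      exact dvd_neg.mpr this
  · obtain ⟨hsum, m₀, hm₀⟩ := (K.count V hA hM hk).2 (key k hk).2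
    have h1 := hsum 0 C.e_pos
    simp only [Nat.cast_zero, add_zero] at h1
    refine ⟨h1, m₀, fun m hm => ?_⟩
    have h2 := hm₀ m hm 0 C.e_pos
    simpa using h2

end Kum

end Fermat.Agent.RT.MazurP

end
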